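import Fermat.Agent.Global.Fund.Cyclo

/-!
The `ℓ`-th cyclotomic field at a prime: a Frobenius away from `ℓ`, total ramification at `ℓ`.
-/

set_option autoImplicit false

noncomputable section

namespace FLTAgent.Global

open Polynomial

scoped instance isAlgClosureKq (r : Nat.Primes) : IsAlgClosure ℚ_[(r : ℕ)] (Kq r) :=
  ⟨inferInstance, AlgebraicClosure.isAlgebraic _⟩

scoped instance normalKq (r : Nat.Primes) : Normal ℚ_[(r : ℕ)] (Kq r) := IsAlgClosure.normal _ _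

scoped instance isGaloisKq (r : Nat.Primes) : IsGalois ℚ_[(r : ℕ)] (Kq r) :=
  isGalois_iff.2 ⟨inferInstance, inferInstance⟩

variable (ℓ r : Nat.Primes)

/-- The image of `zeta ℓ` in `Q̄_r`. -/
abbrev zloc : Kq r := emb r (zeta ℓ)

lemma zloc_spec : IsPrimitiveRoot (zloc ℓ r) (ℓ : ℕ) :=
  (zeta_spec ℓ).map_of_injective (emb r).injective

lemma tau_zloc (τ : Gq r) :
    τ (zloc ℓ r) = zloc ℓ r ^ (cyc ℓ (loc r τ) : ZMod (ℓ : ℕ)).val := by
  rw [← emb_loc, cyc_spec, map_pow]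

lemma cyc_loc_eq {τ : Gq r} {i : ℕ} (h : τ (zloc ℓ r) = zloc ℓ r ^ i) :
    (cyc ℓ (loc r τ) : ZMod (ℓ : ℕ)) = i := by
  refine cyc_eq_of_apply ℓ ((emb r).injective ?_)
  show emb r _ = emb r _
  rw [emb_loc, map_pow]
  exact h

lemma norm_sub_le_max' {r : Nat.Primes} (x y : Kq r) : ‖x - y‖ ≤ max ‖x‖ ‖y‖ := by
  simpa [sub_eq_add_neg, norm_neg] using IsUltrametricDist.norm_add_le_max x (-y)

lemma norm_root {x : Kq r} {n : ℕ} (hn : n ≠ 0) (h : x ^ n = 1) : ‖x‖ = 1 := by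
  have := congrArg norm h
  rw [norm_pow, norm_one] at this
  exact (pow_eq_one_iff_of_nonneg (norm_nonneg x) hn).1 this

lemma norm_eq_zpow_algebraMap {c : ℚ_[(r : ℕ)]} (hc : c ≠ 0) :
    ‖algebraMap ℚ_[(r : ℕ)] (Kq r) c‖ = ((r : ℕ) : ℝ) ^ (-c.valuation) := by
  rw [norm_algebraMap', Padic.norm_eq_zpow_neg_valuation hc]

/-- The minimal polynomial of a root of unity has integral coefficients. -/
lemma norm_coeff_minpoly_le (i : ℕ) : ‖(minpoly ℚ_[(r : ℕ)] (zloc ℓ r)).coeff i‖ ≤ 1 := by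
  set f := minpoly ℚ_[(r : ℕ)] (zloc ℓ r)
  have hroots : ∀ ρ ∈ (f.map (algebraMap _ (Kq r))).roots, ‖ρ‖ ≤ 1 := by
    intro ρ hρ
    rw [mem_roots', IsRoot, eval_map_algebraMap] at hρ
    have hd : f ∣ X ^ (ℓ : ℕ) - 1 := minpoly.dvd _ _ (by simp [(zloc_spec ℓ r).pow_eq_one])
    obtain ⟨g, hg⟩ := hd
    have := congrArg (aeval ρ) hg
    rw [map_mul, hρ.2, zero_mul, map_sub, map_pow, aeval_X, map_one, sub_eq_zero] at this
    exact (norm_root r ℓ.2.ne_zero this).le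
  have hmon : (f.map (algebraMap _ (Kq r))).Monic :=
    (minpoly.monic (Algebra.IsIntegral.isIntegral _)).map _
  have hsplit := IsAlgClosed.splits (f.map (algebraMap _ (Kq r)))
  rw [← norm_algebraMap' (𝕜' := Kq r), ← coeff_map, hsplit.eq_prod_roots_of_monic hmon]
  generalize (f.map (algebraMap _ (Kq r))).roots = s at hroots
  induction s using Multiset.induction generalizing i with
  | empty => simp [coeff_one]; split_ifs <;> simp
  | cons a s ih =>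
    rw [Multiset.map_cons, Multiset.prod_cons, sub_mul, coeff_sub]
    refine (norm_sub_le_max' _ _).trans (max_le ?_ ?_)
    · rcases i with _ | i
      · simp
      · rw [coeff_X_mul]; exact ih i fun ρ hρ => hroots ρ (Multiset.mem_cons_of_mem hρ)
    · rw [coeff_C_mul, norm_mul]
      exact mul_le_one₀ (hroots a (Multiset.mem_cons_self a s)) (norm_nonneg _)
        (ih i fun ρ hρ => hroots ρ (Multiset.mem_cons_of_mem hρ))

lemma norm_natCast_lt_one_iff (n : ℕ) : ‖(n : Kq r)‖ < 1 ↔ (r : ℕ) ∣ n := by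
  rw [← map_natCast (algebraMap ℚ_[(r : ℕ)] (Kq r)), norm_algebraMap']
  exact_mod_cast Padic.norm_intCast_lt_one_iff (p := (r : ℕ)) (k := (n : ℤ))

/-- Distinct roots of unity of order `ℓ` stay distinct modulo the maximal ideal away from `ℓ`. -/
lemma norm_one_sub_root (hne : r ≠ ℓ) {ρ : Kq r} (hρ : IsPrimitiveRoot ρ (ℓ : ℕ)) :
    ‖1 - ρ‖ = 1 := by
  classical
  have hle : ∀ z : Kq r, IsPrimitiveRoot z (ℓ : ℕ) → ‖1 - z‖ ≤ 1 := fun z hz =>
    (norm_sub_le_max' _ _).trans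
      (max_le norm_one.le (norm_root r ℓ.2.ne_zero hz.pow_eq_one).le)
  refine le_antisymm (hle ρ hρ) (le_of_not_gt fun hlt => ?_)
  have heval := eval_one_cyclotomic_prime (R := Kq r) (p := (ℓ : ℕ)) (hn := ⟨ℓ.2⟩)
  rw [cyclotomic_eq_prod_X_sub_primitiveRoots hρ, eval_prod] at heval
  simp only [eval_sub, eval_X, eval_C] at heval
  have : ‖((ℓ : ℕ) : Kq r)‖ < 1 := by
    rw [← heval, ← Finset.mul_prod_erase _ _ ((mem_primitiveRoots ℓ.2.pos).2 hρ), norm_mul,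
      norm_prod]
    exact mul_lt_one_of_nonneg_of_lt_one_left (norm_nonneg _) hlt
      (Finset.prod_le_one (fun _ _ => norm_nonneg _) fun z hz =>
        hle z ((mem_primitiveRoots ℓ.2.pos).1 (Finset.mem_of_mem_erase hz)))
  exact hne (Subtype.ext ((Nat.prime_dvd_prime_iff_eq r.2 ℓ.2).1 ((norm_natCast_lt_one_iff r _).1 this)))

lemma exists_nat_near {c : ℚ_[(r : ℕ)]} (hc : ‖c‖ ≤ 1) : ∃ n : ℕ, ‖c - n‖ < 1 := by
  refine ⟨PadicInt.zmodRepr ⟨c, hc⟩, ?_⟩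
  have h := (PadicInt.zmodRepr_spec (x := (⟨c, hc⟩ : ℤ_[(r : ℕ)]))).2
  rw [IsLocalRing.mem_maximalIdeal, PadicInt.mem_nonunits, PadicInt.norm_def] at h
  exact h

/-- Reduction of a polynomial at a Frobenius twist of the point. -/
lemma norm_aeval_pow_sub (f : ℚ_[(r : ℕ)][X]) (hf : ∀ i, ‖f.coeff i‖ ≤ 1) {x : Kq r} (hx : ‖x‖ ≤ 1) :
    ‖aeval (x ^ (r : ℕ)) f - aeval x f ^ (r : ℕ)‖ < 1 := by
  let O : Subring (Kq r) := (padicIntegers (r : ℕ)).toSubring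
  let R := IsLocalRing.ResidueField (padicIntegers (r : ℕ))
  have hmem : ∀ y : Kq r, ‖y‖ ≤ 1 → y ∈ padicIntegers (r : ℕ) := fun y hy => by
    rw [mem_padicIntegers_iff]; exact_mod_cast hy
  have hres : ∀ y : padicIntegers (r : ℕ), IsLocalRing.residue _ y = 0 ↔ ‖(y : Kq r)‖ < 1 := by
    intro y
    rw [IsLocalRing.residue_eq_zero_iff, ← ValuationSubring.coe_mem_nonunits_iff,
      ValuationSubring.mem_nonunits_iff_exists_mem_maximalIdeal]
    constructor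
    · rintro ⟨hy, hmax⟩
      rw [IsLocalRing.mem_maximalIdeal, mem_nonunits_iff] at hmax
      refine lt_of_le_of_ne (by exact_mod_cast (mem_padicIntegers_iff (r : ℕ)).1 hy) fun h1 => hmax ?_
      have hy0 : (y : Kq r) ≠ 0 := fun h0 => by simp [h0] at h1
      refine ⟨⟨y, ⟨(y : Kq r)⁻¹, hmem _ (by rw [norm_inv, h1, inv_one])⟩, ?_, ?_⟩, rfl⟩
      · exact Subtype.ext (mul_inv_cancel₀ hy0)
      · exact Subtype.ext (inv_mul_cancel₀ hy0)
    · intro hlt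
      refine ⟨y.2, ?_⟩
      rw [IsLocalRing.mem_maximalIdeal, mem_nonunits_iff]
      rintro ⟨u, hu⟩
      have h2 : (y : Kq r) * ((u⁻¹ : (padicIntegers (r : ℕ))ˣ) : padicIntegers (r : ℕ)) = 1 := by
        have h' := congrArg Subtype.val u.mul_inv
        rw [hu] at h'; exact h'
      have h3 := congrArg norm h2
      rw [norm_mul, norm_one] at h3
      have : ‖(((u⁻¹ : (padicIntegers (r : ℕ))ˣ) : padicIntegers (r : ℕ)) : Kq r)‖ ≤ 1 := by
        exact_mod_cast (mem_padicIntegers_iff (r : ℕ)).1 (SetLike.coe_mem _)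
      nlinarith [norm_nonneg (y : Kq r)]
  have : CharP R (r : ℕ) := by
    rw [CharP.charP_iff_prime_eq_zero r.2, ← map_natCast (IsLocalRing.residue _), hres]
    exact (norm_natCast_lt_one_iff r _).2 dvd_rfl
  choose c hc using fun i => exists_nat_near r (hf i)
  have hsum : ∀ z : Kq r, aeval z f
      = ∑ i ∈ Finset.range (f.natDegree + 1), algebraMap _ _ (f.coeff i) * z ^ i := fun z => by
    rw [aeval_eq_sum_range]; simp [Algebra.smul_def]
  let C : ℕ → padicIntegers (r : ℕ) := fun i => ⟨algebraMap _ _ (f.coeff i), hmem _ (by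
    rw [norm_algebraMap']; exact hf i)⟩
  have hC : ∀ i, IsLocalRing.residue _ (C i) = (c i : R) := by
    intro i
    rw [← sub_eq_zero, ← map_natCast (IsLocalRing.residue (padicIntegers (r : ℕ))), ← map_sub, hres]
    show ‖algebraMap _ (Kq r) (f.coeff i) - ((c i : padicIntegers (r : ℕ)) : Kq r)‖ < 1
    rw [show ((c i : padicIntegers (r : ℕ)) : Kq r) = ((c i : ℕ) : Kq r) from map_natCast
      (padicIntegers (r : ℕ)).subtype _, ← map_natCast (algebraMap ℚ_[(r : ℕ)] (Kq r)), ← map_sub,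
      norm_algebraMap']
    exact hc i
  set X₀ : padicIntegers (r : ℕ) := ⟨x, hmem _ hx⟩
  have key : IsLocalRing.residue _ ((∑ i ∈ Finset.range (f.natDegree + 1), C i * (X₀ ^ (r : ℕ)) ^ i)
      - (∑ i ∈ Finset.range (f.natDegree + 1), C i * X₀ ^ i) ^ (r : ℕ)) = 0 := by
    simp only [map_sub, map_pow, map_sum, map_mul, hC]
    rw [sum_pow_char (r : ℕ), sub_eq_zero]
    refine Finset.sum_congr rfl fun i _ => ?_
    rw [mul_pow, pow_right_comm]
    congr 1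
    rw [← frobenius_def, map_natCast]
  rw [hres] at key
  rw [hsum, hsum]
  convert key using 2
  simp [C, X₀]

/-- A Frobenius at `r ≠ ℓ`. -/
theorem exists_cyc_loc_eq_natCast (hne : r ≠ ℓ) :
    ∃ τ : Gq r, (cyc ℓ (loc r τ) : ZMod (ℓ : ℕ)) = (r : ℕ) := by
  classical
  set z := zloc ℓ r
  set f := minpoly ℚ_[(r : ℕ)] z with hf
  have hzint : IsIntegral ℚ_[(r : ℕ)] z := Algebra.IsIntegral.isIntegral z
  have hlt : ‖aeval (z ^ (r : ℕ)) f‖ < 1 := by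
    have := norm_aeval_pow_sub r f (norm_coeff_minpoly_le ℓ r)
      (norm_root r ℓ.2.ne_zero (zloc_spec ℓ r).pow_eq_one).le
    rwa [hf, minpoly.aeval, zero_pow r.2.ne_zero, sub_zero] at this
  have hsplit := IsAlgClosed.splits (f.map (algebraMap _ (Kq r)))
  rw [← eval_map_algebraMap, hsplit.eq_prod_roots_of_monic ((minpoly.monic hzint).map _),
    eval_multiset_prod, Multiset.map_map] at hlt
  obtain ⟨ρ, hρ, hρlt⟩ : ∃ ρ ∈ (f.map (algebraMap _ (Kq r))).roots, ‖z ^ (r : ℕ) - ρ‖ < 1 := by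
    by_contra hcon
    push Not at hcon
    refine (not_le.2 hlt) ?_
    generalize (f.map (algebraMap _ (Kq r))).roots = s at hcon
    induction s using Multiset.induction with
    | empty => simp
    | cons a s ih =>
      rw [Multiset.map_cons, Multiset.prod_cons, norm_mul]
      simp only [Function.comp_apply, eval_sub, eval_X, eval_C] at ih ⊢
      refine one_le_mul_of_one_le_of_one_le (hcon a (Multiset.mem_cons_self a s)) ?_
      have := ih fun b hb => hcon b (Multiset.mem_cons_of_mem hb)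
      convert this using 4
  rw [mem_roots', IsRoot, eval_map_algebraMap] at hρ
  obtain ⟨σ, hσ⟩ := minpoly.exists_algEquiv_of_root' (K := ℚ_[(r : ℕ)]) hzint.isAlgebraic hρ.2
  have hρv := tau_zloc ℓ r σ
  rw [hσ] at hρv
  set i := (cyc ℓ (loc r σ) : ZMod (ℓ : ℕ)).val
  refine ⟨σ, cyc_loc_eq ℓ r (hσ.trans ?_)⟩
  by_contra hcon
  -- the two roots are distinct modulo the maximal ideal
  have hw : IsPrimitiveRoot (ρ / z ^ (r : ℕ)) (ℓ : ℕ) := by
    refine (Nat.prime_iff.1 ℓ.2).ne_zero |> fun h0 => ?_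
    have hne1 : ρ / z ^ (r : ℕ) ≠ 1 := fun h =>
      hcon (div_eq_one_iff_eq (pow_ne_zero _ ((zloc_spec ℓ r).ne_zero h0)) |>.1 h)
    have hp : (ρ / z ^ (r : ℕ)) ^ (ℓ : ℕ) = 1 := by
      rw [div_pow, hρv, ← pow_mul, ← pow_mul, mul_comm i, mul_comm (r : ℕ), pow_mul, pow_mul,
        (zloc_spec ℓ r).pow_eq_one, one_pow, one_pow, div_one]
    have ho : orderOf (ρ / z ^ (r : ℕ)) = (ℓ : ℕ) := by
      have : Fact (ℓ : ℕ).Prime := ⟨ℓ.2⟩
      exact orderOf_eq_prime hp hne1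
    exact ho ▸ IsPrimitiveRoot.orderOf _
  have h1 := norm_one_sub_root ℓ r hne hw
  rw [one_sub_div (pow_ne_zero _ ((zloc_spec ℓ r).ne_zero ℓ.2.ne_zero)), norm_div, norm_pow,
    norm_root r ℓ.2.ne_zero (zloc_spec ℓ r).pow_eq_one, one_pow, div_one] at h1
  exact absurd h1 hρlt.ne

/-- All the `1 - ρ` have the same norm. -/
lemma norm_one_sub_pow {i : ℕ} (hi : ¬ (ℓ : ℕ) ∣ i) : ‖1 - zloc ℓ r ^ i‖ = ‖1 - zloc ℓ r‖ := by
  have key : ∀ (a : Kq r) (j : ℕ), ‖a‖ ≤ 1 → ‖1 - a ^ j‖ ≤ ‖1 - a‖ := by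
    intro a j ha
    rw [← geom_sum_mul_neg, norm_mul]
    exact mul_le_of_le_one_left (norm_nonneg _)
      (IsUltrametricDist.norm_sum_le_of_forall_le_of_nonneg zero_le_one fun k _ => by
        rw [norm_pow]; exact pow_le_one₀ (norm_nonneg _) ha)
  have hz1 := (norm_root r ℓ.2.ne_zero (zloc_spec ℓ r).pow_eq_one).le
  refine le_antisymm (key _ i hz1) ?_
  obtain ⟨j, hj⟩ : ∃ j : ℕ, (i * j) % (ℓ : ℕ) = 1 := by
    have : Fact (ℓ : ℕ).Prime := ⟨ℓ.2⟩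
    refine ⟨((i : ZMod (ℓ : ℕ))⁻¹).val, ?_⟩
    rw [← ZMod.val_natCast, Nat.cast_mul, ZMod.natCast_zmod_val,
      mul_inv_cancel₀ (by rwa [Ne, ZMod.natCast_eq_zero_iff]), ZMod.val_one]
  have := key (zloc ℓ r ^ i) j (by rw [norm_pow]; exact pow_le_one₀ (norm_nonneg _) hz1)
  rwa [← pow_mul, ← Nat.div_add_mod (i * j) (ℓ : ℕ), hj, pow_add, pow_mul,
    (zloc_spec ℓ r).pow_eq_one, one_pow, one_mul, pow_one] at this

/-- The uniformiser `1 - ζ`. -/
abbrev piloc : Kq ℓ := 1 - zloc ℓ ℓ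

lemma norm_one_sub_primitive {ρ : Kq r} (hρ : IsPrimitiveRoot ρ (ℓ : ℕ)) :
    ‖1 - ρ‖ = ‖1 - zloc ℓ r‖ := by
  obtain ⟨i, hi, rfl⟩ := (zloc_spec ℓ r).eq_pow_of_pow_eq_one hρ.pow_eq_one
  refine norm_one_sub_pow ℓ r fun hd => ?_
  obtain ⟨c, rfl⟩ := hd
  rw [pow_mul, (zloc_spec ℓ r).pow_eq_one, one_pow] at hρ
  exact ℓ.2.one_lt.ne' (hρ.unique IsPrimitiveRoot.one)

lemma norm_piloc_pow : ‖piloc ℓ‖ ^ ((ℓ : ℕ) - 1) = ((ℓ : ℕ) : ℝ)⁻¹ := by
  classical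
  have heval := eval_one_cyclotomic_prime (R := Kq ℓ) (p := (ℓ : ℕ)) (hn := ⟨ℓ.2⟩)
  rw [cyclotomic_eq_prod_X_sub_primitiveRoots (zloc_spec ℓ ℓ), eval_prod] at heval
  simp only [eval_sub, eval_X, eval_C] at heval
  have := congrArg norm heval
  rw [norm_prod, Finset.prod_congr rfl (g := fun _ => ‖piloc ℓ‖) fun z hz =>
    norm_one_sub_primitive ℓ ℓ ((mem_primitiveRoots ℓ.2.pos).1 hz), Finset.prod_const,
    (zloc_spec ℓ ℓ).card_primitiveRoots, Nat.totient_prime ℓ.2,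
    ← map_natCast (algebraMap ℚ_[(ℓ : ℕ)] (Kq ℓ)), norm_algebraMap', Padic.norm_p] at this
  exact this

/-- `ℤ ∋ n ↦ ‖π‖ ^ n` meets `ℓ^ℤ` only in multiples of `ℓ - 1`. -/
lemma dvd_of_norm_piloc {n : ℤ} {m : ℤ} (h : ‖piloc ℓ‖ ^ n = ((ℓ : ℕ) : ℝ) ^ m) :
    (((ℓ : ℕ) - 1 : ℕ) : ℤ) ∣ n := by
  have h1 := congrArg (fun t : ℝ => t ^ (((ℓ : ℕ) - 1 : ℕ) : ℤ)) h
  simp only [← zpow_mul] at h1
  rw [mul_comm n, zpow_mul, zpow_natCast, norm_piloc_pow, inv_zpow', ← sub_eq_zero] at h1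
  have h2 := zpow_right_injective₀ (a := ((ℓ : ℕ) : ℝ)) (Nat.cast_pos.2 ℓ.2.pos)
    (by exact_mod_cast ℓ.2.one_lt.ne') (sub_eq_zero.1 h1)
  exact ⟨-m, by rw [mul_comm]; linarith⟩

lemma minpoly_natDegree : (minpoly ℚ_[(ℓ : ℕ)] (zloc ℓ ℓ)).natDegree = (ℓ : ℕ) - 1 := by
  set f := minpoly ℚ_[(ℓ : ℕ)] (zloc ℓ ℓ)
  have hint : IsIntegral ℚ_[(ℓ : ℕ)] (zloc ℓ ℓ) := Algebra.IsIntegral.isIntegral _
  have : Fact (ℓ : ℕ).Prime := ⟨ℓ.2⟩
  have hdvd : f ∣ cyclotomic (ℓ : ℕ) ℚ_[(ℓ : ℕ)] := minpoly.dvd _ _ (by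
    rw [← eval_map_algebraMap, map_cyclotomic]
    exact (isRoot_cyclotomic_iff.2 (zloc_spec ℓ ℓ)))
  have hle : f.natDegree ≤ (ℓ : ℕ) - 1 := by
    have := natDegree_le_of_dvd hdvd (cyclotomic_ne_zero _ _)
    rwa [natDegree_cyclotomic, Nat.totient_prime ℓ.2] at this
  refine le_antisymm hle ?_
  have hsplit := IsAlgClosed.splits (f.map (algebraMap _ (Kq ℓ)))
  have hcard := hsplit.natDegree_eq_card_roots
  rw [natDegree_map] at hcard
  have hnorm : ‖algebraMap ℚ_[(ℓ : ℕ)] (Kq ℓ) (f.eval 1)‖ = ‖piloc ℓ‖ ^ (f.natDegree : ℤ) := by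
    rw [← eval₂_at_apply, map_one, ← eval_map, hsplit.eq_prod_roots_of_monic ((minpoly.monic hint).map _),
      eval_multiset_prod, Multiset.map_map, zpow_natCast, hcard]
    have hr : ∀ ρ ∈ (f.map (algebraMap _ (Kq ℓ))).roots, IsPrimitiveRoot ρ (ℓ : ℕ) := by
      intro ρ hρ
      rw [mem_roots', IsRoot, eval_map_algebraMap] at hρ
      obtain ⟨g, hg⟩ := hdvd
      have hz : IsRoot ((cyclotomic (ℓ : ℕ) ℚ_[(ℓ : ℕ)]).map (algebraMap _ (Kq ℓ))) ρ := by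
        rw [IsRoot, eval_map_algebraMap, hg, map_mul, hρ.2, zero_mul]
      rw [map_cyclotomic] at hz
      exact isRoot_cyclotomic_iff.1 hz
    generalize (f.map (algebraMap _ (Kq ℓ))).roots = s at hr
    induction s using Multiset.induction with
    | empty => simp
    | cons a s ih =>
      rw [Multiset.map_cons, Multiset.prod_cons, norm_mul, Multiset.card_cons, pow_succ',
        ih fun b hb => hr b (Multiset.mem_cons_of_mem hb)]
      simp only [Function.comp_apply, eval_sub, eval_X, eval_C]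
      rw [norm_one_sub_primitive ℓ ℓ (hr a (Multiset.mem_cons_self a s))]
  have h0 : f.eval 1 ≠ 0 := by
    intro h
    rw [h, map_zero, norm_zero] at hnorm
    have hpi := norm_piloc_pow ℓ
    have hpi0 : ‖piloc ℓ‖ = 0 := pow_eq_zero_iff'.1 (zpow_natCast ‖piloc ℓ‖ _ ▸ hnorm.symm) |>.1
    rw [hpi0, zero_pow (Nat.sub_ne_zero_of_lt ℓ.2.one_lt)] at hpi
    exact (inv_ne_zero (Nat.cast_ne_zero.2 ℓ.2.ne_zero)) hpi.symm
  rw [norm_eq_zpow_algebraMap ℓ h0] at hnorm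
  obtain ⟨c, hc⟩ := dvd_of_norm_piloc ℓ hnorm.symm
  have hpos := minpoly.natDegree_pos hint
  exact Nat.le_of_dvd hpos (Int.natCast_dvd_natCast.1 ⟨c, hc⟩)

/-- Total ramification: the local Galois group at `ℓ` realises the whole character. -/
theorem exists_cyc_loc_eq (u : (ZMod (ℓ : ℕ))ˣ) : ∃ τ : Gq ℓ, cyc ℓ (loc ℓ τ) = u := by
  have : Fact (ℓ : ℕ).Prime := ⟨ℓ.2⟩
  set i := (u : ZMod (ℓ : ℕ)).val
  have hint : IsIntegral ℚ_[(ℓ : ℕ)] (zloc ℓ ℓ) := Algebra.IsIntegral.isIntegral _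
  have hf : minpoly ℚ_[(ℓ : ℕ)] (zloc ℓ ℓ) = cyclotomic (ℓ : ℕ) ℚ_[(ℓ : ℕ)] := by
    refine (eq_of_monic_of_dvd_of_natDegree_le (minpoly.monic hint) (cyclotomic.monic _ _)
      (minpoly.dvd _ _ ?_) ?_).symm
    · rw [← eval_map_algebraMap, map_cyclotomic]
      exact (isRoot_cyclotomic_iff.2 (zloc_spec ℓ ℓ))
    · rw [minpoly_natDegree, natDegree_cyclotomic, Nat.totient_prime ℓ.2]
  have hroot : aeval (zloc ℓ ℓ ^ i) (minpoly ℚ_[(ℓ : ℕ)] (zloc ℓ ℓ)) = 0 := by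
    rw [hf, ← eval_map_algebraMap, map_cyclotomic]
    exact isRoot_cyclotomic_iff.2 ((zloc_spec ℓ ℓ).pow_of_coprime i
      ((ℓ.2.coprime_iff_not_dvd.2 fun hd => u.ne_zero (by
        rw [← ZMod.natCast_zmod_val (u : ZMod (ℓ : ℕ)), ZMod.natCast_eq_zero_iff]; exact hd)).symm))
  obtain ⟨σ, hσ⟩ := minpoly.exists_algEquiv_of_root' (K := ℚ_[(ℓ : ℕ)]) hint.isAlgebraic hroot
  exact ⟨σ, Units.ext (by rw [cyc_loc_eq ℓ ℓ hσ, ZMod.natCast_zmod_val])⟩

/-- Fixed by the local Galois group of the cyclotomic field. -/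
def CycFixed (y : Kq ℓ) : Prop := ∀ τ : Gq ℓ, cyc ℓ (loc ℓ τ) = 1 → τ y = y

lemma exists_poly_of_cycFixed {y : Kq ℓ} (hy : CycFixed ℓ y) :
    ∃ c : ℕ → ℚ_[(ℓ : ℕ)], y = ∑ i ∈ Finset.range ((ℓ : ℕ) - 1), algebraMap _ _ (c i) * piloc ℓ ^ i := by
  set E := IntermediateField.adjoin ℚ_[(ℓ : ℕ)] {piloc ℓ}
  have hmem : y ∈ E := by
    rw [← InfiniteGalois.fixedField_fixingSubgroup E, IntermediateField.mem_fixedField_iff]
    intro τ hτ
    refine hy τ ((cyc_eq_one_iff ℓ).2 ((emb ℓ).injective ?_))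
    show emb ℓ _ = emb ℓ _
    rw [emb_loc]
    have h := (IntermediateField.mem_fixingSubgroup_iff _ _).1 hτ _
      (IntermediateField.subset_adjoin _ _ rfl)
    rw [map_sub, map_one, sub_right_inj] at h
    exact h
  have hint : IsIntegral ℚ_[(ℓ : ℕ)] (piloc ℓ) := Algebra.IsIntegral.isIntegral _
  let pb := IntermediateField.adjoin.powerBasis hint
  obtain ⟨f, hdeg, hf⟩ := pb.exists_eq_aeval ⟨y, hmem⟩
  refine ⟨f.coeff, ?_⟩
  have hdim : pb.dim ≤ (ℓ : ℕ) - 1 := by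
    rw [IntermediateField.adjoin.powerBasis_dim]
    have : minpoly ℚ_[(ℓ : ℕ)] (piloc ℓ) ∣ (minpoly ℚ_[(ℓ : ℕ)] (zloc ℓ ℓ)).comp (1 - X) :=
      minpoly.dvd _ _ (by simp [aeval_comp, piloc, minpoly.aeval])
    refine (natDegree_le_of_dvd this ?_).trans ?_
    · intro h
      have h1 := congrArg (fun g => g.comp (1 - X)) h
      simp only [comp_assoc, zero_comp, sub_comp, one_comp, X_comp, sub_sub_cancel, comp_X] at h1
      exact minpoly.ne_zero (Algebra.IsIntegral.isIntegral _) h1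
    · refine natDegree_comp_le.trans ?_
      rw [minpoly_natDegree]
      exact (Nat.mul_le_mul_left _ ((natDegree_sub_le _ _).trans (by simp))).trans (Nat.mul_one _).le
  have := congrArg (fun t : E => (t : Kq ℓ)) hf
  simp only at this
  rw [this, ← IntermediateField.coe_val, ← aeval_algHom_apply, aeval_eq_sum_range'
    (lt_of_lt_of_le hdeg hdim)]
  simp [Algebra.smul_def, pb]

/-- The value group of the cyclotomic field is generated by `π`. -/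
theorem exists_zpow_piloc {y : Kq ℓ} (hy : CycFixed ℓ y) (h0 : y ≠ 0) :
    ∃ n : ℤ, ‖y‖ = ‖piloc ℓ‖ ^ n := by
  classical
  obtain ⟨c, hc⟩ := exists_poly_of_cycFixed ℓ hy
  -- the nonzero terms have pairwise distinct norms
  have hne : ∀ i ∈ Finset.range ((ℓ : ℕ) - 1), ∀ j ∈ Finset.range ((ℓ : ℕ) - 1),
      c i ≠ 0 → c j ≠ 0 → i ≠ j →
      ‖algebraMap _ (Kq ℓ) (c i) * piloc ℓ ^ i‖ ≠ ‖algebraMap _ (Kq ℓ) (c j) * piloc ℓ ^ j‖ := by
    intro i hi j hj ci cj hij h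
    rw [norm_mul, norm_mul, norm_pow, norm_pow, norm_eq_zpow_algebraMap ℓ ci,
      norm_eq_zpow_algebraMap ℓ cj] at h
    have hpi0 : ‖piloc ℓ‖ ≠ 0 := fun h0 => by
      have := norm_piloc_pow ℓ
      rw [h0, zero_pow (Nat.sub_ne_zero_of_lt ℓ.2.one_lt)] at this
      exact (inv_ne_zero (Nat.cast_ne_zero.2 ℓ.2.ne_zero)) this.symm
    have hl0 : ((ℓ : ℕ) : ℝ) ≠ 0 := Nat.cast_ne_zero.2 ℓ.2.ne_zero
    have e : ‖piloc ℓ‖ ^ ((i : ℤ) - j) = ((ℓ : ℕ) : ℝ) ^ (-(c j).valuation - -(c i).valuation) := by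
      rw [zpow_sub₀ hpi0, zpow_sub₀ hl0, zpow_natCast, zpow_natCast,
        div_eq_div_iff (pow_ne_zero _ hpi0) (zpow_ne_zero _ hl0)]
      linear_combination h
    have hd := Int.eq_zero_of_dvd_of_natAbs_lt_natAbs (dvd_of_norm_piloc ℓ e) (by
      have := Finset.mem_range.1 hi
      have := Finset.mem_range.1 hj
      omega)
    omega
  set T := (Finset.range ((ℓ : ℕ) - 1)).filter (fun i => c i ≠ 0) with hT
  have hyT : y = ∑ i ∈ T, algebraMap _ _ (c i) * piloc ℓ ^ i := by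
    rw [hc, hT, Finset.sum_filter]
    refine Finset.sum_congr rfl fun i _ => ?_
    by_cases h : c i = 0 <;> simp [h]
  have hT0 : T.Nonempty := Finset.nonempty_of_sum_ne_zero (hyT ▸ h0)
  obtain ⟨i, hi, hmax⟩ := T.exists_max_image (fun i => ‖algebraMap _ (Kq ℓ) (c i) * piloc ℓ ^ i‖) hT0
  rw [hT, Finset.mem_filter] at hi
  have hnorm : ‖y‖ = ‖algebraMap _ (Kq ℓ) (c i) * piloc ℓ ^ i‖ := by
    rw [hyT, ← Finset.add_sum_erase T _ (by rw [hT, Finset.mem_filter]; exact hi)]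
    have hpos : 0 < ‖algebraMap _ (Kq ℓ) (c i) * piloc ℓ ^ i‖ := by
      have h1 : piloc ℓ ≠ 0 := fun h1 => by
        have := norm_piloc_pow ℓ
        rw [h1, norm_zero, zero_pow (Nat.sub_ne_zero_of_lt ℓ.2.one_lt)] at this
        exact (inv_ne_zero (Nat.cast_ne_zero.2 ℓ.2.ne_zero)) this.symm
      simpa [norm_mul] using mul_pos (norm_pos_iff.2 hi.2) (pow_pos (norm_pos_iff.2 h1) i)
    have hlt : ‖∑ j ∈ T.erase i, algebraMap _ (Kq ℓ) (c j) * piloc ℓ ^ j‖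
        < ‖algebraMap _ (Kq ℓ) (c i) * piloc ℓ ^ i‖ := by
      rcases (T.erase i).eq_empty_or_nonempty with he | he
      · rw [he, Finset.sum_empty, norm_zero]; exact hpos
      · obtain ⟨j, hj, hjle⟩ := IsUltrametricDist.exists_norm_finsetSum_le_of_nonempty he
          (fun j => algebraMap _ (Kq ℓ) (c j) * piloc ℓ ^ j)
        refine hjle.trans_lt (lt_of_le_of_ne (hmax j (Finset.mem_of_mem_erase hj)) ?_)
        have hj' := Finset.mem_of_mem_erase hj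
        rw [hT, Finset.mem_filter] at hj'
        exact hne j hj'.1 i hi.1 hj'.2 hi.2 (Finset.ne_of_mem_erase hj)
    rw [IsUltrametricDist.norm_add_eq_max_of_norm_ne_norm hlt.ne', max_eq_left hlt.le]
  refine ⟨(((ℓ : ℕ) - 1 : ℕ) : ℤ) * (c i).valuation + i, ?_⟩
  have hl0 : ‖piloc ℓ‖ ≠ 0 := fun h1 => by
    have := norm_piloc_pow ℓ
    rw [h1, zero_pow (Nat.sub_ne_zero_of_lt ℓ.2.one_lt)] at this
    exact (inv_ne_zero (Nat.cast_ne_zero.2 ℓ.2.ne_zero)) this.symm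
  rw [hnorm, norm_mul, norm_pow, norm_eq_zpow_algebraMap ℓ hi.2, zpow_add₀ hl0, zpow_natCast,
    zpow_mul, zpow_natCast, norm_piloc_pow, inv_zpow']

lemma piloc_ne_zero : piloc ℓ ≠ 0 := fun h => by
  have := norm_piloc_pow ℓ
  rw [h, norm_zero, zero_pow (Nat.sub_ne_zero_of_lt ℓ.2.one_lt)] at this
  exact (inv_ne_zero (Nat.cast_ne_zero.2 ℓ.2.ne_zero)) this.symm

lemma norm_piloc_lt_one : ‖piloc ℓ‖ < 1 := by
  refine (pow_lt_one_iff_of_nonneg (norm_nonneg _) (Nat.sub_ne_zero_of_lt ℓ.2.one_lt)).1 ?_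
  rw [norm_piloc_pow]
  exact inv_lt_one_of_one_lt₀ (by exact_mod_cast ℓ.2.one_lt)

/-- The residue field of the cyclotomic field at `ℓ` is `𝔽_ℓ`. -/
theorem exists_nat_near_cycFixed {u : Kq ℓ} (hu : CycFixed ℓ u) (h1 : ‖u‖ = 1) :
    ∃ m : ℕ, ¬ (ℓ : ℕ) ∣ m ∧ ‖u - m‖ < 1 := by
  classical
  obtain ⟨c, hc⟩ := exists_poly_of_cycFixed ℓ hu
  set F := fun i => algebraMap _ (Kq ℓ) (c i) * piloc ℓ ^ i with hF
  -- every term is bounded by one
  have hle : ∀ i ∈ Finset.range ((ℓ : ℕ) - 1), ‖F i‖ ≤ 1 := by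
    by_contra hcon
    push Not at hcon
    obtain ⟨i₀, hi₀, hgt⟩ := hcon
    obtain ⟨i, hi, hmax⟩ := Finset.exists_max_image _ (fun i => ‖F i‖) ⟨i₀, hi₀⟩
    have hpos : 1 < ‖F i‖ := hgt.trans_le (hmax i₀ hi₀)
    have hci : c i ≠ 0 := fun h => by simp [hF, h] at hpos; linarith
    have hlt : ∀ j ∈ (Finset.range ((ℓ : ℕ) - 1)).erase i, ‖F j‖ < ‖F i‖ := by
      intro j hj
      rcases eq_or_ne (c j) 0 with h | h
      · simp only [hF, h, map_zero, zero_mul, norm_zero]; linarith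
      refine lt_of_le_of_ne (hmax j (Finset.mem_of_mem_erase hj)) fun e => ?_
      simp only [hF, norm_mul, norm_pow, norm_eq_zpow_algebraMap ℓ h,
        norm_eq_zpow_algebraMap ℓ hci] at e
      have hl0 : ((ℓ : ℕ) : ℝ) ≠ 0 := Nat.cast_ne_zero.2 ℓ.2.ne_zero
      have hpi0 : ‖piloc ℓ‖ ≠ 0 := norm_ne_zero_iff.2 (piloc_ne_zero ℓ)
      have e' : ‖piloc ℓ‖ ^ ((j : ℤ) - i) = ((ℓ : ℕ) : ℝ) ^ (-(c i).valuation - -(c j).valuation) := by
        rw [zpow_sub₀ hpi0, zpow_sub₀ hl0, zpow_natCast, zpow_natCast,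
          div_eq_div_iff (pow_ne_zero _ hpi0) (zpow_ne_zero _ hl0)]
        linear_combination e
      have hd := Int.eq_zero_of_dvd_of_natAbs_lt_natAbs (dvd_of_norm_piloc ℓ e') (by
        have := Finset.mem_range.1 hi
        have := Finset.mem_range.1 (Finset.mem_of_mem_erase hj)
        omega)
      exact Finset.ne_of_mem_erase hj (by omega)
    have hsum : ‖∑ j ∈ (Finset.range ((ℓ : ℕ) - 1)).erase i, F j‖ < ‖F i‖ := by
      rcases ((Finset.range ((ℓ : ℕ) - 1)).erase i).eq_empty_or_nonempty with he | he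
      · rw [he, Finset.sum_empty, norm_zero]; linarith
      · obtain ⟨j, hj, hjle⟩ := IsUltrametricDist.exists_norm_finsetSum_le_of_nonempty he F
        exact hjle.trans_lt (hlt j hj)
    rw [hc, ← Finset.add_sum_erase _ _ hi,
      IsUltrametricDist.norm_add_eq_max_of_norm_ne_norm hsum.ne', max_eq_left hsum.le] at h1
    linarith
  have h0mem : 0 ∈ Finset.range ((ℓ : ℕ) - 1) := Finset.mem_range.2 (by have := ℓ.2.one_lt; omega)
  have hc0 : ‖c 0‖ ≤ 1 := by simpa [hF] using hle 0 h0mem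
  obtain ⟨m, hm⟩ := exists_nat_near ℓ hc0
  have hnear : ‖u - m‖ < 1 := by
    rw [hc, ← Finset.add_sum_erase _ _ h0mem, add_comm, add_sub_assoc]
    refine (IsUltrametricDist.norm_add_le_max _ _).trans_lt (max_lt ?_ ?_)
    · rcases ((Finset.range ((ℓ : ℕ) - 1)).erase 0).eq_empty_or_nonempty with he | he
      · rw [he, Finset.sum_empty, norm_zero]; exact one_pos
      obtain ⟨j, hj, hjle⟩ := IsUltrametricDist.exists_norm_finsetSum_le_of_nonempty he F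
      refine hjle.trans_lt ?_
      have hjle1 := hle j (Finset.mem_of_mem_erase hj)
      refine lt_of_le_of_ne hjle1 fun e => ?_
      rcases eq_or_ne (c j) 0 with h | h
      · simp [hF, h] at e
      simp only [hF, norm_mul, norm_pow, norm_eq_zpow_algebraMap ℓ h] at e
      have e' : ‖piloc ℓ‖ ^ (j : ℤ) = ((ℓ : ℕ) : ℝ) ^ (c j).valuation := by
        rw [zpow_natCast]
        rw [zpow_neg, inv_mul_eq_one₀ (zpow_ne_zero _ (Nat.cast_ne_zero.2 ℓ.2.ne_zero))] at e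
        exact e.symm
      have hd := Int.eq_zero_of_dvd_of_natAbs_lt_natAbs (dvd_of_norm_piloc ℓ e') (by
        have := Finset.mem_range.1 (Finset.mem_of_mem_erase hj)
        omega)
      exact Finset.ne_of_mem_erase hj (by omega)
    · rw [pow_zero, mul_one, ← map_natCast (algebraMap ℚ_[(ℓ : ℕ)] (Kq ℓ)), ← map_sub, norm_algebraMap']
      exact hm
  refine ⟨m, fun hd => ?_, hnear⟩
  have hmlt := (norm_natCast_lt_one_iff ℓ m).2 hd
  have := (IsUltrametricDist.norm_add_le_max (u - m) (m : Kq ℓ)).trans_lt (max_lt hnear hmlt)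
  rw [sub_add_cancel, h1] at this
  exact lt_irrefl _ this

lemma norm_prod_sub_prod_lt {ι : Type*} (s : Finset ι) (a b : ι → Kq ℓ) (ha : ∀ i ∈ s, ‖a i‖ ≤ 1)
    (hb : ∀ i ∈ s, ‖b i‖ ≤ 1) (hab : ∀ i ∈ s, ‖a i - b i‖ < 1) :
    ‖∏ i ∈ s, a i - ∏ i ∈ s, b i‖ < 1 := by
  classical
  induction s using Finset.induction with
  | empty => simp
  | insert i s hi ih =>
    rw [Finset.prod_insert hi, Finset.prod_insert hi,
      show a i * ∏ j ∈ s, a j - b i * ∏ j ∈ s, b j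
        = (a i - b i) * ∏ j ∈ s, a j + b i * (∏ j ∈ s, a j - ∏ j ∈ s, b j) by ring]
    refine (IsUltrametricDist.norm_add_le_max _ _).trans_lt (max_lt ?_ ?_)
    · rw [norm_mul, norm_prod]
      exact mul_lt_one_of_nonneg_of_lt_one_left (norm_nonneg _) (hab i (Finset.mem_insert_self i s))
        (Finset.prod_le_one (fun _ _ => norm_nonneg _) fun j hj => ha j (Finset.mem_insert_of_mem hj))
    · rw [norm_mul]
      exact mul_lt_one_of_nonneg_of_lt_one_right (hb i (Finset.mem_insert_self i s)) (norm_nonneg _)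
        (ih (fun j hj => ha j (Finset.mem_insert_of_mem hj))
          (fun j hj => hb j (Finset.mem_insert_of_mem hj)) (fun j hj => hab j (Finset.mem_insert_of_mem hj)))

/-- The norm from the cyclotomic field to `ℚ_ℓ` is `ℓ^n` times a principal unit. -/
theorem exists_prod_cyc {y : Kq ℓ} (hy : CycFixed ℓ y) (h0 : y ≠ 0)
    (T : (ZMod (ℓ : ℕ))ˣ → Gq ℓ) (hT : ∀ a, cyc ℓ (loc ℓ (T a)) = a) :
    ∃ n : ℤ, ∃ w : Kq ℓ, (∏ a, T a y) = ((ℓ : ℕ) : Kq ℓ) ^ n * w ∧ ‖w - 1‖ < 1 := by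
  classical
  have : Fact (ℓ : ℕ).Prime := ⟨ℓ.2⟩
  obtain ⟨n, hn⟩ := exists_zpow_piloc ℓ hy h0
  have hπfix : ∀ τ : Gq ℓ, cyc ℓ (loc ℓ τ) = 1 → τ (piloc ℓ) = piloc ℓ := fun τ hτ => by
    rw [map_sub, map_one, tau_zloc, hτ, Units.val_one, ZMod.val_one, pow_one]
  set u := y / piloc ℓ ^ n with hu
  have hu1 : ‖u‖ = 1 := by
    rw [hu, norm_div, norm_zpow, hn, div_self]
    exact zpow_ne_zero _ (norm_ne_zero_iff.2 (piloc_ne_zero ℓ))
  have hufix : CycFixed ℓ u := fun τ hτ => by rw [hu, map_div₀, map_zpow₀, hy τ hτ, hπfix τ hτ]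
  obtain ⟨m, hm, hmu⟩ := exists_nat_near_cycFixed ℓ hufix hu1
  have hprodπ : ∏ a, T a (piloc ℓ) = ((ℓ : ℕ) : Kq ℓ) := by
    have heval := eval_one_cyclotomic_prime (R := Kq ℓ) (p := (ℓ : ℕ))
    rw [cyclotomic_eq_prod_X_sub_primitiveRoots (zloc_spec ℓ ℓ), eval_prod] at heval
    rw [← heval]
    refine Finset.prod_bij (fun a _ => T a (zloc ℓ ℓ)) (fun a _ => ?_) (fun a _ b _ h => ?_)
      (fun z hz => ?_) (fun a _ => ?_)
    · exact (mem_primitiveRoots ℓ.2.pos).2 ((zloc_spec ℓ ℓ).map_of_injective (T a).injective)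
    · rw [tau_zloc, tau_zloc, hT, hT] at h
      exact Units.ext (ZMod.val_injective _ ((zloc_spec ℓ ℓ).pow_inj (ZMod.val_lt _) (ZMod.val_lt _) h))
    · have hz' := (mem_primitiveRoots ℓ.2.pos).1 hz
      obtain ⟨i, hi, rfl⟩ := (zloc_spec ℓ ℓ).eq_pow_of_pow_eq_one hz'.pow_eq_one
      have hi0 : (i : ZMod (ℓ : ℕ)) ≠ 0 := fun h => by
        rw [ZMod.natCast_eq_zero_iff] at h
        obtain ⟨c, rfl⟩ := h
        rw [pow_mul, (zloc_spec ℓ ℓ).pow_eq_one, one_pow] at hz'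
        exact ℓ.2.one_lt.ne' (hz'.unique IsPrimitiveRoot.one)
      refine ⟨Units.mk0 _ hi0, Finset.mem_univ _, ?_⟩
      rw [tau_zloc, hT, Units.val_mk0, ZMod.val_cast_of_lt hi]
    · rw [map_sub, map_one, eval_sub, eval_X, eval_C]
  refine ⟨n, ∏ a, T a u, ?_, ?_⟩
  · rw [← hprodπ, ← Finset.prod_zpow, ← Finset.prod_mul_distrib]
    refine Finset.prod_congr rfl fun a _ => ?_
    rw [← map_zpow₀, ← map_mul, hu, mul_div_cancel₀ _ (zpow_ne_zero _ (piloc_ne_zero ℓ))]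
  · have h1 : ‖∏ a, T a u - ∏ _a : (ZMod (ℓ : ℕ))ˣ, (m : Kq ℓ)‖ < 1 := by
      refine norm_prod_sub_prod_lt ℓ _ _ _ (fun a _ => by rw [norm_gq, hu1]) (fun a _ => ?_) fun a _ => ?_
      · rw [← map_natCast (algebraMap ℚ_[(ℓ : ℕ)] (Kq ℓ)), norm_algebraMap']
        exact IsUltrametricDist.norm_natCast_le_one _ m
      · rw [← map_natCast (T a), ← map_sub, norm_gq]; exact hmu
    have h2 : ‖∏ _a : (ZMod (ℓ : ℕ))ˣ, (m : Kq ℓ) - 1‖ < 1 := by
      rw [Finset.prod_const, Finset.card_univ, ZMod.card_units]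
      have hpos : 1 ≤ m ^ ((ℓ : ℕ) - 1) := Nat.one_le_pow _ _ (Nat.pos_of_ne_zero fun h => hm (by rw [h]; exact dvd_zero _))
      rw [show ((m : Kq ℓ)) ^ ((ℓ : ℕ) - 1) - 1 = ((m ^ ((ℓ : ℕ) - 1) - 1 : ℕ) : Kq ℓ) by
        rw [Nat.cast_sub hpos, Nat.cast_pow, Nat.cast_one], norm_natCast_lt_one_iff]
      exact (Nat.modEq_iff_dvd' hpos).1
        (Nat.ModEq.pow_card_sub_one_eq_one ℓ.2 ((ℓ.2.coprime_iff_not_dvd.2 hm).symm)).symm
    have := (IsUltrametricDist.norm_add_le_max (∏ a, T a u - ∏ _a : (ZMod (ℓ : ℕ))ˣ, (m : Kq ℓ))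
      (∏ _a : (ZMod (ℓ : ℕ))ˣ, (m : Kq ℓ) - 1)).trans_lt (max_lt h1 h2)
    simpa using this

end FLTAgent.Global
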