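import Fermat.Agent.Global.Adele
import Fermat.Agent.Frobenius.Lifting
import Fermat.Agent.Frobenius.Unramified
import Fermat.Agent.Char.Unramified

/-!
The cyclotomic character modulo a prime `ℓ`: auxiliary primes, behaviour at every prime, and
linear disjointness from a level unramified at `ℓ`.
-/

set_option autoImplicit false

noncomputable section

namespace FLTAgent.Global

variable (ℓ : Nat.Primes)

scoped instance neZeroCastPrimes : NeZero ((ℓ : ℕ) : QQbar) := ⟨Nat.cast_ne_zero.2 ℓ.2.ne_zero⟩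

/-- A primitive `ℓ`-th root of unity. -/
def zeta : QQbar := (HasEnoughRootsOfUnity.exists_primitiveRoot QQbar (ℓ : ℕ)).choose

lemma zeta_spec : IsPrimitiveRoot (zeta ℓ) (ℓ : ℕ) :=
  (HasEnoughRootsOfUnity.exists_primitiveRoot QQbar (ℓ : ℕ)).choose_spec

/-- The cyclotomic character modulo `ℓ`. -/
def cyc : GQ →* (ZMod (ℓ : ℕ))ˣ := (zeta_spec ℓ).autToPow ℚ

lemma cyc_spec (g : GQ) : g (zeta ℓ) = zeta ℓ ^ (cyc ℓ g : ZMod (ℓ : ℕ)).val :=
  ((zeta_spec ℓ).autToPow_spec ℚ g).symm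

lemma cyc_eq_of_apply {g : GQ} {i : ℕ} (h : g (zeta ℓ) = zeta ℓ ^ i) :
    (cyc ℓ g : ZMod (ℓ : ℕ)) = i := by
  have e := (zeta_spec ℓ).pow_inj (ZMod.val_lt _) (Nat.mod_lt i ℓ.2.pos)
    ((cyc_spec ℓ g).symm.trans (h.trans (by
      conv_lhs => rw [← Nat.div_add_mod i (ℓ : ℕ), pow_add, pow_mul, (zeta_spec ℓ).pow_eq_one,
        one_pow, one_mul])))
  rw [← ZMod.natCast_zmod_val (cyc ℓ g : ZMod (ℓ : ℕ)), e, ZMod.natCast_mod]

lemma cyc_eq_one_iff {g : GQ} : cyc ℓ g = 1 ↔ g (zeta ℓ) = zeta ℓ := by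
  constructor
  · intro h
    rw [cyc_spec, h, Units.val_one, ZMod.val_one, pow_one]
  · intro h
    exact Units.ext (by rw [cyc_eq_of_apply ℓ (i := 1) (by rw [h, pow_one]), Nat.cast_one, Units.val_one])

lemma exists_level_le_ker_cyc : ∃ Z : Level, Z.grp ≤ (cyc ℓ).ker := by
  obtain ⟨Z, hZ⟩ := exists_level_mem (zeta ℓ)
  exact ⟨Z, fun s hs => (cyc_eq_one_iff ℓ).2 ((IntermediateField.mem_fixingSubgroup_iff _ _).1 hs _ hZ)⟩

/-- Inertia away from `ℓ` fixes the `ℓ`-th roots of unity. -/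
lemma cyc_inertia {r : ℕ} (hr : r.Prime) (hrl : r ≠ (ℓ : ℕ)) {A : ValuationSubring QQbar}
    (hA : A.LiesOverPrime r) {σ : GQ} (hσ : σ ∈ A.inertiaSubgroupIn ℚ) : cyc ℓ σ = 1 := by
  classical
  rw [cyc_eq_one_iff]
  by_contra h
  have hint : IsIntegral ℤ (zeta ℓ) := (zeta_spec ℓ).isIntegral ℓ.2.pos
  have hζA : zeta ℓ ∈ A := Frobenius.mem_of_isIntegral A hint
  have hnon := (Frobenius.mem_inertiaSubgroupIn_iff.1 hσ).2 _ hζA
  set k := (cyc ℓ σ : ZMod (ℓ : ℕ)).val with hk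
  rw [cyc_spec, ← hk] at hnon h
  have hne : σ (zeta ℓ) ≠ zeta ℓ := by rwa [cyc_spec]
  -- `∏ (1 - μ) = ℓ` over the nontrivial roots
  have hk0 : 1 ≤ k := Nat.one_le_iff_ne_zero.2 fun h0 =>
    (cyc ℓ σ).ne_zero ((ZMod.val_eq_zero _).1 h0)
  have hμ : IsPrimitiveRoot (zeta ℓ ^ (k - 1)) (ℓ : ℕ) := by
    refine (zeta_spec ℓ).pow_of_coprime _ ((ℓ.2.coprime_iff_not_dvd.2 fun hd => h ?_).symm)
    obtain ⟨c, hc⟩ := hd
    rw [show k = (ℓ : ℕ) * c + 1 by omega, pow_succ, pow_mul, (zeta_spec ℓ).pow_eq_one, one_pow,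
      one_mul]
  have hfac : zeta ℓ * (zeta ℓ ^ (k - 1) - 1) = zeta ℓ ^ k - zeta ℓ := by
    rw [mul_sub, mul_one, ← pow_succ', Nat.sub_add_cancel hk0]
  have hinvA : (zeta ℓ)⁻¹ ∈ A := by
    have hi : IsPrimitiveRoot (zeta ℓ)⁻¹ (ℓ : ℕ) := (zeta_spec ℓ).inv
    exact Frobenius.mem_of_isIntegral A (hi.isIntegral ℓ.2.pos)
  have hμ1 : zeta ℓ ^ (k - 1) - 1 ∈ A.nonunits := by
    have := Frobenius.nonunits_mul_mem A hinvA (hfac ▸ hnon : zeta ℓ * (zeta ℓ ^ (k - 1) - 1) ∈ A.nonunits)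
    rwa [← mul_assoc, inv_mul_cancel₀ ((zeta_spec ℓ).ne_zero ℓ.2.ne_zero), one_mul] at this
  set μ := zeta ℓ ^ (k - 1)
  -- `1 - μ` divides `ℓ`
  have hl : ((ℓ : ℕ) : QQbar) ∈ A.nonunits := by
    have heval := Polynomial.eval_one_cyclotomic_prime (R := QQbar) (p := (ℓ : ℕ)) (hn := ⟨ℓ.2⟩)
    rw [Polynomial.cyclotomic_eq_prod_X_sub_primitiveRoots hμ, Polynomial.eval_prod] at heval
    simp only [Polynomial.eval_sub, Polynomial.eval_X, Polynomial.eval_C] at heval
    rw [← heval, ← Finset.mul_prod_erase _ _ ((mem_primitiveRoots ℓ.2.pos).2 hμ), mul_comm]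
    refine Frobenius.nonunits_mul_mem A (prod_mem fun z hz => ?_) ?_
    · exact sub_mem (one_mem A) (Frobenius.mem_of_isIntegral A
        (((mem_primitiveRoots ℓ.2.pos).1 (Finset.mem_of_mem_erase hz)).isIntegral ℓ.2.pos))
    · have hneg : (-1 : QQbar) ∈ A := neg_mem (one_mem A)
      simpa using Frobenius.nonunits_mul_mem A hneg hμ1
  have := (Frobenius.intCast_mem_nonunits_iff hr hA (ℓ : ℕ)).1 (by exact_mod_cast hl)
  exact hrl ((Nat.prime_dvd_prime_iff_eq hr ℓ.2).1 (Int.natCast_dvd_natCast.1 this))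

/-- A level unramified at `ℓ` is linearly disjoint from the `ℓ`-th cyclotomic field. -/
theorem exists_mem_cyc_eq (L : Level) (hL : ∀ A : ValuationSubring QQbar,
    A.LiesOverPrime (ℓ : ℕ) → A.inertiaSubgroupIn ℚ ≤ L.grp) (g : GQ) :
    ∃ s ∈ L.grp, cyc ℓ s = cyc ℓ g := by
  have := L.grp_normal
  have := L.fin
  have htop : L.grp ⊔ (cyc ℓ).ker = ⊤ := by
    refine GalChar.eq_top_of_inertia_le _ L.fld le_sup_left fun r hr A hA σ hσ => ?_
    rcases eq_or_ne r (ℓ : ℕ) with rfl | hne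
    · exact Subgroup.mem_sup_left (hL A hA hσ)
    · exact Subgroup.mem_sup_right (cyc_inertia ℓ hr hne hA hσ)
  obtain ⟨s, hs, t, ht, rfl⟩ : ∃ s ∈ L.grp, ∃ t ∈ (cyc ℓ).ker, s * t = g := by
    have hg : g ∈ (↑(L.grp ⊔ (cyc ℓ).ker) : Set GQ) := by rw [htop]; trivial
    rwa [Subgroup.coe_mul_of_left_le_normalizer_right _ _ (by
      rw [Subgroup.normalizer_eq_top]; exact le_top), Set.mem_mul] at hg
  exact ⟨s, hs, by rw [map_mul, ht, mul_one]⟩

/-- There are auxiliary primes at which `q` has large `p`-power order, outside any finite set. -/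
theorem exists_prime_order {p : ℕ} (hp : p.Prime) (hp2 : p ≠ 2) {q : ℕ} (hq : q.Prime) (n : ℕ)
    (bad : Finset ℕ) : ∃ ℓ : Nat.Primes, (ℓ : ℕ) ∉ bad ∧ (ℓ : ℕ) ≠ q ∧
      ∃ b, n ≤ b ∧ orderOf ((q : ℕ) : ZMod (ℓ : ℕ)) = p ^ b := by
  -- one prime for every exponent; distinct exponents give distinct primes
  have key : ∀ b : ℕ, ∃ l : ℕ, l.Prime ∧ l ≠ q ∧ orderOf (q : ZMod l) = p ^ (b + 1) := by
    intro b
    set x := q ^ p ^ b with hx
    have hx1 : 1 < x := Nat.one_lt_pow (pow_ne_zero _ hp.ne_zero) hq.one_lt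
    set s := ∑ i ∈ Finset.range p, x ^ i with hs
    have hsgt : p < s := by
      have h1 : (∑ i ∈ Finset.range p, 1) < s :=
        Finset.sum_lt_sum (fun i _ => Nat.one_le_pow _ _ (by omega))
          ⟨1, Finset.mem_range.2 hp.one_lt, by simpa using hx1⟩
      simpa using h1
    obtain ⟨l, hl, hls, hlp⟩ : ∃ l : ℕ, l.Prime ∧ l ∣ s ∧ ¬ x ≡ 1 [MOD l] := by
      by_contra hcon
      push Not at hcon
      have hall : ∀ l : ℕ, l.Prime → l ∣ s → l = p ∧ x ≡ 1 [MOD l] := by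
        intro l hl hls
        have h1 := hcon l hl hls
        refine ⟨?_, h1⟩
        have h2 : s ≡ p [MOD l] := by
          rw [← ZMod.natCast_eq_natCast_iff] at h1 ⊢
          simp only [Nat.cast_one] at h1
          simp [hs, h1]
        exact (Nat.prime_dvd_prime_iff_eq hl hp).1
          ((Nat.modEq_zero_iff_dvd).1 (h2.symm.trans ((Nat.modEq_zero_iff_dvd).2 hls)))
      obtain ⟨l, hl, hls⟩ := Nat.exists_prime_and_dvd (show s ≠ 1 by linarith [hp.one_lt])
      obtain ⟨rfl, hx1p⟩ := hall l hl hls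
      obtain ⟨m, hm⟩ : ∃ m : ℕ, s = l ^ m :=
        ⟨_, Nat.eq_prime_pow_of_unique_prime_dvd (by linarith [hp.one_lt]) fun {d} hd hds => (hall d hd hds).1⟩
      have hm2 : 2 ≤ m := by
        by_contra hlt
        have := hp.two_le
        interval_cases m <;> simp at hm <;> omega
      obtain ⟨c, hc⟩ := (Nat.modEq_iff_dvd' hx1.le).1 hx1p.symm
      have hxe : (x : ZMod (l ^ 2)) = 1 + (l : ZMod (l ^ 2)) * c := by
        rw [show x = 1 + l * c by omega]; push_cast; ring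
      have hsq : (l : ZMod (l ^ 2)) * l = 0 := by
        rw [← Nat.cast_mul, ← sq, ZMod.natCast_self]
      have hpow : ∀ i : ℕ, (x : ZMod (l ^ 2)) ^ i = 1 + (i : ZMod (l ^ 2)) * ((l : ZMod (l ^ 2)) * c) := by
        intro i
        induction i with
        | zero => simp
        | succ i ih =>
          rw [pow_add, pow_one, ih, hxe]
          push_cast
          linear_combination ((i : ZMod (l ^ 2)) * (c : ZMod (l ^ 2)) ^ 2) * hsq
      have hs0 : (s : ZMod (l ^ 2)) = 0 := by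
        rw [hm, ZMod.natCast_eq_zero_iff]; exact pow_dvd_pow _ hm2
      have hsum : (∑ i ∈ Finset.range l, (i : ℕ)) = l * ((l - 1) / 2) := by
        obtain ⟨j, hj⟩ := hp.odd_of_ne_two hp2
        rw [Finset.sum_range_id, hj, show 2 * j + 1 - 1 = j * 2 by omega, ← mul_assoc,
          Nat.mul_div_cancel _ (by norm_num), Nat.mul_div_cancel _ (by norm_num)]
      rw [hs, Nat.cast_sum] at hs0
      simp only [Nat.cast_pow, hpow, Finset.sum_add_distrib, Finset.sum_const, Finset.card_range,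
        ← Finset.sum_mul, nsmul_one] at hs0
      rw [← Nat.cast_sum, hsum, Nat.cast_mul, mul_mul_mul_comm, hsq, zero_mul, add_zero,
        ZMod.natCast_eq_zero_iff] at hs0
      exact absurd (Nat.le_of_dvd hp.pos hs0) (by nlinarith [hp.one_lt])
    have : Fact l.Prime := ⟨hl⟩
    have : Fact p.Prime := ⟨hp⟩
    have hxp : (q : ZMod l) ^ p ^ (b + 1) = 1 := by
      rw [pow_succ, pow_mul, ← Nat.cast_pow, ← hx]
      have hz : ((∑ i ∈ Finset.range p, x ^ i : ℕ) : ZMod l) = 0 :=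
        (ZMod.natCast_eq_zero_iff _ _).2 hls
      push_cast at hz
      have := geom_sum_mul (x : ZMod l) p
      rw [hz, zero_mul] at this
      linear_combination -this
    refine ⟨l, hl, fun h => ?_, orderOf_eq_prime_pow (fun h => hlp ?_) hxp⟩
    · subst h
      rw [ZMod.natCast_self, zero_pow (pow_ne_zero _ hp.ne_zero)] at hxp
      exact zero_ne_one hxp
    · rw [← ZMod.natCast_eq_natCast_iff, hx]; simpa using h
  choose l hl hlq hord using key
  have hinj : Function.Injective l := by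
    intro a b h
    have := hord a
    rw [h, hord b] at this
    have := Nat.pow_right_injective hp.two_le this
    omega
  obtain ⟨b, hb⟩ := (Set.infinite_range_of_injective
    (f := fun i => l (n + i)) fun a b h => Nat.add_left_cancel (hinj h)).exists_notMem_finset bad
  obtain ⟨⟨i, rfl⟩, hib⟩ := hb
  exact ⟨⟨l (n + i), hl _⟩, hib, hlq _, n + i + 1, by omega, hord _⟩

end FLTAgent.Global
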