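import Fermat.Agent.Global.Fund.CycLocal
import Fermat.Agent.Global.Semilocal.SemiUnits

/-!
Away from `ℓ` the `ℓ`-th roots of unity give unramified layers over every level: units are norms
from the level with `μ_ℓ` added.
-/

set_option autoImplicit false

noncomputable section

namespace FLTAgent.Global

variable (ℓ : Nat.Primes)

lemma fixingSubgroup_adjoin_zeta :
    (IntermediateField.adjoin ℚ {zeta ℓ}).fixingSubgroup = (cyc ℓ).ker := by
  ext s
  rw [IntermediateField.mem_fixingSubgroup_iff, MonoidHom.mem_ker]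
  constructor
  · intro h
    exact (cyc_eq_one_iff ℓ).2 (h _ (IntermediateField.mem_adjoin_simple_self ℚ _))
  · intro h x hx
    have hle : IntermediateField.adjoin ℚ {zeta ℓ} ≤
        IntermediateField.fixedField (Subgroup.zpowers s) := by
      rw [IntermediateField.adjoin_simple_le_iff]
      rintro ⟨_, n, rfl⟩
      exact MulAction.mem_stabilizer_iff.mp
        (Subgroup.zpow_mem _ (MulAction.mem_stabilizer_iff.mpr ((cyc_eq_one_iff ℓ).1 h) :
          s ∈ MulAction.stabilizer GQ (zeta ℓ)) n)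
    exact hle hx ⟨s, 1, by simp⟩

/-- The `ℓ`-th cyclotomic level. -/
def cycLevel : Level where
  fld := IntermediateField.adjoin ℚ {zeta ℓ}
  fin := IntermediateField.adjoin.finiteDimensional (Algebra.IsIntegral.isIntegral _)
  gal := by
    exact (InfiniteGalois.normal_iff_isGalois (IntermediateField.adjoin ℚ {zeta ℓ})).1
      (fixingSubgroup_adjoin_zeta ℓ ▸ inferInstance)

lemma grp_cycLevel : (cycLevel ℓ).grp = (cyc ℓ).ker := fixingSubgroup_adjoin_zeta ℓ

lemma grp_sup_cycLevel (L : Level) : (L.sup (cycLevel ℓ)).grp = L.grp ⊓ (cyc ℓ).ker := by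
  rw [← grp_cycLevel]
  exact IntermediateField.fixingSubgroup_sup

variable {ℓ}

/-- Over `L`, the decomposition groups of `L(μ_ℓ)` act faithfully on residues away from `ℓ`. -/
lemma resFaithfulOn_cyc (L : Level) {q : Nat.Primes} (hqℓ : q ≠ ℓ) (g : GQ) :
    ResFaithfulOn (L.sup (cycLevel ℓ)) q (placeHom (L.sup (cycLevel ℓ)) q L.grp g).range := by
  set L' := L.sup (cycLevel ℓ) with hL'
  rintro _ ⟨⟨h, hh⟩, rfl⟩ htriv
  obtain ⟨τ, s, hs, e⟩ := exists_loc_of_mem_placeSub hh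
  rw [placeHom_eq hs e] at htriv ⊢
  have hsL : s ∈ L.grp := (L.sup_grp_le (cycLevel ℓ) hs).1
  have hτ : loc q τ ∈ L.grp := by
    have e' : loc q τ = g * (h * s⁻¹) * g⁻¹ := by
      rw [← mul_assoc g h, e]; group
    rw [e']
    exact L.grp_normal.conj_mem _ (mul_mem hh.1 (inv_mem hsL)) g
  refine locRes_of_loc_mem ?_
  rw [grp_sup_cycLevel]
  refine ⟨hτ, (cyc_eq_one_iff ℓ).2 ((emb q).injective ?_)⟩
  show emb q _ = emb q _
  rw [emb_loc]
  -- `τ ζ` and `ζ` agree modulo the maximal ideal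
  have hz : zloc ℓ q ∈ valField L' q :=
    emb_mem_valField ((le_sup_right : (cycLevel ℓ).fld ≤ L.fld ⊔ (cycLevel ℓ).fld)
      (IntermediateField.mem_adjoin_simple_self ℚ (zeta ℓ)))
  have hn : ‖zloc ℓ q‖ = 1 := norm_root q ℓ.2.ne_zero (zloc_spec ℓ q).pow_eq_one
  have hlt := htriv ⟨_, hz⟩ hn.le
  rw [locRes_apply] at hlt
  by_contra hne
  have hz0 : zloc ℓ q ≠ 0 := fun h => by simp [h] at hn
  have hρ : IsPrimitiveRoot (τ (zloc ℓ q) / zloc ℓ q) (ℓ : ℕ) := by
    have hp : (τ (zloc ℓ q) / zloc ℓ q) ^ (ℓ : ℕ) = 1 := by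
      rw [div_pow, ← map_pow, (zloc_spec ℓ q).pow_eq_one, map_one, div_one]
    have : Fact (ℓ : ℕ).Prime := ⟨ℓ.2⟩
    have ho : orderOf (τ (zloc ℓ q) / zloc ℓ q) = (ℓ : ℕ) :=
      orderOf_eq_prime hp fun h1 => hne ((div_eq_one_iff_eq hz0).1 h1)
    exact ho ▸ IsPrimitiveRoot.orderOf _
  have h1 := norm_one_sub_root ℓ q hqℓ hρ
  rw [one_sub_div hz0, norm_div, hn, div_one, norm_sub_rev] at h1
  exact absurd h1 hlt.ne

/-- units are norms from the level with the `ℓ`-th roots of unity added -/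
theorem exists_normTo_semiUnit_cyc (L : Level) (q ℓ : Nat.Primes) (hqℓ : q ≠ ℓ)
    (_hℓ : ∀ g : GQ, ∃ s ∈ L.grp, cyc ℓ s = cyc ℓ g) {x : Semi q}
    (hx : x ∈ semiUnit q ⊓ fixSub L.grp) :
    ∃ y ∈ semiUnit q ⊓ fixSub (L.grp ⊓ (cyc ℓ).ker),
      normTo L.grp (L.grp ⊓ (cyc ℓ).ker) y = x := by
  have hle : (L.sup (cycLevel ℓ)).grp ≤ L.grp := fun s hs => (L.sup_grp_le _ hs).1
  obtain ⟨y, hy, hyx⟩ := exists_normTo_semiUnit_of_faithful (L.sup (cycLevel ℓ)) q hle
    (resFaithfulOn_cyc L hqℓ) hx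
  rw [grp_sup_cycLevel] at hy hyx
  exact ⟨y, hy, hyx⟩

end FLTAgent.Global
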