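import Fermat.Agent.Global.Fund.Global
import Fermat.Agent.Global.Ext.Decomp

/-!
Every `p`-group layer over a level containing `μ_p` is a class module, and its `H²` is generated by
the fundamental class.
-/

set_option autoImplicit false
set_option synthInstance.maxHeartbeats 100000

noncomputable section

namespace FLTAgent.Global

section general

variable {Γ : Type*} [Group Γ] {A : Type*} [AddCommGroup A] [DistribMulAction Γ A]
variable {H N : Subgroup Γ}

lemma Lvl.refl {N : Subgroup Γ} : Lvl N N :=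
  ⟨le_rfl, fun g hg s hs => N.mul_mem (N.mul_mem (N.inv_mem hg) hs) hg, by
    rw [Subgroup.subgroupOf_self]; infer_instance⟩

lemma IsB2.mono_lvl {N' : Subgroup Γ} {c : Γ → Γ → A} (h : IsB2 H N c) (hN : N' ≤ N) : IsB2 H N' c := by
  obtain ⟨b, hb, hc⟩ := h
  exact ⟨b, hb.mono le_rfl hN, hc⟩

lemma IsB2.mono_top {H' : Subgroup Γ} {c : Γ → Γ → A} (h : IsB2 H N c) (hH : H' ≤ H) : IsB2 H' N c := by
  obtain ⟨b, hb, hc⟩ := h
  exact ⟨b, hb.mono hH le_rfl, fun g hg k hk => hc g (hH hg) k (hH hk)⟩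

lemma IsZ2.mono_lvl {N' : Subgroup Γ} {c : Γ → Γ → A} (h : IsZ2 H N c) (hN : N' ≤ N) : IsZ2 H N' c :=
  ⟨fun g hg k hk s hs s' hs' => h.1 g hg k hk s (hN hs) s' (hN hs'), h.2⟩

/-- A cocycle is a coboundary on the bottom of its layer. -/
lemma IsZ2.isB2_bot {c : Γ → Γ → A} (hc : IsZ2 H N c) (hN : Lvl H N) : IsB2 N N c := by
  refine ⟨fun _ => c 1 1, fun _ _ _ _ => rfl, fun g hg k hk => ?_⟩
  have e : c g k = c 1 1 := by simpa using hc.1 1 H.one_mem 1 H.one_mem g hg k hk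
  simp [dd1, e, hc.smul_eq hN H.one_mem H.one_mem hg]

variable {p : ℕ} [Fact p.Prime] {u : Γ → Γ → A}

lemma smul_mem_fixSub_of_lvl (hN : Lvl H N) {g : Γ} (hg : g ∈ H) {a : A} (ha : a ∈ fixSub (A := A) N) :
    g • a ∈ fixSub (A := A) N := fun s hs => by
  have e : s * g = g * (g⁻¹ * s * g) := by group
  rw [← mul_smul, e, mul_smul, ha _ (hN.conj g hg s hs)]

lemma exists_pow_reps {P : Subgroup Γ} (hP : Lvl H P) (hidx : P.relIndex H = p) {t : Γ} (ht : t ∈ H)
    (htP : t ∉ P) : t ^ p ∈ P ∧ (∀ i < p, ∀ j < p, (t ^ i)⁻¹ * t ^ j ∈ P → i = j) ∧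
      ∀ g ∈ H, ∃ i : ℕ, i < p ∧ (t ^ i)⁻¹ * g ∈ P := by
  have h := exists_index_p_char hP hidx ht htP
  have hmin : ∀ i < p, ∀ j < p, (t ^ i)⁻¹ * t ^ j ∈ P → i = j := fun i hi j hj e =>
    (h _ (pow_mem ht j)).unique ⟨hi, e⟩ ⟨hj, by simp⟩
  refine ⟨?_, hmin, fun g hg => (h g hg).exists⟩
  obtain ⟨j, ⟨hj, hjP⟩, -⟩ := h _ (pow_mem ht p)
  rcases Nat.eq_zero_or_pos j with rfl | hpos
  · simpa using hjP
  have h0 := hmin 0 (Fact.out : p.Prime).pos (p - j) (by omega) (by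
    rw [pow_zero, inv_one, one_mul]
    rwa [← pow_sub_mul_pow t hj.le, ((Commute.refl t).pow_pow (p - j) j).eq, ← mul_assoc,
      inv_mul_cancel, one_mul] at hjP)
  omega

/-- `H²` of the layer is generated by `u`. -/
theorem ClassModule.exists_zsmul_u (hC : ClassModule p H N u) {z : Γ → Γ → A} (hz : IsZ2 H N z) :
    ∃ k : ℤ, IsB2 H N (fun g h => z g h - k • u g h) := by
  classical
  have hp : p.Prime := Fact.out
  obtain ⟨a, ha⟩ := hC.pow
  induction a generalizing H z with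
  | zero =>
    rw [pow_zero, Subgroup.relIndex_eq_one] at ha
    obtain rfl : H = N := le_antisymm ha hC.lvl.le
    exact ⟨0, (hz.isB2_bot hC.lvl).congr fun g _ k _ => by simp⟩
  | succ a ih =>
    have hN := hC.lvl
    obtain ⟨P, hPH, hNP, hP, hidx⟩ := exists_sublayer hN ha
    have hCP := hC.sub hPH hNP
    have hPa : N.relIndex P = p ^ a := by
      have := Subgroup.relIndex_mul_relIndex N P H hNP hPH
      rw [hidx, ha, pow_succ] at this
      exact Nat.eq_of_mul_eq_mul_right hp.pos this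
    obtain ⟨t, ht, htP⟩ : ∃ t ∈ H, t ∉ P := by
      by_contra h
      push Not at h
      rw [Subgroup.relIndex_eq_one.2 h] at hidx
      exact hp.ne_one hidx.symm
    obtain ⟨htp, hmin, hgen⟩ := exists_pow_reps hP hidx ht htP
    obtain ⟨c₀, hc₀, hstep⟩ := hC.step H P hNP le_rfl hP hidx
    have h1P : ∀ f : Γ → A, IsZ1 P N f → IsB1 P f := hC.h1 P N le_rfl hPH (hN.sub_left hPH hNP)
    -- splitting criterion for classes of `H/P`
    have hsplit : ∀ w : Γ → Γ → A, IsZ2 H P w → ∀ y ∈ fixSub (A := A) P,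
        ∑ i ∈ Finset.range p, w (t ^ i) t = normTo H P y → IsB2 H N w := by
      intro w hw y hy e
      obtain ⟨b, hb, -, hbw⟩ := isB2_of_cyclic_of_sum hP (fixSub (A := A) P)
        (fun g hg a ha => smul_mem_fixSub_of_lvl hP hg ha) (fun s hs a ha => ha s hs) ht hp.pos htp hmin hgen hw
        (fun g hg k hk => hw.apply_mem_fixSub hP hg hk)
        ⟨y, hy, by
          rw [e, normTo, csum_eq_sum_range hP ht hmin hgen fun g _ s hs => by rw [mul_smul, hy s hs]]⟩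
      exact IsB2.mono_lvl ⟨b, hb, hbw⟩ hNP
    have hrep : ∀ w : Γ → Γ → A, IsZ2 H P w → ∃ j : ℕ, ∃ y ∈ fixSub (A := A) P,
        ∑ i ∈ Finset.range p, w (t ^ i) t = j • c₀ + normTo H P y := fun w hw => by
      rw [← csum_eq_sum_range hP ht hmin hgen (F := fun g => w g t) fun g hg s hs => hw.left_lvl hg ht hs]
      exact hstep _ (csum_z2_mem hP hw ht)
    -- the generator of the classes of `H/P`
    have hua : IsB2 P N (fun g h => ((p ^ a : ℕ) : ℤ) • u g h) := by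
      refine (isB2_nsmul hCP.lvl hNP le_rfl hCP.lvl.fin hCP.z2 (hCP.z2.isB2_bot hCP.lvl)).congr ?_
      intro g _ k _
      rw [hPa, natCast_zsmul]
    obtain ⟨b₁, hb₁, hy₁⟩ := exists_isZ2_inflation hN hP hNP h1P (hC.z2.zsmul _) hua
    obtain ⟨j, y, hy, ej⟩ := hrep _ hy₁
    have hj : ¬ p ∣ j := by
      rintro ⟨m, rfl⟩
      have hcm : m • c₀ + y ∈ fixSub (A := A) P :=
        add_mem (nsmul_mem (show c₀ ∈ fixSub (A := A) P from fun s hs => hc₀ s (hPH hs)) m) hy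
      have h := hsplit _ hy₁ _ hcm (by
        rw [ej, normTo_add hP, normTo_of_fixed hP (nsmul_mem hc₀ m), hidx, mul_nsmul'])
      have h' : IsB2 H N (fun g h => ((p ^ a : ℕ) : ℤ) • u g h) :=
        (h.add ⟨b₁, hb₁, fun g _ k _ => rfl⟩).congr fun g _ k _ => by simp
      have hd := hC.order _ h'
      rw [ha, Int.natCast_dvd_natCast, Nat.pow_dvd_pow_iff_le_right hp.one_lt] at hd
      omega
    -- reduce `z`
    obtain ⟨k, hk⟩ := ih hCP (hz.restrict hPH) hPa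
    obtain ⟨b₂, hb₂, hz₁⟩ := exists_isZ2_inflation hN hP hNP h1P (hz.sub (hC.z2.zsmul k)) hk
    obtain ⟨i, y', hy', ei⟩ := hrep _ hz₁
    obtain ⟨l, hl⟩ : ∃ l : ℕ, i ≡ l * j [MOD p] := by
      have hu : IsUnit (j : ZMod p) := by
        rw [isUnit_iff_ne_zero, Ne, ZMod.natCast_eq_zero_iff]; exact hj
      refine ⟨((i : ZMod p) * ↑hu.unit⁻¹).val, ?_⟩
      rw [← ZMod.natCast_eq_natCast_iff, Nat.cast_mul, ZMod.natCast_val, ZMod.cast_id, mul_assoc,
        hu.val_inv_mul, mul_one]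
    obtain ⟨m, hm⟩ : ∃ m : ℤ, (i : ℤ) - (l * j : ℕ) = p * m := Nat.modEq_iff_dvd.1 hl.symm
    refine ⟨k + l * (p ^ a : ℕ), ?_⟩
    set d : A := m • c₀ + y' + -((l : ℤ) • y)
    have hd : d ∈ fixSub (A := A) P :=
      add_mem (add_mem (zsmul_mem (show c₀ ∈ fixSub (A := A) P from fun s hs => hc₀ s (hPH hs)) m) hy')
        (neg_mem (zsmul_mem hy _))
    have hw := hsplit _ (hz₁.sub (hy₁.zsmul l)) d hd (by
      have hz' : ∀ (r : ℤ) (x : A), normTo H P (r • x) = r • normTo H P x := fun r x => by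
        simp only [normTo]
        rw [zsmul_csum hP]
        exact csum_congr H P fun g _ => smul_comm g r x
      have hneg : ∀ x : A, normTo H P (-x) = -normTo H P x := fun x => by
        rw [← neg_one_zsmul x, hz', neg_one_zsmul]
      simp only [Pi.sub_apply] at ei ej ⊢
      rw [Finset.sum_sub_distrib, ei, ← Finset.smul_sum, ej, normTo_add hP, normTo_add hP, hneg, hz', hz',
        normTo_of_fixed hP hc₀, hidx, zsmul_add, ← natCast_zsmul c₀ i, ← natCast_zsmul c₀ j,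
        ← natCast_zsmul c₀ p, smul_smul, smul_smul, mul_comm m, ← hm, sub_smul, Nat.cast_mul]
      abel)
    refine ((hw.add ⟨b₂, hb₂, fun g _ k _ => rfl⟩).add
      (IsB2.zsmul (⟨b₁, hb₁, fun g _ k _ => rfl⟩ : IsB2 H N fun g h => dd1 b₁ g h) (-(l : ℤ)))).congr
      fun g _ h _ => ?_
    simp only [Pi.add_apply, Pi.sub_apply, zsmul_sub, neg_smul, add_smul, ← smul_smul]
    abel

end general

variable {p : ℕ} [Fact p.Prime]

/-- A maximal `p`-layer over a level, containing a given one. -/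
theorem exists_sylow_layer (L : Level) {P : Subgroup GQ} (hLP : L.grp ≤ P) {a : ℕ}
    (ha : L.grp.relIndex P = p ^ a) :
    ∃ P₀ : Subgroup GQ, P ≤ P₀ ∧ (∃ s : ℕ, L.grp.relIndex P₀ = p ^ s) ∧ ¬ p ∣ P₀.index := by
  have := L.finite_quotient
  have := L.grp_normal
  have hker : (QuotientGroup.mk' L.grp).ker ≤ P := by rwa [QuotientGroup.ker_mk']
  have hcard : ∀ R : Subgroup GQ, L.grp ≤ R → L.grp.relIndex R = Nat.card (R.map (QuotientGroup.mk' L.grp)) := by
    intro R _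
    rw [← Subgroup.relIndex_ker, QuotientGroup.ker_mk']
  have hG : IsPGroup p (P.map (QuotientGroup.mk' L.grp)) := IsPGroup.of_card (n := a) (by rw [← hcard P hLP, ha])
  obtain ⟨S, hS⟩ := hG.exists_le_sylow
  refine ⟨(S : Subgroup _).comap (QuotientGroup.mk' L.grp), Subgroup.map_le_iff_le_comap.1 hS, ?_, ?_⟩
  · obtain ⟨s, hs⟩ := S.2.exists_card_eq
    refine ⟨s, ?_⟩
    rw [hcard _ (by
      intro x hx
      rw [Subgroup.mem_comap, show QuotientGroup.mk' L.grp x = 1 from (QuotientGroup.eq_one_iff x).2 hx]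
      exact one_mem _), Subgroup.map_comap_eq_self_of_surjective (QuotientGroup.mk'_surjective _)]
    exact hs
  · rw [Subgroup.index_comap_of_surjective _ (QuotientGroup.mk'_surjective _)]
    exact S.not_dvd_index

/-- Every `p`-layer over `L` is a class module for the fundamental class. -/
theorem exists_classModule (hp2 : p ≠ 2) (L : Level) (hμ : FixesMu p L.grp) :
    ∃ u : GQ → GQ → Cl, IsZ2 (⊤ : Subgroup GQ) L.grp u ∧
      ∀ P : Subgroup GQ, L.grp ≤ P → ∀ a : ℕ, L.grp.relIndex P = p ^ a →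
        ClassModule p P L.grp u := by
  obtain ⟨u, hu, hord⟩ := exists_fundamental hp2 L hμ
  refine ⟨u, hu, fun P hLP a ha => ?_⟩
  obtain ⟨P₀, hPP₀, ⟨s, hs⟩, hP₀⟩ := exists_sylow_layer L hLP ha
  have hlvl : Lvl P₀ L.grp := L.lvl (hLP.trans hPP₀)
  have hfacts : ∀ H' P' : Subgroup GQ, L.grp ≤ P' → H' ≤ P₀ → Lvl H' P' →
      ∃ b : ℕ, P'.relIndex H' = p ^ b ∧ FixesMu p H' := by
    intro H' P' h1 h2 h3
    have hL : L.grp ≤ H' := h1.trans h3.le
    obtain ⟨c, -, hc⟩ : ∃ c ≤ s, L.grp.relIndex H' = p ^ c := (Nat.dvd_prime_pow Fact.out).1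
      (hs ▸ Dvd.intro _ (Subgroup.relIndex_mul_relIndex L.grp H' P₀ hL h2))
    obtain ⟨b, -, hb⟩ : ∃ b ≤ c, P'.relIndex H' = p ^ b := (Nat.dvd_prime_pow Fact.out).1
      (hc ▸ Dvd.intro_left _ (Subgroup.relIndex_mul_relIndex L.grp P' H' h1 h3.le))
    exact ⟨b, hb, fixesMu_of_relIndex (hlvl.sub_left h2 hL) hμ hc⟩
  refine (ClassModule.mk (p := p) (u := u) hlvl ⟨s, hs⟩ (hu.restrict le_top) ?_ ?_ ?_).sub hPP₀ hLP
  · intro H' P' h1 h2 h3 f hf
    obtain ⟨b, hb, hμ'⟩ := hfacts H' P' h1 h2 h3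
    exact isB1_cl hp2 L h3 h1 hb hμ' hf
  · intro H' P' h1 h2 h3 h4
    obtain ⟨-, -, hμ'⟩ := hfacts H' P' h1 h2 h3
    obtain ⟨c₀, hc₀, -, hgen⟩ := exists_generator_norms_step hp2 L h3 h1 h4 hμ'
    refine ⟨c₀, hc₀, fun c hc => ?_⟩
    obtain ⟨k, -, y, hy, hk⟩ := hgen c hc
    exact ⟨k, y, hy, by rw [hk]; exact (add_sub_cancel (k • c₀) c).symm⟩
  · intro k hk
    rw [hs]
    exact hord P₀ (hLP.trans hPP₀) s hs hP₀ k hk

end FLTAgent.Global
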