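import Fermat.Agent.Global.Fund.LocalNorms
import Fermat.Agent.Global.Semilocal.PowerIndex

/-!
`e f = n` for the completion of a level, and the action of its Galois group on `μ_ℓ`.
-/

set_option autoImplicit false

noncomputable section

namespace FLTAgent.Global

variable (L : Level) (q : Nat.Primes)

local instance (priority := high) instModuleResFieldLocalStructure :
    Module (ZMod (q : ℕ)) (ResField L q) := Algebra.toModule

lemma relIndex_grp_dec : L.grp.relIndex (dec q) = Module.finrank ℚ_[(q : ℕ)] (valField L q) := by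
  have hker : L.grp.comap (loc q) = (locRes L q).ker := by
    ext τ
    exact ⟨fun h => locRes_of_loc_mem h, fun h => loc_mem_of_locRes h⟩
  have hsurj : Function.Surjective (locRes L q) := fun σ => by
    obtain ⟨τ, hτ⟩ := exists_lift_locGal σ
    exact ⟨τ, AlgEquiv.ext fun y => Subtype.ext (by rw [locRes_apply, hτ])⟩
  rw [show L.grp.relIndex (dec q) = (L.grp.comap (loc q)).index from (Subgroup.index_comap ..).symm,
    hker, Subgroup.index_ker, MonoidHom.range_eq_top.mpr hsurj, Subgroup.card_top,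
    IsGalois.card_aut_eq_finrank]

/-- A uniformiser of the completion. -/
theorem exists_uniformiser :
    ∃ (ϖ : valField L q) (e : ℕ), 0 < e ∧ ‖(ϖ : Kq q)‖ ^ e = ((q : ℕ) : ℝ)⁻¹ ∧
      ∀ y : valField L q, y ≠ 0 → ∃ n : ℤ, ‖(y : Kq q)‖ = ‖(ϖ : Kq q)‖ ^ n := by
  obtain ⟨M, hM0, hM⟩ := exists_norm_pow_zpow L q
  have hq0 : ((q : ℕ) : ℝ) ≠ 0 := Nat.cast_ne_zero.2 q.2.ne_zero
  have hval : ∀ y : valField L q, y ≠ 0 → ∃ k : ℤ, ‖(y : Kq q)‖ ^ M = ((q : ℕ) : ℝ) ^ k := by
    intro y hy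
    obtain ⟨Y, hY, -, hYg⟩ := exists_atPlace_value L q 1 y hy
    obtain ⟨k, hk⟩ := hM Y hY 1
    exact ⟨k, by rwa [hYg] at hk⟩
  let S : AddSubgroup ℤ :=
    { carrier := {k | ∃ y : valField L q, y ≠ 0 ∧ ‖(y : Kq q)‖ ^ M = ((q : ℕ) : ℝ) ^ k}
      zero_mem' := ⟨1, one_ne_zero, by simp⟩
      add_mem' := by
        rintro a b ⟨y, hy, hya⟩ ⟨z, hz, hzb⟩
        exact ⟨y * z, mul_ne_zero hy hz, by
          rw [MulMemClass.coe_mul, norm_mul, mul_pow, hya, hzb, zpow_add₀ hq0]⟩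
      neg_mem' := by
        rintro a ⟨y, hy, hya⟩
        exact ⟨y⁻¹, inv_ne_zero hy, by
          rw [IntermediateField.coe_inv, norm_inv, inv_pow, hya, zpow_neg]⟩ }
  have hMS : (M : ℤ) ∈ S := by
    refine ⟨(((q : ℕ) : valField L q))⁻¹, inv_ne_zero (Nat.cast_ne_zero.2 q.2.ne_zero), ?_⟩
    rw [IntermediateField.coe_inv]
    push_cast
    rw [norm_inv, norm_natCast_self, inv_inv, zpow_natCast]
  obtain ⟨a, ha⟩ := Int.subgroup_cyclic S
  have hmem : ∀ k ∈ S, a ∣ k := fun k hk => by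
    rw [ha, AddSubgroup.mem_closure_singleton] at hk
    obtain ⟨j, rfl⟩ := hk
    exact ⟨j, by rw [smul_eq_mul, mul_comm]⟩
  set d := a.natAbs with hd
  obtain ⟨e, he⟩ : d ∣ M := Int.ofNat_dvd_left.1 (Int.natAbs_dvd.2 (hmem _ hMS))
  have hd0 : d ≠ 0 := fun h => hM0.ne' (by rw [he, h, zero_mul])
  have he0 : 0 < e := Nat.pos_of_ne_zero fun h => hM0.ne' (by rw [he, h, mul_zero])
  obtain ⟨ϖ, hϖ0, hϖ⟩ : -(d : ℤ) ∈ S := by
    have haS : a ∈ S := by rw [ha]; exact AddSubgroup.subset_closure rfl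
    rcases Int.natAbs_eq a with h | h
    · rw [hd, ← h]; exact S.neg_mem haS
    · rw [hd, ← h]; exact haS
  refine ⟨ϖ, e, he0, ?_, fun y hy => ?_⟩
  · refine (pow_left_inj₀ (by positivity) (by positivity) hd0).1 ?_
    rw [← pow_mul, mul_comm, ← he, hϖ, inv_pow, zpow_neg, zpow_natCast]
  · obtain ⟨k, hk⟩ := hval y hy
    obtain ⟨j, rfl⟩ : (d : ℤ) ∣ k := Int.natAbs_dvd.2 (hmem _ ⟨y, hy, hk⟩)
    refine ⟨-j, (pow_left_inj₀ (norm_nonneg _) (zpow_nonneg (norm_nonneg _) _) hM0.ne').1 ?_⟩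
    rw [hk, ← zpow_natCast (‖(ϖ : Kq q)‖ ^ (-j)) M, ← zpow_mul,
      show -j * (M : ℤ) = (M : ℤ) * -j by ring, zpow_mul ‖(ϖ : Kq q)‖, zpow_natCast,
      hϖ, ← zpow_mul]
    congr 1
    ring


/-- `e f = [K : ℚ_q]`. -/
theorem finrank_valField_eq (ϖ : valField L q) (e : ℕ) (he0 : 0 < e)
    (hϖ : ‖(ϖ : Kq q)‖ ^ e = ((q : ℕ) : ℝ)⁻¹)
    (hgen : ∀ y : valField L q, y ≠ 0 → ∃ n : ℤ, ‖(y : Kq q)‖ = ‖(ϖ : Kq q)‖ ^ n) :
    Module.finrank ℚ_[(q : ℕ)] (valField L q)
      = e * Module.finrank (ZMod (q : ℕ)) (ResField L q) := by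
  classical
  set f := Module.finrank (ZMod (q : ℕ)) (ResField L q) with hf
  let b := Module.finBasis (ZMod (q : ℕ)) (ResField L q)
  choose u hu using fun i => Ideal.Quotient.mk_surjective (I := valMax L q) (b i)
  have hli : LinearIndependent (ZMod (q : ℕ)) fun i => res₀ (u i) := by
    simpa [hu] using b.linearIndependent
  set ρ := ‖(ϖ : Kq q)‖ with hρ
  have hq1 : (1 : ℝ) < ((q : ℕ) : ℝ) := by exact_mod_cast q.2.one_lt
  have hρ0 : 0 < ρ := by
    refine lt_of_le_of_ne (norm_nonneg _) fun h => ?_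
    rw [← h, zero_pow he0.ne'] at hϖ
    exact (inv_ne_zero (Nat.cast_ne_zero.2 q.2.ne_zero)) hϖ.symm
  have hρ1 : ρ < 1 :=
    (pow_lt_one_iff_of_nonneg hρ0.le he0.ne').1 (by rw [hϖ]; exact inv_lt_one_of_one_lt₀ hq1)
  have hρe : ∀ a : ℤ, ((q : ℕ) : ℝ) ^ a = ρ ^ (-(e : ℤ) * a) := fun a => by
    rw [zpow_mul, zpow_neg, zpow_natCast, hϖ, inv_inv]
  have hinj : ∀ a b : ℤ, ρ ^ a = ρ ^ b → a = b := fun a b h =>
    zpow_right_injective₀ hρ0 hρ1.ne h
  let v : Fin e × Fin f → valField L q := fun p => ϖ ^ (p.1 : ℕ) * (u p.2 : valField L q)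
  have hv : ∀ c : Fin e × Fin f → ℚ_[(q : ℕ)], ∑ p, c p • v p
      = ∑ j : Fin e, ϖ ^ (j : ℕ) * ∑ i, c (j, i) • (u i : valField L q) := fun c => by
    rw [Fintype.sum_prod_type]
    refine Finset.sum_congr rfl fun j _ => ?_
    rw [Finset.mul_sum]
    exact Finset.sum_congr rfl fun i _ => (mul_smul_comm _ _ _).symm
  have hlin : LinearIndependent ℚ_[(q : ℕ)] v := by
    rw [Fintype.linearIndependent_iff]
    intro c hc
    by_contra hne
    push Not at hne
    obtain ⟨⟨j₀, i₀⟩, hji⟩ := hne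
    set w : Fin e → Kq q := fun j =>
      ((ϖ ^ (j : ℕ) * ∑ i, c (j, i) • (u i : valField L q) : valField L q) : Kq q) with hw
    have hwn : ∀ j, ‖w j‖ = ρ ^ (j : ℕ) * ‖fun i => c (j, i)‖ := fun j => by
      rw [hw]
      simp only [MulMemClass.coe_mul, SubmonoidClass.coe_pow, norm_mul, norm_pow]
      rw [norm_sum_lift u hli]
    have hsum : ∑ j, w j = 0 := by
      have := congrArg (fun t : valField L q => (t : Kq q)) (hv c)
      rw [hc] at this
      simpa [hw] using this.symm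
    have hform : ∀ j, (fun i => c (j, i)) ≠ 0 →
        ∃ a : ℤ, ‖w j‖ = ρ ^ ((j : ℤ) + (e : ℤ) * a) := by
      intro j hj
      obtain ⟨i', hi'⟩ := Function.ne_iff.mp hj
      have : Nonempty (Fin f) := ⟨i'⟩
      obtain ⟨i, -, hi⟩ := Finset.exists_max_image Finset.univ (fun i => ‖c (j, i)‖)
        Finset.univ_nonempty
      have hnorm : ‖fun i => c (j, i)‖ = ‖c (j, i)‖ := le_antisymm
        ((pi_norm_le_iff_of_nonneg (norm_nonneg _)).mpr fun k => hi k (Finset.mem_univ k))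
        (norm_le_pi_norm (fun i => c (j, i)) i)
      have hci : c (j, i) ≠ 0 := fun h => hj (norm_eq_zero.mp (by rw [hnorm, h, norm_zero]))
      refine ⟨(c (j, i)).valuation, ?_⟩
      rw [hwn, hnorm, Padic.norm_eq_zpow_neg_valuation hci, hρe, zpow_add₀ hρ0.ne', zpow_natCast]
      congr 2
      ring
    have : Nonempty (Fin e) := ⟨j₀⟩
    obtain ⟨j, -, hj⟩ := Finset.exists_max_image Finset.univ (fun j => ‖w j‖) Finset.univ_nonempty
    have hj0 : 0 < ‖w j₀‖ := by
      rw [hwn]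
      exact mul_pos (pow_pos hρ0 _) (norm_pos_iff.2 fun h => hji (congrFun h i₀))
    have hjpos : 0 < ‖w j‖ := hj0.trans_le (hj j₀ (Finset.mem_univ _))
    have hlt : ∀ k ∈ Finset.univ.erase j, ‖w k‖ < ‖w j‖ := by
      intro k hk
      refine lt_of_le_of_ne (hj k (Finset.mem_univ k)) fun he' => ?_
      have hnz : ∀ l, 0 < ‖w l‖ → (fun i => c (l, i)) ≠ 0 := fun l hl h => by
        rw [hwn, h, norm_zero, mul_zero] at hl
        exact lt_irrefl _ hl
      obtain ⟨a, ha⟩ := hform j (hnz j hjpos)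
      obtain ⟨a', ha'⟩ := hform k (hnz k (he' ▸ hjpos))
      rw [ha, ha'] at he'
      have h1 := hinj _ _ he'
      have h2 : ((k : ℕ) : ℤ) - (j : ℕ) = (e : ℤ) * (a - a') := by rw [mul_sub]; linarith
      have h3 := Int.eq_zero_of_dvd_of_natAbs_lt_natAbs (Dvd.intro _ h2.symm) (by omega)
      exact Finset.ne_of_mem_erase hk (Fin.ext (by omega))
    rw [← Finset.add_sum_erase _ _ (Finset.mem_univ j)] at hsum
    have h4 : ‖∑ k ∈ Finset.univ.erase j, w k‖ < ‖w j‖ := by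
      rcases (Finset.univ.erase j).eq_empty_or_nonempty with h | h
      · rw [h, Finset.sum_empty, norm_zero]; exact hjpos
      · obtain ⟨k, hk, hk'⟩ := IsUltrametricDist.exists_norm_finsetSum_le_of_nonempty h w
        exact hk'.trans_lt (hlt k hk)
    rw [eq_neg_of_add_eq_zero_left hsum, norm_neg] at h4
    exact lt_irrefl _ h4
  set S := Submodule.span ℚ_[(q : ℕ)] (Set.range v) with hS
  have hstep : ∀ (n : ℤ) (y : valField L q), ‖(y : Kq q)‖ ≤ ρ ^ n →
      ∃ s ∈ S, ‖((y - s : valField L q) : Kq q)‖ ≤ ρ ^ (n + 1) := by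
    intro n y hy
    have hem : n % (e : ℤ) < e := Int.emod_lt_of_pos n (by exact_mod_cast he0)
    have hem0 : 0 ≤ n % (e : ℤ) := Int.emod_nonneg n (by exact_mod_cast he0.ne')
    set j : Fin e := ⟨(n % (e : ℤ)).toNat, by omega⟩ with hj
    set a := n / (e : ℤ) with ha
    have hn : n = (j : ℤ) + (e : ℤ) * a := by
      rw [hj, Fin.val_mk, Int.toNat_of_nonneg hem0, ha, Int.emod_add_mul_ediv]
    set Q : ℚ_[(q : ℕ)] := ((q : ℕ) : ℚ_[(q : ℕ)]) ^ a
    set P : valField L q := algebraMap _ _ Q * ϖ ^ (j : ℕ)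
    have hP : ‖(P : Kq q)‖ = ρ ^ n := by
      simp only [P, Q, MulMemClass.coe_mul, SubmonoidClass.coe_pow, norm_mul, norm_pow,
        IntermediateField.coe_algebraMap_apply, norm_algebraMap', norm_zpow, Padic.norm_p]
      rw [inv_zpow', hρe, hn, zpow_add₀ hρ0.ne', zpow_natCast, mul_comm,
        show -(e : ℤ) * -a = (e : ℤ) * a by ring]
    have hP0 : P ≠ 0 := fun h => by
      rw [h, ZeroMemClass.coe_zero, norm_zero] at hP
      exact (zpow_pos hρ0 n).ne hP
    have hz : ‖((y / P : valField L q) : Kq q)‖ ≤ 1 := by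
      rw [IntermediateField.coe_div, norm_div, hP, div_le_one (zpow_pos hρ0 n)]
      exact hy
    set r := b.repr (res₀ ⟨y / P, hz⟩) with hr
    set z' : valInt L q := ∑ i, ((r i).val : valInt L q) * u i with hz'
    have hres : res₀ z' = res₀ ⟨y / P, hz⟩ := by
      rw [hz']
      show Ideal.Quotient.mk (valMax L q) _ = _
      rw [map_sum]
      conv_rhs => rw [← b.sum_repr (res₀ ⟨y / P, hz⟩)]
      refine Finset.sum_congr rfl fun i _ => ?_
      rw [map_mul, map_natCast, hu, Algebra.smul_def, ← hr]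
      congr 1
      rw [← map_natCast (algebraMap (ZMod (q : ℕ)) (ResField L q)), ZMod.natCast_zmod_val]
    have hlt : ‖((y / P - z' : valField L q) : Kq q)‖ < 1 := by
      rw [Ideal.Quotient.eq, mem_valMax] at hres
      rw [AddSubgroupClass.coe_sub, norm_sub_rev]
      exact hres
    have hle : ‖((y / P - z' : valField L q) : Kq q)‖ ≤ ρ := by
      rcases eq_or_ne (y / P - (z' : valField L q)) 0 with h | h
      · rw [h, ZeroMemClass.coe_zero, norm_zero]; exact hρ0.le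
      · obtain ⟨m, hm⟩ := hgen _ h
        rw [hm] at hlt ⊢
        have hm1 : 1 ≤ m := by
          by_contra hm0
          exact absurd hlt (not_lt.2 (one_le_zpow_of_nonpos₀ hρ0 hρ1.le (by omega)))
        calc ρ ^ m ≤ ρ ^ (1 : ℤ) := zpow_le_zpow_right_of_le_one₀ hρ0 hρ1.le hm1
          _ = ρ := zpow_one ρ
    refine ⟨P * (z' : valField L q), ?_, ?_⟩
    · have : P * (z' : valField L q) = ∑ i, (Q * ((r i).val : ℚ_[(q : ℕ)])) • v (j, i) := by
        rw [hz', AddSubmonoidClass.coe_finsetSum, Finset.mul_sum]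
        refine Finset.sum_congr rfl fun i _ => ?_
        simp only [P, v, MulMemClass.coe_mul, SubringClass.coe_natCast, Algebra.smul_def, map_mul,
          map_natCast]
        ring
      rw [this]
      exact Submodule.sum_mem _ fun i _ => Submodule.smul_mem _ _ (Submodule.subset_span ⟨_, rfl⟩)
    · rw [show y - P * (z' : valField L q) = P * (y / P - z') by rw [mul_sub, mul_div_cancel₀ _ hP0],
        MulMemClass.coe_mul, norm_mul, hP, zpow_add_one₀ hρ0.ne']
      exact mul_le_mul_of_nonneg_left hle (zpow_pos hρ0 n).le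
  have htop : S = ⊤ := by
    refine eq_top_iff.2 fun y _ => ?_
    haveI : CompleteSpace (valField L q) :=
      FiniteDimensional.complete ℚ_[(q : ℕ)] (valField L q)
    rw [← SetLike.mem_coe, ← (Submodule.closed_of_finiteDimensional S).closure_eq,
      Metric.mem_closure_iff]
    intro ε hε
    rcases eq_or_ne y 0 with rfl | hy
    · exact ⟨0, S.zero_mem, by simpa using hε⟩
    obtain ⟨n, hn⟩ := hgen y hy
    have hm : ∀ m : ℕ, ∃ s ∈ S, ‖((y - s : valField L q) : Kq q)‖ ≤ ρ ^ (n + m) := by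
      intro m
      induction m with
      | zero => exact ⟨0, S.zero_mem, by simp [hn]⟩
      | succ m ih =>
        obtain ⟨s, hs, hsn⟩ := ih
        obtain ⟨s', hs', hs'n⟩ := hstep _ _ hsn
        exact ⟨s + s', S.add_mem hs hs', by
          rw [← sub_sub, Nat.cast_succ, ← add_assoc]; exact hs'n⟩
    obtain ⟨m, hm'⟩ := exists_pow_lt_of_lt_one (div_pos hε (zpow_pos hρ0 n)) hρ1
    obtain ⟨s, hs, hsn⟩ := hm m
    refine ⟨s, hs, ?_⟩
    rw [dist_eq_norm]
    refine hsn.trans_lt ?_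
    rw [lt_div_iff₀ (zpow_pos hρ0 n)] at hm'
    rwa [zpow_add₀ hρ0.ne', zpow_natCast, mul_comm]
  have hcard := linearIndependent_iff_card_eq_finrank_span.1 hlin
  rw [Set.finrank, ← hS, htop, finrank_top, Fintype.card_prod, Fintype.card_fin, Fintype.card_fin]
    at hcard
  exact hcard.symm

variable {L q}

/-- The map of subrings induced by an inclusion of intermediate fields. -/
def subringIncl {k E : Type*} [Field k] [Field E] [Algebra k E] {A B : IntermediateField k E}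
    (h : A ≤ B) (SA : Subring A) (SB : Subring B)
    (hS : ∀ y : SA, (⟨((y : A) : E), h (y : A).2⟩ : B) ∈ SB) : SA →+* SB where
  toFun y := ⟨⟨((y : A) : E), h (y : A).2⟩, hS y⟩
  map_one' := rfl
  map_mul' _ _ := rfl
  map_zero' := rfl
  map_add' _ _ := rfl

theorem coe_subringIncl {k E : Type*} [Field k] [Field E] [Algebra k E] {A B : IntermediateField k E}
    (h : A ≤ B) (SA : Subring A) (SB : Subring B)
    (hS : ∀ y : SA, (⟨((y : A) : E), h (y : A).2⟩ : B) ∈ SB) (y : SA) :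
    ((subringIncl h SA SB hS y : B) : E) = ((y : A) : E) := rfl

/-- A root of unity of order prime to `q` is determined by its residue. -/
lemma root_eq_of_norm_sub_lt {ℓ : Nat.Primes} (hqℓ : q ≠ ℓ) {x y : Kq q} (hx : x ^ (ℓ : ℕ) = 1)
    (hy : y ^ (ℓ : ℕ) = 1) (h : ‖x - y‖ < 1) : x = y := by
  by_contra hne
  have hn : ‖y‖ = 1 := norm_root q ℓ.2.ne_zero hy
  have hy0 : y ≠ 0 := fun h0 => by simp [h0] at hn
  have hρ : IsPrimitiveRoot (x / y) (ℓ : ℕ) := by
    have hp : (x / y) ^ (ℓ : ℕ) = 1 := by rw [div_pow, hx, hy, div_one]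
    have : Fact (ℓ : ℕ).Prime := ⟨ℓ.2⟩
    have ho : orderOf (x / y) = (ℓ : ℕ) :=
      orderOf_eq_prime hp fun h1 => hne ((div_eq_one_iff_eq hy0).1 h1)
    exact ho ▸ IsPrimitiveRoot.orderOf _
  have h1 := norm_one_sub_root ℓ q hqℓ hρ
  rw [one_sub_div hy0, norm_div, hn, div_one, norm_sub_rev] at h1
  exact absurd h1 h.ne

local instance (priority := high) instCoeFunResGalLocalStructure (L : Level) (q : Nat.Primes) :
    CoeFun (LocGal L q →* (ResField L q ≃ₐ[ZMod (q : ℕ)] ResField L q))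
      fun _ => LocGal L q → (ResField L q ≃ₐ[ZMod (q : ℕ)] ResField L q) :=
  ⟨fun g => DFunLike.coe g⟩

theorem exists_cyc_eq_pow (L : Level) {q ℓ : Nat.Primes} (hqℓ : q ≠ ℓ) {τ : Gq q}
    (hτ : loc q τ ∈ L.grp) :
    ∃ i : ℕ, Module.finrank (ZMod (q : ℕ)) (ResField L q) ∣ i ∧
      (cyc ℓ (loc q τ) : ZMod (ℓ : ℕ)) = ((q : ℕ) : ZMod (ℓ : ℕ)) ^ i := by
  classical
  set L' := L.sup (cycLevel ℓ) with hL'
  haveI := finite_resField L q
  haveI := finite_resField L' q
  haveI := Fintype.ofFinite (ResField L q)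
  haveI := Fintype.ofFinite (ResField L' q)
  have hle : valField L q ≤ valField L' q := by
    haveI := L.fin
    conv_lhs => unfold valField
    rw [IntermediateField.adjoin_le_iff]
    rintro _ ⟨k, rfl⟩
    exact emb_mem_valField ((le_sup_left : L.fld ≤ L.fld ⊔ (cycLevel ℓ).fld)
      (Module.finBasis ℚ L.fld k).2)
  let ι : valInt L q →+* valInt L' q :=
    subringIncl hle (valInt L q) (valInt L' q) fun y => norm_coe_le y
  have hι : ∀ y, ((ι y : valField L' q) : Kq q) = ((y : valField L q) : Kq q) :=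
    coe_subringIncl hle (valInt L q) (valInt L' q) fun y => norm_coe_le y
  let ιr : ResField L q →+* ResField L' q := Ideal.quotientMap (valMax L' q) ι fun y hy =>
    Ideal.mem_comap.2 (mem_valMax.2 (lt_of_eq_of_lt (congrArg norm (hι y)) (mem_valMax.1 hy)))
  obtain ⟨⟨i, hi⟩, hσ⟩ := (FiniteField.bijective_frobeniusAlgEquivOfAlgebraic_pow (ZMod (q : ℕ))
    (ResField L' q)).2 (resGal (locRes L' q τ))
  simp only at hσ
  have happ : ∀ x : ResField L' q, resGal (locRes L' q τ) x = x ^ (q : ℕ) ^ i := fun x => by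
    rw [← hσ, AlgEquiv.coe_pow, FiniteField.coe_frobeniusAlgEquivOfAlgebraic_iterate, ZMod.card]
  refine ⟨i, ?_, ?_⟩
  · have hfix : ∀ x : ResField L q, x ^ (q : ℕ) ^ i = x := fun x => by
      refine ιr.injective ?_
      rw [map_pow, ← happ]
      obtain ⟨y, rfl⟩ := Ideal.Quotient.mk_surjective x
      show resGal (locRes L' q τ) (res₀ (ι y)) = res₀ (ι y)
      rw [resGal_mk]
      congr 1
      refine Subtype.ext (Subtype.ext ?_)
      show (locRes L' q τ (ι y : valField L' q) : Kq q) = ((ι y : valField L' q) : Kq q)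
      rw [locRes_apply, hι, ← locRes_apply τ (y : valField L q), locRes_of_loc_mem hτ]
      rfl
    obtain ⟨g, hg⟩ := IsCyclic.exists_ofOrder_eq_natCard (α := (ResField L q)ˣ)
    have hpow : g ^ ((q : ℕ) ^ i - 1) = 1 := Units.ext (by
      have h1 := hfix (g : ResField L q)
      rw [← Nat.sub_add_cancel (Nat.one_le_pow i _ q.2.pos), pow_succ] at h1
      rw [Units.val_pow_eq_pow_val, Units.val_one]
      exact (mul_eq_right₀ g.ne_zero).1 h1)
    have hdvd := orderOf_dvd_of_pow_eq_one hpow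
    rw [hg, Nat.card_units, Module.natCard_eq_pow_finrank (K := ZMod (q : ℕ)), Nat.card_zmod] at hdvd
    have hgcd := Nat.gcd_eq_left hdvd
    rw [Nat.pow_sub_one_gcd_pow_sub_one] at hgcd
    have h2 : (q : ℕ) ^ Nat.gcd (Module.finrank (ZMod (q : ℕ)) (ResField L q)) i
        = (q : ℕ) ^ Module.finrank (ZMod (q : ℕ)) (ResField L q) := by
      have a1 := Nat.one_le_pow (Nat.gcd (Module.finrank (ZMod (q : ℕ)) (ResField L q)) i) _ q.2.pos
      have a2 := Nat.one_le_pow (Module.finrank (ZMod (q : ℕ)) (ResField L q)) _ q.2.pos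
      omega
    exact (Nat.pow_right_injective q.2.two_le h2) ▸ Nat.gcd_dvd_right _ i
  · have hz : zloc ℓ q ∈ valField L' q :=
      emb_mem_valField ((le_sup_right : (cycLevel ℓ).fld ≤ L.fld ⊔ (cycLevel ℓ).fld)
        (IntermediateField.mem_adjoin_simple_self ℚ (zeta ℓ)))
    have hn : ‖zloc ℓ q‖ ≤ 1 := (norm_root q ℓ.2.ne_zero (zloc_spec ℓ q).pow_eq_one).le
    have h1 := happ (res₀ (⟨⟨_, hz⟩, hn⟩ : valInt L' q))
    rw [resGal_mk, ← map_pow, Ideal.Quotient.eq, mem_valMax] at h1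
    simp only [AddSubgroupClass.coe_sub, SubmonoidClass.coe_pow] at h1
    have h2 : τ (zloc ℓ q) = zloc ℓ q ^ (q : ℕ) ^ i := by
      refine root_eq_of_norm_sub_lt hqℓ ?_ ?_ ?_
      · rw [← map_pow, (zloc_spec ℓ q).pow_eq_one, map_one]
      · rw [← pow_mul, mul_comm, pow_mul, (zloc_spec ℓ q).pow_eq_one, one_pow]
      · rw [← locRes_apply τ ⟨_, hz⟩]
        exact h1
    rw [cyc_loc_eq ℓ q h2, Nat.cast_pow]

/-- `e f = n` at the distinguished place, with the action on residues -/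
theorem exists_local_structure (L : Level) (q ℓ : Nat.Primes) (hqℓ : q ≠ ℓ) :
    ∃ (π : Semi q) (e f : ℕ), π ∈ fixSub (A := Semi q) L.grp ∧
      ‖sval π 1‖ ^ e = ((q : ℕ) : ℝ)⁻¹ ∧ e * f = L.grp.relIndex (dec q) ∧
      ∀ τ : Gq q, loc q τ ∈ L.grp →
        ∃ i : ℕ, f ∣ i ∧ (cyc ℓ (loc q τ) : ZMod (ℓ : ℕ)) = ((q : ℕ) : ZMod (ℓ : ℕ)) ^ i := by
  obtain ⟨ϖ, e, he, hϖ, hgen⟩ := exists_uniformiser L q
  have h0 : ϖ ≠ 0 := fun h => by
    rw [h, ZeroMemClass.coe_zero, norm_zero, zero_pow he.ne'] at hϖ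
    exact (inv_ne_zero (Nat.cast_ne_zero.2 q.2.ne_zero)) hϖ.symm
  obtain ⟨π, hπ, -, hπ1⟩ := exists_atPlace_value L q 1 ϖ h0
  exact ⟨π, e, _, hπ, by rw [hπ1, hϖ],
    by rw [relIndex_grp_dec, finrank_valField_eq L q ϖ e he hϖ hgen],
    fun τ hτ => exists_cyc_eq_pow L hqℓ hτ⟩

end FLTAgent.Global
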