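import Fermat.Agent.Global.Ext.ClassModule

/-!
The cup product of a character with an invariant element: the carry cocycle, when it splits, and
its order.
-/

set_option autoImplicit false
set_option linter.unusedSectionVars false

noncomputable section

namespace FLTAgent.Global

variable {Γ : Type*} [Group Γ] {A : Type*} [AddCommGroup A] [DistribMulAction Γ A]
variable {n : ℕ} [NeZero n] (χ : Γ →* Multiplicative (ZMod n))

/-- The representative in `[0, n)` of the value of the character. -/
def chiVal (g : Γ) : ℕ := (Multiplicative.toAdd (χ g) : ZMod n).val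

lemma chiVal_lt (g : Γ) : chiVal χ g < n := ZMod.val_lt _

lemma chiVal_mul (g h : Γ) : chiVal χ (g * h) = (chiVal χ g + chiVal χ h) % n := by
  rw [chiVal, map_mul, toAdd_mul, ZMod.val_add]; rfl

lemma chiVal_of_mem_ker {s : Γ} (hs : χ s = 1) : chiVal χ s = 0 := by
  rw [chiVal, hs, toAdd_one, ZMod.val_zero]

lemma chiVal_mul_ker (g : Γ) {s : Γ} (hs : χ s = 1) : chiVal χ (g * s) = chiVal χ g := by
  rw [chiVal_mul, chiVal_of_mem_ker χ hs, add_zero, Nat.mod_eq_of_lt (chiVal_lt χ g)]

/-- The carry. -/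
def carry (g h : Γ) : ℕ := (chiVal χ g + chiVal χ h) / n

lemma chiVal_add (g h : Γ) : chiVal χ g + chiVal χ h = n * carry χ g h + chiVal χ (g * h) := by
  rw [chiVal_mul, carry, Nat.div_add_mod]

lemma carry_cocycle (g h j : Γ) :
    carry χ h j + carry χ g (h * j) = carry χ (g * h) j + carry χ g h := by
  have h1 := chiVal_add χ h j
  have h2 := chiVal_add χ g (h * j)
  have h3 := chiVal_add χ (g * h) j
  have h4 := chiVal_add χ g h
  rw [← mul_assoc g h j] at h2
  refine Nat.eq_of_mul_eq_mul_left (NeZero.pos n) ?_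
  rw [mul_add, mul_add]
  omega

lemma carry_mul_ker {g h s t : Γ} (hs : χ s = 1) (ht : χ t = 1) :
    carry χ (g * s) (h * t) = carry χ g h := by
  rw [carry, carry, chiVal_mul_ker χ g hs, chiVal_mul_ker χ h ht]

/-- `χ ∪ a` as a cochain. -/
def carryC (a : A) (g h : Γ) : A := carry χ g h • a

variable {H N : Subgroup Γ}

theorem isZ2_carryC {a : A} (hN : N ≤ χ.ker) (ha : ∀ g ∈ H, g • a = a) : IsZ2 H N (carryC χ a) := by
  refine ⟨fun g _ h _ s hs t ht => by simp only [carryC, carry_mul_ker χ (hN hs) (hN ht)],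
    fun g hg h _ j _ => ?_⟩
  simp only [carryC]
  rw [smul_comm g, ha g hg, sub_add_eq_add_sub, sub_sub, ← add_nsmul, ← add_nsmul,
    carry_cocycle χ g h j, sub_self]

/-- The character cuts out a level. -/
lemma lvl_inf_ker (hN : Lvl H N) (hNχ : N ≤ χ.ker) : Lvl H (H ⊓ χ.ker) where
  le := inf_le_left
  conj g hg s hs := ⟨H.mul_mem (H.mul_mem (H.inv_mem hg) hs.1) hg,
    by simpa using (χ.normal_ker.conj_mem s hs.2 g⁻¹)⟩
  fin := hN.fin_quot inf_le_left (le_inf hN.le hNχ)

/-- `χ ∪ a` splits if `a` is a norm from the field cut out by `χ`. -/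
theorem exists_dd1_carryC {y : A} (hN : Lvl H N) (hNχ : N ≤ χ.ker)
    (hy : ∀ s ∈ H, χ s = 1 → s • y = y) :
    ∃ b : Γ → A, IsLvl1 H N b ∧
      ∀ g ∈ H, ∀ h ∈ H, carryC χ (normTo H (H ⊓ χ.ker) y) g h = dd1 b g h := by
  classical
  set K := H ⊓ χ.ker
  have hK := lvl_inf_ker χ hN hNχ
  let b : Γ → A := fun g => csum H K fun t => if chiVal χ t < chiVal χ g then t • y else 0
  refine ⟨b, fun g _ s hs => ?_, fun g hg h hh => ?_⟩
  · simp only [b, chiVal_mul_ker χ g (hNχ hs)]
  have hlev : ∀ t ∈ H, ∀ s ∈ K, (t * s) • y = t • y := fun t _ s hs => by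
    rw [mul_smul, hy s hs.1 hs.2]
  have e1 : g • b h = csum H K fun t => if (chiVal χ t + (n - chiVal χ g)) % n < chiVal χ h then t • y else 0 := by
    simp only [b]
    rw [smul_csum hK g]
    rw [← csum_mul_left (F := fun t => if (chiVal χ t + (n - chiVal χ g)) % n < chiVal χ h then t • y else 0)
      (fun t ht s hs => by simp only [chiVal_mul_ker χ t hs.2, hlev t ht s hs]) hg]
    refine csum_congr H K fun t _ => ?_
    rw [smul_ite, smul_zero, ← mul_smul]
    have e : (chiVal χ (g * t) + (n - chiVal χ g)) % n = chiVal χ t := by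
      rw [chiVal_mul, Nat.mod_add_mod, show chiVal χ g + chiVal χ t + (n - chiVal χ g) = chiVal χ t + n by
        have := chiVal_lt χ g; omega, Nat.add_mod_right, Nat.mod_eq_of_lt (chiVal_lt χ t)]
    simp only [e]
  simp only [dd1, e1, b, carryC, normTo]
  rw [show carry χ g h • csum H K (fun t => t • y)
      = nsmulAddMonoidHom (carry χ g h) (csum H K fun t => t • y) from rfl, map_csum H K hK.fin,
    ← csum_sub hK, ← csum_add H K hK.fin]
  refine csum_congr H K fun t _ => ?_
  simp only [nsmulAddMonoidHom_apply]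
  have hA := chiVal_lt χ g
  have hB := chiVal_lt χ h
  have hX := chiVal_lt χ t
  have hAB := chiVal_add χ g h
  rw [chiVal_mul χ g h] at hAB ⊢
  have hr : (chiVal χ t + (n - chiVal χ g)) % n
      = if chiVal χ g ≤ chiVal χ t then chiVal χ t - chiVal χ g else chiVal χ t + n - chiVal χ g := by
    split_ifs with hle
    · rw [show chiVal χ t + (n - chiVal χ g) = chiVal χ t - chiVal χ g + n by omega, Nat.add_mod_right,
        Nat.mod_eq_of_lt (by omega)]
    · rw [Nat.mod_eq_of_lt (by omega)]; omega
  rw [hr]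
  have hc : carry χ g h = if n ≤ chiVal χ g + chiVal χ h then 1 else 0 := by
    split_ifs with hle
    · exact Nat.div_eq_of_lt_le (by omega) (by omega)
    · exact Nat.div_eq_of_lt (by omega)
  have hs : (chiVal χ g + chiVal χ h) % n
      = if n ≤ chiVal χ g + chiVal χ h then chiVal χ g + chiVal χ h - n else chiVal χ g + chiVal χ h := by
    split_ifs with hle
    · rw [Nat.mod_eq_sub_mod hle, Nat.mod_eq_of_lt (by omega)]
    · exact Nat.mod_eq_of_lt (by omega)
  rw [hc, hs]
  split_ifs <;> first | omega | simp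

/-- The order of `χ ∪ a`: if it splits on a cyclic layer, `a` is a norm. -/
theorem exists_normTo_of_isB2_carryC {a : A} (hK : Lvl H (H ⊓ χ.ker)) {t : Γ} (ht : t ∈ H)
    (hχt : chiVal χ t = 1 % n) (ha : ∀ g ∈ H, g • a = a) (k : ℤ)
    (hB : IsB2 H (H ⊓ χ.ker) (fun g h => k • carryC χ a g h)) :
    ∃ y ∈ fixSub (A := A) (H ⊓ χ.ker), normTo H (H ⊓ χ.ker) y = k • a := by
  classical
  set K := H ⊓ χ.ker with hKdef
  rcases Nat.eq_or_lt_of_le (NeZero.pos n : 1 ≤ n) with h1 | h1
  · subst h1
    have hKH : K = H := inf_eq_left.2 fun g _ => by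
      show χ g = 1
      exact Multiplicative.toAdd.injective (Subsingleton.elim (α := ZMod 1) _ _)
    refine ⟨k • a, fun s hs => by rw [smul_comm, ha s hs.1], ?_⟩
    rw [normTo_of_fixed hK (fun g hg => by rw [smul_comm, ha g hg]), hKH, Subgroup.relIndex_self, one_smul]
  have h1n : 1 % n = 1 := Nat.one_mod_eq_one.2 (by omega)
  obtain ⟨b, hb, hbc⟩ := hB
  have c0 : ∀ g, carry χ g 1 = 0 ∧ carry χ 1 g = 0 := fun g => by
    constructor <;>
      simp [carry, chiVal_of_mem_ker χ (map_one χ), Nat.div_eq_of_lt (chiVal_lt χ g)]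
  have hb1 : b 1 = 0 := by
    have := hbc 1 H.one_mem 1 H.one_mem
    simpa [dd1, carryC, (c0 1).1] using this.symm
  refine ⟨b t, fun s hs => ?_, ?_⟩
  · have e := hbc s hs.1 t ht
    have e1 : carry χ s t = 0 := by
      rw [carry, chiVal_of_mem_ker χ hs.2, zero_add, Nat.div_eq_of_lt (chiVal_lt χ t)]
    have e2 : b (s * t) = b t := by
      rw [show s * t = t * (t⁻¹ * s * t) by group]; exact hb t ht _ (hK.conj t ht s hs)
    have e3 : b s = b 1 := by simpa using hb 1 H.one_mem s hs
    simp only [carryC, e1, zero_smul, smul_zero, dd1, e2, e3, hb1, add_zero] at e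
    exact sub_eq_zero.1 e.symm
  · have e : csum H K (fun g => k • carryC χ a g t) = csum H K (fun g => dd1 b g t) :=
      csum_congr H K fun g hg => hbc g hg t ht
    have hsum : csum H K (fun g => carry χ g t) = 1 := by
      obtain ⟨t₀, ht₀, hval⟩ : ∃ t₀ ∈ H, chiVal χ t₀ = n - 1 := by
        refine ⟨t ^ (n - 1), pow_mem ht _, ?_⟩
        have : ∀ i, chiVal χ (t ^ i) = i % n := by
          intro i
          induction i with
          | zero => simp [chiVal_of_mem_ker χ (map_one χ)]
          | succ i ih => rw [pow_succ, chiVal_mul, ih, hχt, ← Nat.add_mod]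
        rw [this, Nat.mod_eq_of_lt (by have := NeZero.pos n; omega)]
      have hc : ∀ g, carry χ g t = if chiVal χ g = n - 1 then 1 else 0 := fun g => by
        have hg := chiVal_lt χ g
        rw [carry, hχt, h1n]
        split_ifs with h
        · exact Nat.div_eq_of_lt_le (by omega) (by omega)
        · exact Nat.div_eq_of_lt (by omega)
      rw [csum_single hK ht₀ (fun g hg s hs => by rw [hc, hc, chiVal_mul_ker χ g hs.2]) fun g hg hne => ?_]
      · rw [hc, if_pos hval]
      · rw [hc, if_neg]
        intro hgv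
        refine hne ⟨H.mul_mem (H.inv_mem ht₀) hg, ?_⟩
        show χ (t₀⁻¹ * g) = 1
        rw [map_mul, map_inv, inv_mul_eq_one]
        exact Multiplicative.toAdd.injective (ZMod.val_injective n (hval.trans hgv.symm))
    have hlhs : csum H K (fun g => k • carryC χ a g t) = k • a := by
      simp only [carryC]
      rw [← zsmul_csum hK, show csum H K (fun g => carry χ g t • a)
          = (smulAddHom ℕ A).flip a (csum H K fun g => carry χ g t) from
        (map_csum H K hK.fin ((smulAddHom ℕ A).flip a) fun g => carry χ g t).symm, hsum]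
      simp
    rw [hlhs] at e
    simp only [dd1] at e
    rw [csum_add H K hK.fin, csum_sub hK, csum_mul_right hK (fun g hg s hs => hb g hg s hs) ht,
      sub_add_cancel] at e
    exact e.symm

end FLTAgent.Global
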