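import Fermat.Agent.Global.Fund.PsiNorm
import Fermat.Agent.Global.Fund.Carry
import Fermat.Agent.Global.Semilocal.SemiUnits
import Fermat.Agent.Global.Semilocal.Valuation
import Fermat.Agent.Global.CFT.Main

/-!
The fundamental class of a level containing the `p`-th roots of unity.
-/

set_option autoImplicit false
set_option synthInstance.maxHeartbeats 100000

noncomputable section

namespace FLTAgent.Global

lemma normTo_trans {Γ : Type*} [Group Γ] {A : Type*} [AddCommGroup A] [DistribMulAction Γ A]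
    {H P K : Subgroup Γ} (hP : P ≤ H) (hKP : K ≤ P) (hf : Finite (↥H ⧸ K.subgroupOf H)) {a : A}
    (ha : a ∈ fixSub (A := A) K) : normTo H P (normTo P K a) = normTo H K a := by
  have hprod : Finite ((↥H ⧸ P.subgroupOf H) × (↥P ⧸ K.subgroupOf P)) :=
    Finite.of_injective _ (towerMap_bijective (N := K) hP hKP).1
  have hP' : Finite (↥P ⧸ K.subgroupOf P) :=
    Finite.of_injective (fun r => ((QuotientGroup.mk (1 : H) : ↥H ⧸ P.subgroupOf H), r))
      fun r r' h => (Prod.ext_iff.1 h).2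
  symm
  simp only [normTo, csum]
  rw [← finsum_comp_equiv (Equiv.ofBijective _ (towerMap_bijective (N := K) hP hKP)),
    finsum_curry _ (Set.toFinite _)]
  refine finsum_congr fun q => ?_
  rw [show rep H P q • ∑ᶠ r, rep P K r • a = DistribSMul.toAddMonoidHom A (rep H P q) (∑ᶠ r, rep P K r • a) from rfl,
    AddMonoidHom.map_finsum _ (Set.toFinite _)]
  refine finsum_congr fun r => ?_
  set z := Equiv.ofBijective _ (towerMap_bijective (N := K) hP hKP) (q, r) with hz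
  have e := QuotientGroup.out_eq' z
  rw [hz, Equiv.ofBijective_apply] at e
  unfold towerMap at e
  rw [QuotientGroup.eq, Subgroup.mem_subgroupOf] at e
  show rep H K z • a = rep H P q • rep P K r • a
  rw [← mul_smul]
  conv_rhs => rw [show rep H P q * rep P K r = rep H K z * ((rep H K z)⁻¹ * (rep H P q * rep P K r)) by group, mul_smul]
  congr 1
  symm
  refine ha _ ?_
  simpa [rep, hz, towerMap, mul_assoc] using e

lemma smul_normTo_of_fin {Γ : Type*} [Group Γ] {A : Type*} [AddCommGroup A] [DistribMulAction Γ A]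
    {H K : Subgroup Γ} (hf : Finite (↥H ⧸ K.subgroupOf H)) {y : A} (hy : y ∈ fixSub (A := A) K)
    {g : Γ} (hg : g ∈ H) : g • normTo H K y = normTo H K y := by
  rw [normTo, show g • csum H K (fun t => t • y)
      = DistribSMul.toAddMonoidHom A g (csum H K fun t => t • y) from rfl, map_csum _ _ hf]
  conv_rhs => rw [← csum_mul_left (F := fun t => t • y) (fun t _ r hr => by rw [mul_smul, hy r hr]) hg]
  exact csum_congr _ _ fun t _ => (mul_smul g t y).symm

lemma isB2_zsmul_of_sub_dd1 {Γ : Type*} [Group Γ] {A : Type*} [AddCommGroup A] [DistribMulAction Γ A]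
    {H M N : Subgroup Γ} {c : Γ → Γ → A} {b : Γ → A} {k : ℤ} (hNM : N ≤ M) (hb : IsLvl1 H N b)
    (h : IsB2 H M (fun g h => k • (c g h - dd1 b g h))) : IsB2 H N (fun g h => k • c g h) := by
  obtain ⟨b', hb', hb'c⟩ := h
  refine ⟨fun g => b' g + k • b g, fun g hg t ht => ?_, fun g hg h hh => ?_⟩
  · show b' (g * t) + k • b (g * t) = b' g + k • b g
    rw [hb' g hg t (hNM ht), hb g hg t ht]
  · have := hb'c g hg h hh
    dsimp only at this ⊢
    rw [smul_sub, sub_eq_iff_eq_add] at this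
    rw [this]
    simp only [dd1, smul_add, smul_sub, smul_comm g k (b h)]
    abel

variable {p : ℕ} [Fact p.Prime]

/-- Norm representatives of a `p`-group layer. -/
theorem exists_reps_norms (hp2 : p ≠ 2) (L : Level) {H N : Subgroup GQ} (hN : Lvl H N) (hLN : L.grp ≤ N)
    {a : ℕ} (hidx : N.relIndex H = p ^ a) (hμ : FixesMu p H) :
    ∃ R : Finset Cl, R.card ≤ p ^ a ∧
      ∀ c ∈ fixSub (A := Cl) H, ∃ r ∈ R, ∃ y ∈ fixSub (A := Cl) N, c = r + normTo H N y := by
  classical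
  induction a generalizing H with
  | zero =>
    rw [pow_zero, Subgroup.relIndex_eq_one] at hidx
    refine ⟨{0}, by simp, fun c hc => ⟨0, Finset.mem_singleton_self 0, c, fun s hs => hc s (hN.le hs), ?_⟩⟩
    rw [normTo_of_fixed hN hc, Subgroup.relIndex_eq_one.2 hidx, one_nsmul]
    exact (zero_add c).symm
  | succ a ih =>
    obtain ⟨P, hPH, hNP, hP, hPi⟩ := exists_sublayer hN hidx
    have hPa : N.relIndex P = p ^ a := by
      have h := Subgroup.relIndex_mul_relIndex N P H hNP hPH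
      rw [hPi, hidx, pow_succ] at h
      exact Nat.eq_of_mul_eq_mul_right (Fact.out : p.Prime).pos h
    obtain ⟨R, hR, hRs⟩ := ih (hN.sub_left hPH hNP) hPa (hμ.mono hPH)
    obtain ⟨c₀, -, -, hc₀⟩ := exists_generator_norms_step hp2 L hP (hLN.trans hNP) hPi hμ
    refine ⟨(Finset.range p ×ˢ R).image fun x => x.1 • c₀ + normTo H P x.2, ?_, fun c hc => ?_⟩
    · refine Finset.card_image_le.trans ?_
      rw [Finset.card_product, Finset.card_range, pow_succ']
      exact Nat.mul_le_mul_left _ hR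
    · obtain ⟨k, hk, z, hz, hkz⟩ := hc₀ c hc
      obtain ⟨r, hr, y, hy, rfl⟩ := hRs z hz
      refine ⟨_, Finset.mem_image.2 ⟨(k, r), Finset.mem_product.2 ⟨Finset.mem_range.2 hk, hr⟩, rfl⟩, y, hy, ?_⟩
      rw [normTo_add hP, normTo_tower hN hPH hNP hy] at hkz
      rw [add_assoc, hkz]
      exact (add_sub_cancel (k • c₀) c).symm

/-- A `p`-group layer over a level containing `μ_p` fixes `μ_p`. -/
lemma fixesMu_of_relIndex {H N : Subgroup GQ} (hN : Lvl H N) (hμ : FixesMu p N) {a : ℕ}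
    (hidx : N.relIndex H = p ^ a) : FixesMu p H := by
  have hp : p.Prime := Fact.out
  intro s hs z hz
  have := hN.fin
  have hnorm : (N.subgroupOf H).Normal := ⟨fun x hx g => by
    rw [Subgroup.mem_subgroupOf] at hx ⊢
    simpa using hN.conj _ (H.inv_mem g.2) _ hx⟩
  have hpow : s ^ p ^ a ∈ N := by
    have h1 : (QuotientGroup.mk (⟨s, hs⟩ : H) : ↥H ⧸ N.subgroupOf H) ^ p ^ a = 1 := by
      rw [← hidx, show N.relIndex H = Nat.card (↥H ⧸ N.subgroupOf H) from rfl]
      exact pow_card_eq_one'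
    rw [← QuotientGroup.mk_pow, QuotientGroup.eq_one_iff, Subgroup.mem_subgroupOf] at h1
    simpa using h1
  obtain ⟨ζ, hζ⟩ := exists_primitiveRoot p
  obtain ⟨i, hip, hi⟩ := hζ.eq_pow_of_pow_eq_one
    (show (s ζ) ^ p = 1 by rw [← map_pow, hζ.pow_eq_one, map_one])
  have hiter : ∀ k : ℕ, (s ^ k) ζ = ζ ^ i ^ k := by
    intro k
    induction k with
    | zero => simp
    | succ k ih =>
      rw [pow_succ, AlgEquiv.mul_apply, ← hi, map_pow, ih, ← pow_mul, ← pow_succ]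
  have h := (hiter (p ^ a)).symm.trans (hμ _ hpow ζ hζ.pow_eq_one)
  have hcast : ((i : ZMod p)) ^ p ^ a = 1 := by
    rw [← Nat.cast_pow, ← Nat.cast_one, ZMod.natCast_eq_natCast_iff]
    have h' : ζ ^ i ^ p ^ a = ζ ^ 1 := by rw [pow_one]; exact h
    refine (hζ.pow_inj (Nat.mod_lt _ hp.pos) hp.one_lt ?_).trans (Nat.mod_eq_of_lt hp.one_lt).symm
    rw [← h', ← Nat.div_add_mod (i ^ p ^ a) p, pow_add, pow_mul, hζ.pow_eq_one, one_pow, one_mul]
    simp [Nat.add_mod]
  rw [ZMod.pow_card_pow] at hcast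
  have hi1 : i = 1 := by
    have := congrArg ZMod.val hcast
    rwa [ZMod.val_cast_of_lt hip, ZMod.val_one] at this
  obtain ⟨j, -, rfl⟩ := hζ.eq_pow_of_pow_eq_one hz
  rw [map_pow, ← hi, hi1, pow_one]

lemma exists_dl (ℓ : Nat.Primes) {n : ℕ} (hn : n ∣ (ℓ : ℕ) - 1) :
    ∃ dl : (ZMod (ℓ : ℕ))ˣ →* Multiplicative (ZMod n), Function.Surjective dl := by
  have : Fact (ℓ : ℕ).Prime := ⟨ℓ.2⟩
  have hcard : n ∣ Nat.card (ZMod (ℓ : ℕ))ˣ := by
    rwa [Nat.card_eq_fintype_card, ZMod.card_units]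
  let e := (zmodCyclicMulEquiv (G := (ZMod (ℓ : ℕ))ˣ) inferInstance).symm
  refine ⟨(AddMonoidHom.toMultiplicative (ZMod.castHom hcard (ZMod n)).toAddMonoidHom).comp e.toMonoidHom, ?_⟩
  exact Function.Surjective.comp (g := AddMonoidHom.toMultiplicative (ZMod.castHom hcard (ZMod n)).toAddMonoidHom)
    (ZMod.castHom_surjective hcard) e.surjective

lemma dl_neg_one {ℓ : Nat.Primes} {n : ℕ} (hn : Odd n) (dl : (ZMod (ℓ : ℕ))ˣ →* Multiplicative (ZMod n)) :
    dl (-1) = 1 := by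
  have h2 : (dl (-1)) ^ 2 = 1 := by rw [← map_pow, neg_one_sq, map_one]
  have h3 : (dl (-1)) ^ n = 1 := Multiplicative.toAdd.injective (by
    rw [toAdd_pow, toAdd_one, nsmul_eq_mul, ZMod.natCast_self, zero_mul])
  obtain ⟨k, rfl⟩ := hn
  rwa [pow_succ, pow_mul, h2, one_pow, one_mul] at h3

set_option maxHeartbeats 1000000 in
/-- **The fundamental class**: its restriction to every Sylow layer has full order. -/
theorem exists_fundamental (hp2 : p ≠ 2) (L : Level) (hμ : FixesMu p L.grp) :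
    ∃ u : GQ → GQ → Cl, IsZ2 (⊤ : Subgroup GQ) L.grp u ∧
      ∀ P : Subgroup GQ, L.grp ≤ P → ∀ s : ℕ, L.grp.relIndex P = p ^ s → ¬ p ∣ P.index →
        ∀ k : ℤ, IsB2 P L.grp (fun g h => k • u g h) → ((p ^ s : ℕ) : ℤ) ∣ k := by
  classical
  have hp : p.Prime := Fact.out
  have := L.finite_quotient
  have hidx0 : L.grp.index ≠ 0 := Subgroup.index_ne_zero_of_finite
  set A := L.grp.index.factorization p with hA
  set n := p ^ A with hn
  have hne : NeZero n := ⟨pow_ne_zero _ hp.ne_zero⟩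
  have hodd : Odd n := (hp.odd_of_ne_two hp2).pow
  -- the auxiliary prime
  obtain ⟨ℓ, hbad, -, b, hAb, hord⟩ := exists_prime_order hp hp2 Nat.prime_two A
    ((finite_ramified L).toFinset.image fun r : Nat.Primes => (r : ℕ))
  have hun : L.UnrAt ℓ := by
    by_contra h
    exact hbad (Finset.mem_image.2 ⟨ℓ, by simpa using h, rfl⟩)
  have : Fact (ℓ : ℕ).Prime := ⟨ℓ.2⟩
  have hℓ2 : ((2 : ℕ) : ZMod (ℓ : ℕ)) ≠ 0 := fun h => by
    rw [h, orderOf_zero] at hord
    exact pow_ne_zero _ hp.ne_zero hord.symm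
  have hdvd : n ∣ (ℓ : ℕ) - 1 :=
    (pow_dvd_pow p hAb).trans (hord ▸ ZMod.orderOf_dvd_card_sub_one hℓ2)
  obtain ⟨dl, hdl⟩ := exists_dl ℓ hdvd
  have hneg := dl_neg_one hodd dl
  -- the character, surjective on `L.grp`
  set χ := chi dl
  have hχL : ∀ z, ∃ g ∈ L.grp, χ g = z := fun z => by
    obtain ⟨u, rfl⟩ := hdl z
    obtain ⟨g, rfl⟩ := cyc_surjective u
    obtain ⟨t, ht, hte⟩ := exists_mem_cyc_eq ℓ L hun g
    exact ⟨t, ht, by simp [χ, hte]⟩
  set N' := L.grp ⊓ χ.ker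
  set Z := L.sup (zetaLevel ℓ)
  have hZN : Z.grp ≤ N' := (L.sup_grp_le _).trans (inf_le_inf le_rfl (zetaLevel_grp ℓ ▸ ker_cyc_le_chi dl))
  have hlN : Lvl (⊤ : Subgroup GQ) N' :=
    ⟨le_top, fun g _ s hs => ⟨by simpa using L.grp_normal.conj_mem s hs.1 g⁻¹,
        by simpa using χ.normal_ker.conj_mem s hs.2 g⁻¹⟩,
      ((Z.lvl (H := (⊤ : Subgroup GQ)) le_top)).fin_quot le_top hZN⟩
  have hlL : Lvl (⊤ : Subgroup GQ) L.grp := L.lvl le_top
  have hlLN : Lvl L.grp N' := hlN.sub_left le_top inf_le_left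
  have hcardχ : ∀ H : Subgroup GQ, L.grp ≤ H → (H ⊓ χ.ker).relIndex H = n := by
    intro H hH
    rw [Subgroup.inf_relIndex_left, Subgroup.relIndex_ker]
    have : H.map χ = ⊤ := eq_top_iff.2 fun z _ => by
      obtain ⟨g, hg, rfl⟩ := hχL z
      exact ⟨g, hH hg, rfl⟩
    rw [this, Subgroup.card_top, Nat.card_congr Multiplicative.toAdd, Nat.card_zmod]
  -- the invariant class
  obtain ⟨u₀, hu₀⟩ := hdl (Multiplicative.ofAdd 1)
  set m := (u₀ : ZMod (ℓ : ℕ)).val
  have hm : ¬ (ℓ : ℕ) ∣ m := fun h => u₀.ne_zero (by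
    rw [← ZMod.natCast_zmod_val (u₀ : ZMod (ℓ : ℕ)), ZMod.natCast_eq_zero_iff]; exact h)
  have hm0 : (m : QQbar) ≠ 0 := Nat.cast_ne_zero.2 fun h => hm (h ▸ dvd_zero _)
  set α := toQMul (m : QQbar) hm0
  have hα : α ∈ fixSub (A := QMul) (⊤ : Subgroup GQ) := fun s _ =>
    qmul_ext (by rw [qval_smul, qval_toQMul, map_natCast])
  set xl := comp ℓ (principal α) with hxl
  have hxl1 : xl ∈ semiUnit ℓ ⊓ fixSub (⊤ : Subgroup GQ) := ⟨fun g => by
    rw [hxl, sval_principal, qval_toQMul, map_natCast, map_natCast]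
    exact norm_natCast_kq_eq_one hm, comp_mem_fixSub (principal_mem_fixSub hα) ℓ⟩
  set a := toCl (single ℓ xl)
  have ha : ∀ g : GQ, g • a = a := fun g => by
    rw [smul_toCl, ← single_smul, hxl1.2 g trivial]
  have hsingle : single ℓ xl ∈ fixSub (A := Idele) (⊤ : Subgroup GQ) := fun s _ => by
    rw [← single_smul, hxl1.2 s trivial]
  have hsu : ∀ r, comp r (single ℓ xl) ∈ semiUnit r := fun r => by
    rcases eq_or_ne r ℓ with rfl | hr
    · rw [comp_single]; exact hxl1.1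
    · rw [comp_single_ne hr]; exact zero_mem _
  have hψa : psi ℓ dl a = 1 := by
    rw [psi_eq ℓ dl hneg ⟨hsingle, hsu, rfl⟩, psiI_eq ℓ dl (mem_unitAt ℓ hsingle (hsu ℓ)) (a := u₀),
      hu₀, toAdd_ofAdd]
    rw [comp_single]
    refine ⟨m, ZMod.natCast_zmod_val _, ?_⟩
    rw [hxl, sval_principal, qval_toQMul, map_natCast, map_natCast, sub_self, norm_zero]
    exact one_pos
  -- `a` is a norm to `L`
  set ψL : Cl → ZMod n := fun c => psi ℓ dl (normTo ⊤ L.grp c)
  have hfix : ∀ {c : Cl}, c ∈ fixSub (A := Cl) L.grp → normTo ⊤ L.grp c ∈ fixSub (A := Cl) (⊤ : Subgroup GQ) :=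
    fun hc s hs => smul_normTo_of_lvl hlL hc hs
  have hψadd : ∀ {c d : Cl}, c ∈ fixSub (A := Cl) L.grp → d ∈ fixSub (A := Cl) L.grp →
      ψL (c + d) = ψL c + ψL d := fun hc hd => by
    simp only [ψL]
    rw [normTo_add hlL, psi_add ℓ dl hneg (hfix hc) (hfix hd)]
  have hψ0 : ψL 0 = 0 := by
    have := hψadd (zero_mem _) (zero_mem _)
    rwa [show (0 : Cl) + 0 = 0 from zero_add (0 : Cl), left_eq_add] at this
  have hkill : ∀ {K : Subgroup GQ}, K ≤ χ.ker → Finite (↥(⊤ : Subgroup GQ) ⧸ K.subgroupOf ⊤) →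
      ∀ y ∈ fixSub (A := Cl) K, psi ℓ dl (normTo ⊤ K y) = 0 := by
    intro K hK hf y hy
    have hfK : Finite (↥χ.ker ⧸ K.subgroupOf χ.ker) := by
      have : Finite ((↥(⊤ : Subgroup GQ) ⧸ χ.ker.subgroupOf ⊤) × (↥χ.ker ⧸ K.subgroupOf χ.ker)) :=
        Finite.of_injective _ (towerMap_bijective (N := K) le_top hK).1
      exact Finite.of_injective (fun r => ((QuotientGroup.mk (1 : (⊤ : Subgroup GQ)) :
        ↥(⊤ : Subgroup GQ) ⧸ χ.ker.subgroupOf ⊤), r)) fun r r' h => (Prod.ext_iff.1 h).2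
    rw [← normTo_trans le_top hK hf hy]
    exact psi_normTo_chi dl hneg fun g hg => smul_normTo_of_fin hfK hy hg
  have hnormN : ∀ {y : Cl}, y ∈ fixSub (A := Cl) N' → ψL (normTo L.grp N' y) = 0 := fun {y} hy => by
    simp only [ψL]
    rw [normTo_tower hlN le_top inf_le_left hy]
    exact hkill inf_le_right hlN.fin y hy
  have hψLa : ψL a = 0 := by
    simp only [ψL]
    rw [normTo_of_fixed hlL fun g _ => ha g, Subgroup.relIndex_top_right]
    have hsum : ∀ j : ℕ, psi ℓ dl (j • a) = j • psi ℓ dl a := fun j =>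
      map_nsmul (psiCl ℓ dl hneg) j ⟨a, fun g _ => ha g⟩
    rw [hsum, hψa, nsmul_one, ZMod.natCast_eq_zero_iff]
    exact Nat.ordProj_dvd _ _
  obtain ⟨y₁, hy₁, hy₁x⟩ := exists_normTo_semiUnit L ℓ hun le_top hxl1
  set a₁ := toCl (single ℓ y₁)
  have ha₁ : a₁ ∈ fixSub (A := Cl) L.grp := fun g hg => by
    rw [smul_toCl, ← single_smul, hy₁.2 g hg]
  have hψa₁ : ψL a₁ = 1 := by
    simp only [ψL, a₁]
    rw [← toCl_normTo hlL.fin, ← hψa]
    congr 2
    rw [← hy₁x, normTo, normTo, map_csum _ _ hlL.fin]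
    exact csum_congr _ _ fun t _ => single_smul ℓ t y₁ |>.symm
  obtain ⟨R, hR, hRs⟩ := exists_reps_norms hp2 Z hlLN hZN
    (a := A) (by rw [show N' = L.grp ⊓ χ.ker from rfl, hcardχ L.grp le_rfl]) hμ
  have hfixN : ∀ {y : Cl}, y ∈ fixSub (A := Cl) N' → normTo L.grp N' y ∈ fixSub (A := Cl) L.grp :=
    fun hy s hs => smul_normTo_of_lvl hlLN hy hs
  set R' := R.filter fun r => r ∈ fixSub (A := Cl) L.grp
  have hR's : ∀ c ∈ fixSub (A := Cl) L.grp, ∃ r ∈ R', ∃ y ∈ fixSub (A := Cl) N',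
      c = r + normTo L.grp N' y ∧ ψL c = ψL r := by
    intro c hc
    obtain ⟨r, hr, y, hy, e⟩ := hRs c hc
    have hrf : r ∈ fixSub (A := Cl) L.grp := by
      rw [show r = c - normTo L.grp N' y by rw [e, add_sub_cancel_right]]
      exact sub_mem hc (hfixN hy)
    exact ⟨r, Finset.mem_filter.2 ⟨hr, hrf⟩, y, hy, e, by rw [e, hψadd hrf (hfixN hy), hnormN hy, add_zero]⟩
  have hsurj : R'.image ψL = Finset.univ := Finset.eq_univ_of_forall fun z => by
    obtain ⟨r, hr, -, -, -, he⟩ := hR's (z.val • a₁) (nsmul_mem ha₁ _)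
    refine Finset.mem_image.2 ⟨r, hr, he.symm.trans ?_⟩
    have : ∀ j : ℕ, ψL (j • a₁) = j := by
      intro j
      induction j with
      | zero => rw [Nat.cast_zero]; exact (congrArg ψL (zero_nsmul a₁)).trans hψ0
      | succ j ih => rw [succ_nsmul, hψadd (nsmul_mem ha₁ _) ha₁, ih, hψa₁, Nat.cast_succ]
    rw [this, ZMod.natCast_zmod_val]
  have hinj : Set.InjOn ψL R' := Finset.injOn_of_card_image_eq (le_antisymm Finset.card_image_le (by
    rw [hsurj, Finset.card_univ, ZMod.card]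
    exact (Finset.card_filter_le _ _).trans hR))
  obtain ⟨y, hy, hay⟩ : ∃ y ∈ fixSub (A := Cl) N', normTo L.grp N' y = a := by
    obtain ⟨r, hr, y, hy, e, he⟩ := hR's a fun g _ => ha g
    obtain ⟨r₀, hr₀, y₀, hy₀, e₀, he₀⟩ := hR's 0 (zero_mem _)
    have hrr : r = r₀ := hinj hr hr₀ (by rw [← he, ← he₀, hψLa, hψ0])
    refine ⟨y - y₀, sub_mem hy hy₀, ?_⟩
    rw [sub_eq_add_neg, normTo_add hlLN]
    have hneg' : normTo L.grp N' (-y₀) = -normTo L.grp N' y₀ := by
      simp only [normTo, smul_neg]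
      exact csum_neg hlLN _
    rw [hneg', e, hrr, ← sub_eq_add_neg, eq_comm, sub_eq_add_neg, add_comm r₀]
    congr 1
    exact eq_neg_of_add_eq_zero_left e₀.symm
  -- inflation
  obtain ⟨b₀, hb₀, hb₀c⟩ := exists_dd1_carryC χ (H := L.grp) (N := N') hlLN inf_le_right
    (y := y) fun s hs hs' => hy s ⟨hs, hs'⟩
  rw [hay] at hb₀c
  obtain ⟨b, hbl, hbz⟩ := exists_isZ2_inflation hlN hlL inf_le_left
    (fun f hf => isB1_cl hp2 Z hlLN hZN (a := A)
      (by rw [show N' = L.grp ⊓ χ.ker from rfl, hcardχ L.grp le_rfl]) hμ hf)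
    (isZ2_carryC χ inf_le_right fun g _ => ha g) ⟨b₀, hb₀, hb₀c⟩
  refine ⟨_, hbz, fun P hLP s hs hPi k hk => ?_⟩
  -- order
  have hAs : A = s := by
    rw [hA, ← Subgroup.relIndex_mul_index hLP, hs,
      Nat.factorization_mul (pow_ne_zero _ hp.ne_zero) (fun h => hPi (by rw [h]; exact dvd_zero p))]
    simp [hp.factorization_pow, Nat.factorization_eq_zero_of_not_dvd hPi]
  have hlP : Lvl P N' := hlN.sub_left le_top (inf_le_left.trans hLP)
  set K := P ⊓ χ.ker
  have hNK : N' ≤ K := le_inf (inf_le_left.trans hLP) inf_le_right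
  have hK : Lvl P K := lvl_inf_ker χ hlP inf_le_right
  have hμP : FixesMu p P := fixesMu_of_relIndex (hlL.sub_left le_top hLP) hμ hs
  have hkc : IsB2 P N' (fun g h => k • carryC χ a g h) :=
    isB2_zsmul_of_sub_dd1 inf_le_left (hbl.mono le_top le_rfl) hk
  have hindex : N'.relIndex K = p ^ s := by
    have h1 := Subgroup.relIndex_mul_relIndex N' K P hNK inf_le_left
    have h2 := Subgroup.relIndex_mul_relIndex N' L.grp P inf_le_left hLP
    rw [hcardχ P hLP] at h1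
    rw [show N'.relIndex L.grp = n from hcardχ L.grp le_rfl, hs, ← h1, mul_comm] at h2
    exact (Nat.eq_of_mul_eq_mul_right (NeZero.pos n) h2).symm
  have hkK : IsB2 P K (fun g h => k • carryC χ a g h) :=
    isB2_of_isB2_sublevel hK
      (fun f hf => isB1_cl hp2 Z (hlP.sub_left inf_le_left hNK) hZN hindex (hμP.mono inf_le_left) hf)
      ((isZ2_carryC χ inf_le_right fun g _ => ha g).zsmul k) hkc
  obtain ⟨t, htL, htχ⟩ := hχL (Multiplicative.ofAdd 1)
  have hχt : chiVal χ t = 1 % n := by rw [chiVal, htχ, toAdd_ofAdd, ZMod.val_one_eq_one_mod]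
  obtain ⟨z, hz, hzk⟩ := exists_normTo_of_isB2_carryC χ hK (hLP htL) hχt (fun g _ => ha g) k hkK
  have hfin : Finite (↥(⊤ : Subgroup GQ) ⧸ K.subgroupOf ⊤) := hlN.fin_quot le_top hNK
  have hfinP : Finite (↥(⊤ : Subgroup GQ) ⧸ P.subgroupOf ⊤) := hlN.fin_quot le_top (inf_le_left.trans hLP)
  have h0 := hkill inf_le_right hfin z hz
  rw [← normTo_trans le_top inf_le_left hfin hz, hzk] at h0
  have hval : normTo ⊤ P (k • a) = (P.index : ℤ) • k • a := by
    rw [normTo, csum_congr ⊤ P (G := fun _ => k • a) fun g _ => by rw [smul_comm, ha g]]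
    have := hfinP
    let _ := Fintype.ofFinite (↥(⊤ : Subgroup GQ) ⧸ P.subgroupOf ⊤)
    rw [csum_eq_sum, Finset.sum_const, Finset.card_univ, ← Nat.card_eq_fintype_card,
      show Nat.card (↥(⊤ : Subgroup GQ) ⧸ P.subgroupOf ⊤) = P.relIndex ⊤ from rfl,
      Subgroup.relIndex_top_right, natCast_zsmul]
  rw [hval, show (P.index : ℤ) • k • a = ((P.index : ℤ) * k) • a from (mul_zsmul a (P.index : ℤ) k).symm] at h0
  have h0' : ((P.index : ℤ) * k) • psi ℓ dl a = 0 :=
    (map_zsmul (psiCl ℓ dl hneg) ((P.index : ℤ) * k) ⟨a, fun g _ => ha g⟩).symm.trans h0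
  rw [hψa, zsmul_one, ZMod.intCast_zmod_eq_zero_iff_dvd] at h0'
  rw [← hAs]
  refine (Int.natCast_dvd.2 ((Nat.Coprime.pow_left A (hp.coprime_iff_not_dvd.2 hPi)).dvd_of_dvd_mul_left ?_))
  rw [← Int.natAbs_natCast P.index, ← Int.natAbs_mul]
  exact Int.natCast_dvd.1 h0'

end FLTAgent.Global
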