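import Fermat.Agent.Global.Fund.Global
import Fermat.Agent.Global.Fund.LocalStructure

/-!
The local class at a prime inside the fundamental class.
-/

set_option autoImplicit false
set_option synthInstance.maxHeartbeats 100000

noncomputable section

namespace FLTAgent.Global

lemma normTo_fixed_of_fin {Γ : Type*} [Group Γ] {A : Type*} [AddCommGroup A] [DistribMulAction Γ A]
    {H K : Subgroup Γ} (hf : Finite (↥H ⧸ K.subgroupOf H)) {a : A} (ha : ∀ g ∈ H, g • a = a) :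
    normTo H K a = K.relIndex H • a := by
  have := hf
  let _ := Fintype.ofFinite (↥H ⧸ K.subgroupOf H)
  rw [normTo, csum_congr H K (G := fun _ => a) ha, csum_eq_sum, Finset.sum_const, Finset.card_univ,
    ← Nat.card_eq_fintype_card]
  rfl

lemma psi_normTo_eq_zero_of_le_ker {ℓ : Nat.Primes} {n : ℕ}
    (dl : (ZMod (ℓ : ℕ))ˣ →* Multiplicative (ZMod n)) (hneg : dl (-1) = 1) {K : Subgroup GQ}
    (hK : K ≤ (chi dl).ker) (hf : Finite (↥(⊤ : Subgroup GQ) ⧸ K.subgroupOf ⊤)) {y : Cl}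
    (hy : y ∈ fixSub (A := Cl) K) : psi ℓ dl (normTo ⊤ K y) = 0 := by
  have hfK : Finite (↥(chi dl).ker ⧸ K.subgroupOf (chi dl).ker) := by
    have : Finite ((↥(⊤ : Subgroup GQ) ⧸ (chi dl).ker.subgroupOf ⊤) ×
        (↥(chi dl).ker ⧸ K.subgroupOf (chi dl).ker)) :=
      Finite.of_injective _ (towerMap_bijective (N := K) le_top hK).1
    exact Finite.of_injective (fun r => ((QuotientGroup.mk (1 : (⊤ : Subgroup GQ)) :
      ↥(⊤ : Subgroup GQ) ⧸ (chi dl).ker.subgroupOf ⊤), r)) fun r r' h => (Prod.ext_iff.1 h).2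
  rw [← normTo_trans le_top hK hf hy]
  exact psi_normTo_chi dl hneg fun g hg => smul_normTo_of_fin hfK hy hg

lemma smul_mem_toCl_single {q : Nat.Primes} (g : GQ) (x : Semi q) :
    g • toCl (single q x) = toCl (single q (g • x)) := by rw [smul_toCl, single_smul]

variable {L : Level} {q : Nat.Primes}

lemma place_eq_place_one_iff {h : GQ} :
    place L q h = place L q 1 ↔ h ∈ dec q ⊔ L.grp := by
  constructor
  · intro hp
    obtain ⟨τ, s, hs, rfl⟩ := place_eq_iff.1 hp.symm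
    rw [mul_one]
    exact Subgroup.mul_mem_sup ⟨τ, rfl⟩ hs
  · intro hh
    have hle : dec q ⊔ L.grp ≤ placeSub L q (⊤ : Subgroup GQ) 1 := by
      refine sup_le ?_ (grp_le_placeSub L q le_top 1)
      rintro _ ⟨τ, rfl⟩
      refine ⟨trivial, ?_⟩
      rw [one_mul, ← mul_one (loc q τ), place_loc_mul]
    simpa using (hle hh).2

lemma sval_normTo_single {H M : Subgroup GQ} (hf : Finite (↥H ⧸ M.subgroupOf H)) {y : Semi q}
    (hy : y ∈ fixSub (A := Semi q) M) {z : GQ} (h : ∀ t ∈ H, t ∉ M → sval y (z * t) = 1) :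
    sval (normTo H M y) z = sval y z := by
  classical
  have := hf
  let _ := Fintype.ofFinite (↥H ⧸ M.subgroupOf H)
  rw [normTo, sval_csum, Finset.prod_eq_single (QuotientGroup.mk (1 : H) : ↥H ⧸ M.subgroupOf H)]
  · have hm := QuotientGroup.out_eq' (QuotientGroup.mk (1 : H) : ↥H ⧸ M.subgroupOf H)
    rw [QuotientGroup.eq, Subgroup.mem_subgroupOf] at hm
    rw [sval_smul]
    refine sval_mul_right hy z ?_
    simpa [rep] using hm
  · intro c _ hc
    rw [sval_smul]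
    refine h _ (rep_mem H M c) fun hm => hc ?_
    rw [← QuotientGroup.out_eq' c, QuotientGroup.eq, Subgroup.mem_subgroupOf]
    simpa [rep] using inv_mem hm
  · simp

lemma sval_normTo_eq_one {H M : Subgroup GQ} (hf : Finite (↥H ⧸ M.subgroupOf H)) {y : Semi q}
    {z : GQ} (h : ∀ t ∈ H, sval y (z * t) = 1) : sval (normTo H M y) z = 1 := by
  have := hf
  let _ := Fintype.ofFinite (↥H ⧸ M.subgroupOf H)
  rw [normTo, sval_csum]
  exact Finset.prod_eq_one fun c _ => by rw [sval_smul]; exact h _ (rep_mem H M c)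

/-- The image in `ℤ/m` of a subgroup all of whose elements are killed by `k` has order dividing `k`. -/
lemma card_map_dvd_of_forall {Γ : Type*} [Group Γ] {m k : ℕ} (χ : Γ →* Multiplicative (ZMod m))
    {M : Subgroup Γ} (h : ∀ g ∈ M, χ g ^ k = 1) : Nat.card (M.map χ) ∣ k := by
  rw [← IsCyclic.exponent_eq_card]
  refine Monoid.exponent_dvd_of_forall_pow_eq_one ?_
  rintro ⟨_, g, hg, rfl⟩
  exact Subtype.ext (h g hg)

variable {p : ℕ} [Fact p.Prime]

/-- `dl` is injective on the `p`-part. -/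
lemma dvd_of_dl_zpow_eq_one {ℓ : Nat.Primes} {v B : ℕ}
    (hv : v = ((ℓ : ℕ) - 1).factorization p)
    {dl : (ZMod (ℓ : ℕ))ˣ →* Multiplicative (ZMod (p ^ v))} (hdl : Function.Surjective dl)
    {u : (ZMod (ℓ : ℕ))ˣ} (hu : orderOf u = p ^ B) {j : ℤ} (hj : dl u ^ j = 1) :
    ((p ^ B : ℕ) : ℤ) ∣ j := by
  have hp : p.Prime := Fact.out
  have : Fact (ℓ : ℕ).Prime := ⟨ℓ.2⟩
  have hcard : Nat.card dl.ker * p ^ v = (ℓ : ℕ) - 1 := by
    have h := Subgroup.card_mul_index dl.ker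
    rwa [Subgroup.index_ker, MonoidHom.range_eq_top.2 hdl, Subgroup.card_top,
      Nat.card_congr Multiplicative.toAdd, Nat.card_zmod, Nat.card_eq_fintype_card (α := (ZMod (ℓ : ℕ))ˣ),
      ZMod.card_units] at h
  have hnd : ¬ p ∣ Nat.card dl.ker := fun hd => by
    have h1 : p ^ (v + 1) ∣ (ℓ : ℕ) - 1 := by
      rw [← hcard, pow_succ, mul_comm (Nat.card dl.ker)]
      exact Nat.mul_dvd_mul_left _ hd
    rw [hv] at h1
    exact Nat.pow_succ_factorization_not_dvd (by have := ℓ.2.one_lt; omega) hp h1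
  rw [← hu, orderOf_dvd_iff_zpow_eq_one]
  have hmem : u ^ j ∈ dl.ker := by rw [MonoidHom.mem_ker, map_zpow, hj]
  have h1 : orderOf (u ^ j) ∣ Nat.card dl.ker := by
    have h := orderOf_dvd_natCard (⟨u ^ j, hmem⟩ : dl.ker)
    rwa [← Subgroup.orderOf_coe] at h
  have h2 : orderOf (u ^ j) ∣ p ^ B := orderOf_dvd_of_pow_eq_one (by
    rw [← zpow_natCast, ← zpow_mul, mul_comm, zpow_mul, zpow_natCast, ← hu, pow_orderOf_eq_one,
      one_zpow])
  rw [← orderOf_eq_one_iff]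
  exact Nat.eq_one_of_dvd_coprimes ((hp.coprime_iff_not_dvd.2 hnd).pow_left B) h2 h1

set_option maxHeartbeats 1000000 in
/-- A cocycle with values in the `q`-component, supported at the place `1`, whose class has full
order on a Sylow `p`-subgroup of the decomposition group at `q`. -/
theorem exists_local_fundamental (hp2 : p ≠ 2) (L : Level) (q : Nat.Primes) (hμ : FixesMu p L.grp)
    {P : Subgroup GQ} (hLP : L.grp ≤ P) (hPd : P ≤ dec q ⊔ L.grp) {s : ℕ}
    (hs : L.grp.relIndex P = p ^ s) (hsyl : ¬ p ∣ P.relIndex (dec q ⊔ L.grp)) :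
    ∃ c : GQ → GQ → Semi q, IsZ2 P L.grp c ∧ (∀ g ∈ P, ∀ h ∈ P, atPlace L q 1 (c g h) = c g h) ∧
      ∀ k : ℤ, IsB2 P L.grp (fun g h => k • toCl (single q (c g h))) → ((p ^ s : ℕ) : ℤ) ∣ k := by
  classical
  have hp : p.Prime := Fact.out
  set D := dec q ⊔ L.grp with hD
  set r := P.relIndex D with hr
  -- the auxiliary prime
  obtain ⟨ℓ, hbad, hℓq, B, hsB, hord⟩ := exists_prime_order hp hp2 q.2 s
    ((finite_ramified L).toFinset.image fun r : Nat.Primes => (r : ℕ))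
  have hun : L.UnrAt ℓ := by
    by_contra h
    exact hbad (Finset.mem_image.2 ⟨ℓ, by simpa using h, rfl⟩)
  have hqℓ : q ≠ ℓ := fun h => hℓq (h ▸ rfl)
  have : Fact (ℓ : ℕ).Prime := ⟨ℓ.2⟩
  set v := ((ℓ : ℕ) - 1).factorization p with hv
  set m := p ^ v with hm
  have hne : NeZero m := ⟨pow_ne_zero _ hp.ne_zero⟩
  obtain ⟨dl, hdl⟩ := exists_dl ℓ (n := m) (Nat.ordProj_dvd _ _)
  have hneg := dl_neg_one (hp.odd_of_ne_two hp2).pow dl
  set χ := chi dl with hχ
  have hχL : ∀ z, ∃ g ∈ L.grp, χ g = z := fun z => by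
    obtain ⟨u, rfl⟩ := hdl z
    obtain ⟨g, rfl⟩ := cyc_surjective u
    obtain ⟨t, ht, hte⟩ := exists_mem_cyc_eq ℓ L hun g
    exact ⟨t, ht, by simp [χ, hte]⟩
  -- the value at `q`
  have hq0 : ((q : ℕ) : ZMod (ℓ : ℕ)) ≠ 0 := fun h => by
    rw [h, orderOf_zero] at hord
    exact pow_ne_zero _ hp.ne_zero hord.symm
  set uq := Units.mk0 _ hq0 with huq
  have huqord : orderOf uq = p ^ B := by rw [← hord, ← orderOf_units, huq, Units.val_mk0]
  have hdlq : dl uq ^ p ^ B = 1 := by rw [← map_pow, ← huqord, pow_orderOf_eq_one, map_one]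
  -- the levels
  set Z := L.sup (zetaLevel ℓ) with hZdef
  set N' := L.grp ⊓ χ.ker with hN'
  have hZC : Z.grp ≤ L.grp ⊓ (cyc ℓ).ker :=
    (L.sup_grp_le _).trans (inf_le_inf le_rfl (zetaLevel_grp ℓ).le)
  have hCN : L.grp ⊓ (cyc ℓ).ker ≤ N' := inf_le_inf le_rfl (ker_cyc_le_chi dl)
  have hZN : Z.grp ≤ N' := hZC.trans hCN
  have hN'L : N' ≤ L.grp := inf_le_left
  have hN'P : N' ≤ P := hN'L.trans hLP
  have hlN : Lvl (⊤ : Subgroup GQ) N' :=
    ⟨le_top, fun g _ s hs => ⟨by simpa using L.grp_normal.conj_mem s hs.1 g⁻¹,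
        by simpa using χ.normal_ker.conj_mem s hs.2 g⁻¹⟩,
      ((Z.lvl (H := (⊤ : Subgroup GQ)) le_top)).fin_quot le_top hZN⟩
  have hlL : Lvl (⊤ : Subgroup GQ) L.grp := L.lvl le_top
  have hlLN : Lvl L.grp N' := hlN.sub_left le_top hN'L
  have hlP : Lvl P N' := hlN.sub_left le_top hN'P
  -- the local structure
  obtain ⟨π, e, f, hπ, hπe, hef, hcyc⟩ := exists_local_structure L q ℓ hqℓ
  have hef' : e * f = p ^ s * r := by
    rw [hef, ← hs, hr, Subgroup.relIndex_mul_relIndex _ _ _ hLP hPd, hD]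
    haveI := L.grp_normal
    exact (Subgroup.relIndex_sup_right ..).symm
  set qc := comp q (principal (nq q)) with hqc
  have hqcfix : ∀ g : GQ, g • qc = qc := fun g => comp_mem_fixSub (principal_mem_fixSub (nq_mem q)) q g trivial
  set q₁ := atPlace L q 1 qc with hq₁
  have hq₁D : ∀ g ∈ D, g • q₁ = q₁ := fun g hg => by
    rw [hq₁, ← atPlace_smul_of_place (by rw [one_mul]; exact place_eq_place_one_iff.2 hg), hqcfix]
  set k₀ := p ^ (B - s) with hk₀
  set a : Semi q := k₀ • q₁ with ha_def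
  have haD : ∀ g ∈ D, g • a = a := fun g hg => by rw [ha_def, ← smul_comm, hq₁D g hg]
  have haP : ∀ g ∈ P, g • a = a := fun g hg => haD g (hPd hg)
  -- `a` is a norm from `N'`
  set π₁ := atPlace L q 1 π with hπ₁
  have hu0 : q₁ - e • π₁ ∈ semiUnit q ⊓ fixSub L.grp := by
    refine ⟨fun z => ?_, AddSubgroup.sub_mem (fixSub (A := Semi q) L.grp) (fun g hg => hq₁D g (Subgroup.mem_sup_right hg))
      (nsmul_mem (atPlace_mem_fixSub hπ) e)⟩
    rw [sub_eq_add_neg, sval_add, sval_neg, sval_nsmul, norm_mul, norm_inv, norm_pow,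
      hq₁, hπ₁, sval_atPlace, sval_atPlace]
    split_ifs with hz
    · obtain ⟨τ, u, hu, rfl⟩ := place_eq_iff.1 hz.symm
      rw [hqc, sval_principal_nq, sval_mul_grp hπ _ hu, sval_loc, norm_gq, hπe,
        norm_prime_kq, mul_inv_cancel₀]
      exact inv_ne_zero (Nat.cast_ne_zero.2 q.2.ne_zero)
    · rw [norm_one, one_pow, inv_one, mul_one]
  obtain ⟨y₀, hy₀, hy₀x⟩ :=
    exists_normTo_semiUnit_cyc L q ℓ hqℓ (exists_mem_cyc_eq ℓ L hun) hu0
  set M := (dec q ⊓ L.grp) ⊔ N' with hMdef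
  have hML : M ≤ L.grp := sup_le inf_le_right hN'L
  have hNM : N' ≤ M := le_sup_right
  obtain ⟨y, hy, hy1, -, hy0⟩ := exists_semi_value Z (H := M) (hZN.trans hNM) (1 : GQ) (sval π 1)
    (sval_ne_zero π 1) fun τ h hh e' => by
      rw [mul_one, one_mul] at e'
      rw [← sval_loc, mul_one, e', ← one_mul h, sval_mul_grp hπ 1 (hML hh)]
  have hfLM : Finite (↥L.grp ⧸ M.subgroupOf L.grp) := hlLN.fin_quot hML hNM
  have horb : ∀ z t : GQ, t ∈ L.grp →
      DoubleCoset.mk (dec q) M (z * t) = DoubleCoset.mk (dec q) M (1 : GQ) →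
      place L q z = place L q 1 ∧ (z = 1 → t ∈ M) := by
    intro z t ht he
    obtain ⟨τ, u, hu, e'⟩ := exists_loc_of_orbit he.symm
    rw [mul_one] at e'
    refine ⟨?_, fun hz => ?_⟩
    · refine (place_eq_iff.2 ⟨τ, u * t⁻¹, mul_mem (hML hu) (inv_mem ht), ?_⟩).symm
      rw [mul_one, ← mul_assoc, ← e', mul_inv_cancel_right]
    · rw [hz, one_mul] at e'
      have hτ : loc q τ ∈ L.grp := by
        rw [show loc q τ = t * u⁻¹ by rw [e', mul_inv_cancel_right]]
        exact mul_mem ht (inv_mem (hML hu))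
      rw [e']
      exact mul_mem (Subgroup.mem_sup_left ⟨⟨τ, rfl⟩, hτ⟩) hu
  have hyπ : normTo L.grp M y = π₁ := by
    refine semi_ext fun z => ?_
    rw [hπ₁, sval_atPlace]
    split_ifs with hz
    · obtain ⟨τ, u, hu, rfl⟩ := place_eq_iff.1 hz.symm
      have hnf : normTo L.grp M y ∈ fixSub (A := Semi q) L.grp :=
        fun g hg => smul_normTo_of_fin hfLM hy hg
      rw [sval_mul_grp hnf _ hu, sval_loc, sval_mul_grp hπ _ hu, sval_loc,
        sval_normTo_single hfLM hy fun t ht htM =>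
          hy0 _ fun he => htM ((horb 1 t ht he).2 rfl), hy1]
    · exact sval_normTo_eq_one hfLM fun t ht => hy0 _ fun he => hz (horb z t ht he).1
  set d := N'.relIndex M with hd
  have hdk : d ∣ k₀ * e := by
    have hMker : M ⊓ χ.ker = N' := le_antisymm
      (inf_le_inf hML le_rfl) (le_inf hNM inf_le_right)
    rw [hd, ← hMker, Subgroup.inf_relIndex_left, Subgroup.relIndex_ker]
    refine card_map_dvd_of_forall χ fun g hg => ?_
    have hle : M ≤ ((powMonoidHom (k₀ * e) : Multiplicative (ZMod m) →* _).comp χ).ker := by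
      refine sup_le ?_ fun g hg => ?_
      · rintro _ ⟨⟨τ, rfl⟩, hτ⟩
        obtain ⟨i, ⟨j, rfl⟩, hi⟩ := hcyc τ hτ
        have hu : cyc ℓ (loc q τ) = uq ^ (f * j) :=
          Units.ext (by rw [hi, Units.val_pow_eq_pow_val, huq, Units.val_mk0])
        rw [MonoidHom.mem_ker, MonoidHom.comp_apply, powMonoidHom_apply, hχ, MonoidHom.comp_apply,
          hu, map_pow, ← pow_mul, show f * j * (k₀ * e) = p ^ B * (r * j) by
            rw [show f * j * (k₀ * e) = k₀ * (e * f) * j by ring, hef', hk₀,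
              show p ^ B = p ^ (B - s) * p ^ s by rw [← pow_add, Nat.sub_add_cancel hsB]]
            ring, pow_mul, hdlq, one_pow]
      · rw [MonoidHom.mem_ker, MonoidHom.comp_apply, powMonoidHom_apply, hg.2, one_pow]
    exact hle hg
  obtain ⟨j₀, hj₀⟩ := hdk
  set ya : Semi q := j₀ • y + k₀ • normTo N' (L.grp ⊓ (cyc ℓ).ker) y₀ with hya
  have hfNC : Finite (↥N' ⧸ (L.grp ⊓ (cyc ℓ).ker).subgroupOf N') :=
    ((Z.lvl (H := L.grp) (fun _ hx => (L.sup_grp_le _ hx).1)).sub_left hN'L hZN).fin_quot hCN hZC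

  have hfLC : Finite (↥L.grp ⧸ (L.grp ⊓ (cyc ℓ).ker).subgroupOf L.grp) :=
    (Z.lvl (H := L.grp) (fun _ hx => (L.sup_grp_le _ hx).1)).fin_quot inf_le_left hZC
  have hyN : y ∈ fixSub (A := Semi q) N' := fun g hg => hy g (hNM hg)
  have hy₀N : normTo N' (L.grp ⊓ (cyc ℓ).ker) y₀ ∈ fixSub (A := Semi q) N' :=
    fun g hg => smul_normTo_of_fin hfNC hy₀.2 hg
  have hyaN : ya ∈ fixSub (A := Semi q) N' := add_mem (nsmul_mem hyN _) (nsmul_mem hy₀N _)
  have hyaeq : normTo L.grp N' ya = a := by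
    rw [hya, normTo_add hlLN, normTo_nsmul hlLN, normTo_nsmul hlLN,
      normTo_trans hN'L hCN hfLC hy₀.2, hy₀x, ← normTo_trans hML hNM hlLN.fin hyN,
      normTo_fixed_of_fin ((hlLN.sub_left hML hNM).fin) hy, ← hd]
    have hnorm : normTo L.grp M (d • y) = d • π₁ := by
      rw [← hyπ]
      simp only [normTo]
      rw [show d • csum L.grp M (fun t => t • y) = nsmulAddMonoidHom d (csum L.grp M fun t => t • y) from rfl,
        map_csum _ _ hfLM]
      exact csum_congr _ _ fun t _ => by rw [nsmulAddMonoidHom_apply, smul_comm]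
    rw [hnorm, ← mul_nsmul', mul_comm j₀ d, ← hj₀, ha_def, nsmul_sub, ← mul_nsmul']
    abel
  -- inflation
  obtain ⟨b₀, hb₀, hb₀c⟩ := exists_dd1_carryC χ (H := L.grp) (N := N') hlLN inf_le_right
    (y := ya) fun g hg hg' => hyaN g ⟨hg, hg'⟩
  rw [hyaeq] at hb₀c
  obtain ⟨b₁, hb₁l, hb₁z⟩ := exists_isZ2_inflation hlP (hlL.sub_left le_top hLP) hN'L
    (fun f hf => isB1_semi Z q (fun _ hx => (L.sup_grp_le _ hx).1)
      ⟨hf.1.mono le_rfl hZN, hf.2⟩)
    (isZ2_carryC χ inf_le_right haP) ⟨b₀, hb₀, hb₀c⟩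
  -- cut out the component at the place `1`
  set ε := atPlace L q 1 with hε
  have hεa : ε a = a := by rw [ha_def, map_nsmul, hq₁, hε, atPlace_idem]
  have hεP : ∀ g ∈ P, ∀ x : Semi q, ε (g • x) = g • ε x := fun g hg x =>
    atPlace_smul_of_place (by rw [one_mul]; exact place_eq_place_one_iff.2 (hPd hg)) x
  set b : GQ → Semi q := fun g => ε (b₁ g) with hb
  have hbl : IsLvl1 P N' b := fun g hg t ht => congrArg ε (hb₁l g hg t ht)
  have hεc : ∀ g ∈ P, ∀ h ∈ P, ε (carryC χ a g h - dd1 b₁ g h) = carryC χ a g h - dd1 b g h :=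
    fun g hg h _ => by
      simp only [map_sub, carryC, map_nsmul, hεa, dd1, map_add, hεP g hg, hb]
  have hbz : IsZ2 P L.grp (fun g h => carryC χ a g h - dd1 b g h) := by
    refine ⟨fun g hg h hh u hu w hw => ?_, fun g hg h hh j hj => ?_⟩
    · simp only
      rw [← hεc g hg h hh, ← hεc _ (mul_mem hg (hLP hu)) _ (mul_mem hh (hLP hw))]
      exact congrArg ε (hb₁z.1 g hg h hh u hu w hw)
    · simp only
      rw [← hεc h hh j hj, ← hεc _ (mul_mem hg hh) j hj, ← hεc g hg _ (mul_mem hh hj),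
        ← hεc g hg h hh, ← hεP g hg, ← map_sub, ← map_add, ← map_sub, hb₁z.2 g hg h hh j hj,
        map_zero]
  refine ⟨_, hbz, fun g hg h hh => ?_, fun k hk => ?_⟩
  · rw [← hεc g hg h hh, hε, atPlace_idem]
  -- the order
  let φ : Semi q →+ Cl := toCl.comp (single q)
  have hφ : ∀ (g : GQ) (x : Semi q), φ (g • x) = g • φ x := fun g x => (smul_mem_toCl_single g x).symm
  set aC := φ a with haC
  have haCP : ∀ g ∈ P, g • aC = aC := fun g hg => by rw [haC, ← hφ, haP g hg]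
  set K := P ⊓ χ.ker
  have hNK : N' ≤ K := le_inf hN'P inf_le_right
  have hK : Lvl P K := lvl_inf_ker χ hlP inf_le_right
  have hμP : FixesMu p P := fixesMu_of_relIndex (hlL.sub_left le_top hLP) hμ hs
  have hkc : IsB2 P N' (fun g h => k • carryC χ aC g h) := by
    refine isB2_zsmul_of_sub_dd1 (b := fun g => φ (b g)) hN'L
      (fun g hg t ht => congrArg φ (hbl g hg t ht)) ?_
    obtain ⟨β, hβ, hβc⟩ := hk
    refine ⟨β, hβ, fun g hg h hh => ?_⟩
    rw [← hβc g hg h hh]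
    show k • (carryC χ aC g h - dd1 (fun g => φ (b g)) g h) = k • φ (carryC χ a g h - dd1 b g h)
    rw [map_sub]
    simp only [carryC, dd1, map_nsmul, map_add, map_sub, hφ, haC]
  have hcardχ : ∀ H : Subgroup GQ, L.grp ≤ H → (H ⊓ χ.ker).relIndex H = m := by
    intro H hH
    rw [Subgroup.inf_relIndex_left, Subgroup.relIndex_ker]
    have : H.map χ = ⊤ := eq_top_iff.2 fun z _ => by
      obtain ⟨g, hg, rfl⟩ := hχL z
      exact ⟨g, hH hg, rfl⟩
    rw [this, Subgroup.card_top, Nat.card_congr Multiplicative.toAdd, Nat.card_zmod]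
  have hindex : N'.relIndex K = p ^ s := by
    have h1 := Subgroup.relIndex_mul_relIndex N' K P hNK inf_le_left
    have h2 := Subgroup.relIndex_mul_relIndex N' L.grp P hN'L hLP
    rw [hcardχ P hLP] at h1
    rw [show N'.relIndex L.grp = m from hcardχ L.grp le_rfl, hs, ← h1, mul_comm] at h2
    exact (Nat.eq_of_mul_eq_mul_right (NeZero.pos m) h2).symm
  have hkK : IsB2 P K (fun g h => k • carryC χ aC g h) :=
    isB2_of_isB2_sublevel hK
      (fun f hf => isB1_cl hp2 Z (hlP.sub_left inf_le_left hNK) hZN hindex (hμP.mono inf_le_left) hf)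
      ((isZ2_carryC χ inf_le_right haCP).zsmul k) hkc
  obtain ⟨t, htL, htχ⟩ := hχL (Multiplicative.ofAdd 1)
  have hχt : chiVal χ t = 1 % m := by rw [chiVal, htχ, toAdd_ofAdd, ZMod.val_one_eq_one_mod]
  obtain ⟨z, hz, hzk⟩ := exists_normTo_of_isB2_carryC χ hK (hLP htL) hχt haCP k hkK
  have hfin : Finite (↥(⊤ : Subgroup GQ) ⧸ K.subgroupOf ⊤) := hlN.fin_quot le_top hNK
  have hfinP : Finite (↥(⊤ : Subgroup GQ) ⧸ P.subgroupOf ⊤) := hlN.fin_quot le_top hN'P
  have h0 := psi_normTo_eq_zero_of_le_ker dl hneg inf_le_right hfin hz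
  rw [← normTo_trans le_top inf_le_left hfin hz, hzk] at h0
  -- the norm to `ℚ`
  have hfD : Finite (↥(⊤ : Subgroup GQ) ⧸ D.subgroupOf ⊤) := hlL.fin_quot le_top le_sup_right
  have hfDP : Finite (↥D ⧸ P.subgroupOf D) := (L.lvl (le_sup_right : L.grp ≤ D)).fin_quot hPd hLP
  have hNq : normTo ⊤ D q₁ = qc := semi_ext fun z => by
    have hf' : normTo ⊤ D q₁ ∈ fixSub (A := Semi q) (⊤ : Subgroup GQ) :=
      fun g hg => smul_normTo_of_fin hfD (y := q₁) (show q₁ ∈ fixSub (A := Semi q) D from hq₁D) hg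
    rw [sval_eq_one_of_top hf', sval_normTo_single hfD (y := q₁) (show q₁ ∈ fixSub (A := Semi q) D from hq₁D) fun t _ ht => ?_, hq₁, sval_atPlace,
      if_pos rfl, hqc, sval_principal_nq, sval_principal_nq]
    rw [one_mul, hq₁, sval_atPlace, if_neg fun hp' => ht (place_eq_place_one_iff.1 hp')]
  have hNa : normTo ⊤ P a = (r * k₀) • qc := by
    rw [← normTo_trans le_top hPd hfinP (show a ∈ fixSub (A := Semi q) P from haP), normTo_fixed_of_fin hfDP haD, ha_def, ← mul_nsmul',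
      ← hr, ← hNq]
    simp only [normTo]
    rw [show (r * k₀) • csum ⊤ D (fun t => t • q₁)
      = nsmulAddMonoidHom (r * k₀) (csum ⊤ D fun t => t • q₁) from rfl, map_csum _ _ hfD]
    exact csum_congr _ _ fun t _ => by rw [nsmulAddMonoidHom_apply, smul_comm]
  set cq := φ qc with hcq
  have hNaC : normTo ⊤ P (k • aC) = (k * (r * k₀ : ℕ)) • cq := by
    have e1 : normTo ⊤ P (φ (k • a)) = φ (normTo ⊤ P (k • a)) := by
      refine Eq.trans ?_ (map_csum (B := Cl) ⊤ P hfinP φ fun t => t • k • a).symm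
      exact csum_congr _ _ fun t _ => (hφ t (k • a)).symm
    have e2 : normTo ⊤ P (k • a) = (k * (r * k₀ : ℕ)) • qc := by
      rw [mul_zsmul, natCast_zsmul, ← hNa]
      refine Eq.trans ?_ (map_csum ⊤ P hfinP (zsmulAddGroupHom k : Semi q →+ Semi q) fun t => t • a).symm
      exact csum_congr _ _ fun t _ => (smul_comm t k a)
    rw [haC, ← map_zsmul φ, e1, e2, map_zsmul]
  have hcqfix : cq ∈ fixSub (A := Cl) (⊤ : Subgroup GQ) := fun g _ => by rw [hcq, ← hφ, hqcfix]
  -- `psi` of the prime `q`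
  set x := principal (nq q) - single q qc with hx
  have hxrep : IsUnitRep (-cq) x := by
    refine ⟨sub_mem (principal_mem_fixSub (nq_mem q)) (fun g _ => by rw [← single_smul, hqcfix]),
      fun w => ?_, ?_⟩
    · rw [hx, map_sub]
      rcases eq_or_ne w q with rfl | hw
      · rw [comp_single, hqc, sub_self]; exact zero_mem _
      · rw [comp_single_ne hw, sub_zero]
        exact fun g => by rw [sval_principal_nq]; exact norm_natCast_prime_ne hw.symm
    · rw [hx, map_sub, toCl_eq_zero_iff.2 ⟨_, rfl⟩, zero_sub, hcq]; rfl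
  have hψq : psi ℓ dl (-cq) = Multiplicative.toAdd (dl uq) := by
    rw [psi_eq ℓ dl hneg hxrep, psiI_eq ℓ dl (mem_unitAt ℓ hxrep.1 (hxrep.2.1 ℓ)) (a := uq)]
    refine ⟨(q : ℕ), by rw [huq, Units.val_mk0], ?_⟩
    rw [hx, map_sub, comp_single_ne hqℓ.symm, sub_zero, sval_principal_nq, sub_self, norm_zero]
    exact one_pos
  rw [hNaC] at h0
  have hk0 : (k * (r * k₀ : ℕ)) • psi ℓ dl (-cq) = 0 := by
    have h1 : psi ℓ dl ((k * (r * k₀ : ℕ)) • cq) = (k * (r * k₀ : ℕ)) • psi ℓ dl cq :=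
      map_zsmul (psiCl ℓ dl hneg) (k * (r * k₀ : ℕ)) ⟨cq, hcqfix⟩
    have h2 : psi ℓ dl (-cq) = -psi ℓ dl cq := map_neg (psiCl ℓ dl hneg) ⟨cq, hcqfix⟩
    rw [h2, zsmul_neg, ← h1, h0, neg_zero]
  rw [hψq, ← toAdd_zpow, toAdd_eq_zero] at hk0
  have hdvd := (dvd_of_dl_zpow_eq_one hv hdl huqord hk0)
  rw [show p ^ B = p ^ s * k₀ by rw [hk₀, ← pow_add, Nat.add_sub_cancel' hsB],
    Int.natCast_dvd, Int.natAbs_mul, Int.natAbs_natCast, ← mul_assoc] at hdvd
  rw [Int.natCast_dvd]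
  exact ((hp.coprime_iff_not_dvd.2 hsyl).pow_left s).dvd_of_dvd_mul_right
    ((Nat.mul_dvd_mul_iff_right (pow_pos hp.pos _)).1 hdvd)

end FLTAgent.Global
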