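import Fermat.Agent.Global.Fund.CycLocal
import Fermat.Agent.Global.ClassGroup
import Fermat.Agent.Global.Csum
import Fermat.Agent.Global.Semilocal.Hilbert90
import Fermat.Agent.Global.Semilocal.Places

/-!
The character of the idele classes of `ℚ` attached to a character `dl` of `(ℤ/ℓ)ˣ`; it kills the
norms from the field cut out by `dl`.
-/

set_option autoImplicit false
set_option synthInstance.maxHeartbeats 100000

noncomputable section

namespace FLTAgent.Global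

variable (ℓ : Nat.Primes)

/-! ### Residues at `ℓ` -/

/-- `x` is congruent to a natural number of class `a`. -/
def HasRes (x : Kq ℓ) (a : (ZMod (ℓ : ℕ))ˣ) : Prop :=
  ∃ m : ℕ, (m : ZMod (ℓ : ℕ)) = a ∧ ‖x - m‖ < 1

lemma norm_natCast_le_one' (r : Nat.Primes) (m : ℕ) : ‖(m : Kq r)‖ ≤ 1 :=
  IsUltrametricDist.norm_natCast_le_one _ m

variable {ℓ}

lemma HasRes.unique {x : Kq ℓ} {a b : (ZMod (ℓ : ℕ))ˣ} (ha : HasRes ℓ x a) (hb : HasRes ℓ x b) :
    a = b := by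
  obtain ⟨m, hm, hxm⟩ := ha
  obtain ⟨k, hk, hxk⟩ := hb
  refine Units.ext (hm ▸ hk ▸ ?_)
  wlog hle : k ≤ m generalizing m k a b
  · exact (this k hk hxk m hm hxm (le_of_not_ge hle)).symm
  have h : ‖((m - k : ℕ) : Kq ℓ)‖ < 1 := by
    have : ((m - k : ℕ) : Kq ℓ) = (x - k) - (x - m) := by rw [Nat.cast_sub hle]; ring
    rw [this]
    exact (norm_sub_le_max' _ _).trans_lt (max_lt hxk hxm)
  rw [norm_natCast_lt_one_iff] at h
  exact ((ZMod.natCast_eq_natCast_iff' _ _ _).2 ((Nat.modEq_iff_dvd' hle).2 h)).symm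

lemma HasRes.mul {x y : Kq ℓ} {a b : (ZMod (ℓ : ℕ))ˣ} (hx1 : ‖x‖ ≤ 1) (ha : HasRes ℓ x a)
    (hb : HasRes ℓ y b) : HasRes ℓ (x * y) (a * b) := by
  obtain ⟨m, hm, hxm⟩ := ha
  obtain ⟨k, hk, hyk⟩ := hb
  refine ⟨m * k, by rw [Nat.cast_mul, hm, hk, Units.val_mul], ?_⟩
  rw [show x * y - ((m * k : ℕ) : Kq ℓ) = x * (y - k) + (x - m) * k by push_cast; ring]
  refine (IsUltrametricDist.norm_add_le_max _ _).trans_lt (max_lt ?_ ?_)
  · rw [norm_mul]; exact mul_lt_one_of_nonneg_of_lt_one_right hx1 (norm_nonneg _) hyk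
  · rw [norm_mul]
    exact mul_lt_one_of_nonneg_of_lt_one_left (norm_nonneg _) hxm (norm_natCast_le_one' _ _)

lemma HasRes.one : HasRes ℓ (1 : Kq ℓ) 1 := ⟨1, by simp, by simp⟩

lemma HasRes.of_near_one {x : Kq ℓ} (h : ‖x - 1‖ < 1) : HasRes ℓ x 1 :=
  ⟨1, by simp, by rwa [Nat.cast_one]⟩

/-- Units of `ℚ_ℓ`, as elements of `ℚ̄_ℓ`. -/
def RatUnit (x : Kq ℓ) : Prop :=
  ‖x‖ = 1 ∧ ∃ c : ℚ_[(ℓ : ℕ)], algebraMap ℚ_[(ℓ : ℕ)] (Kq ℓ) c = x

lemma RatUnit.exists_hasRes {x : Kq ℓ} (h : RatUnit x) : ∃ a, HasRes ℓ x a := by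
  have : Fact (ℓ : ℕ).Prime := ⟨ℓ.2⟩
  obtain ⟨hx, c, rfl⟩ := h
  rw [norm_algebraMap'] at hx
  obtain ⟨m, hm⟩ := exists_nat_near ℓ hx.le
  have hm' : ‖algebraMap ℚ_[(ℓ : ℕ)] (Kq ℓ) c - m‖ < 1 := by
    rwa [← map_natCast (algebraMap ℚ_[(ℓ : ℕ)] (Kq ℓ)), ← map_sub, norm_algebraMap']
  have hm0 : (m : ZMod (ℓ : ℕ)) ≠ 0 := fun h0 => by
    rw [ZMod.natCast_eq_zero_iff, ← norm_natCast_lt_one_iff] at h0
    have := (IsUltrametricDist.norm_add_le_max (algebraMap ℚ_[(ℓ : ℕ)] (Kq ℓ) c - m) (m : Kq ℓ)).trans_lt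
      (max_lt hm' h0)
    rw [sub_add_cancel, norm_algebraMap', hx] at this
    exact lt_irrefl _ this
  exact ⟨Units.mk0 _ hm0, m, rfl, hm'⟩

variable (ℓ) in
open Classical in
/-- The residue of a unit of `ℚ_ℓ`. -/
def resUnit (x : Kq ℓ) : (ZMod (ℓ : ℕ))ˣ :=
  if h : ∃ a, HasRes ℓ x a then h.choose else 1

lemma resUnit_eq {x : Kq ℓ} {a : (ZMod (ℓ : ℕ))ˣ} (h : HasRes ℓ x a) : resUnit ℓ x = a := by
  have h' : ∃ a, HasRes ℓ x a := ⟨a, h⟩
  rw [resUnit, dif_pos h']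
  exact h'.choose_spec.unique h

/-! ### Fixed ideles -/

/-- Components at the distinguished places of a `G_ℚ`-fixed element are rational. -/
lemma exists_algebraMap_eq_sval {r : Nat.Primes} {x : Semi r} (hx : x ∈ fixSub (A := Semi r) (⊤ : Subgroup GQ))
    (g : GQ) : ∃ c : ℚ_[(r : ℕ)], algebraMap ℚ_[(r : ℕ)] (Kq r) c = sval x g := by
  have hg : sval x g = sval x 1 := by
    conv_lhs => rw [← one_mul g]
    exact sval_mul_right hx 1 trivial
  rw [hg]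
  refine (InfiniteGalois.mem_range_algebraMap_iff_fixed _).2 fun τ => ?_
  rw [← sval_loc, mul_one]
  conv_lhs => rw [← one_mul (loc r τ)]
  exact sval_mul_right hx 1 trivial

lemma sval_eq_one_of_top {r : Nat.Primes} {x : Semi r} (hx : x ∈ fixSub (A := Semi r) (⊤ : Subgroup GQ)) (g : GQ) :
    sval x g = sval x 1 := by
  conv_lhs => rw [← one_mul g]
  exact sval_mul_right hx 1 trivial

lemma sval_zsmul {r : Nat.Primes} (k : ℤ) (x : Semi r) (g : GQ) : sval (k • x) g = sval x g ^ k := by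
  induction k using Int.induction_on with
  | zero => simp
  | succ i ih => rw [add_zsmul, sval_add, one_zsmul, ih, zpow_add_one₀ (sval_ne_zero _ _)]
  | pred i ih =>
    rw [sub_zsmul, one_zsmul, sub_eq_add_neg, sval_add, sval_neg, ih, zpow_add₀ (sval_ne_zero _ _), zpow_neg_one]

/-- The rational number `r`, as an element of `QMul`. -/
def nq (r : Nat.Primes) : QMul := toQMul ((r : ℕ) : QQbar) (Nat.cast_ne_zero.2 r.2.ne_zero)

lemma nq_mem (r : Nat.Primes) : nq r ∈ fixSub (A := QMul) (⊤ : Subgroup GQ) := fun s _ =>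
  qmul_ext (by rw [qval_smul, nq, qval_toQMul, map_natCast])

lemma sval_principal_nq (r q : Nat.Primes) (g : GQ) :
    sval (comp q (principal (nq r))) g = ((r : ℕ) : Kq q) := by
  rw [sval_principal, nq, qval_toQMul, map_natCast, map_natCast]

lemma norm_natCast_prime_ne {r q : Nat.Primes} (h : r ≠ q) : ‖((r : ℕ) : Kq q)‖ = 1 :=
  norm_natCast_kq_eq_one fun hd => h (Subtype.ext ((Nat.prime_dvd_prime_iff_eq q.2 r.2).1 hd).symm)

/-- A rational principal idele which is a unit everywhere is `±1`. -/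
lemma eq_one_or_neg_one_of_unit {a : QMul} (ha : a ∈ fixSub (A := QMul) (⊤ : Subgroup GQ))
    (hu : ∀ q, comp q (principal a) ∈ semiUnit q) : qval a = 1 ∨ qval a = -1 := by
  obtain ⟨t, ht⟩ : ∃ t : ℚ, algebraMap ℚ QQbar t = qval a := by
    have h := mem_fixField_iff.1 (mem_fixSub_qmul.1 ha)
    exact (InfiniteGalois.mem_range_algebraMap_iff_fixed _).2 fun f => h f trivial
  have ht0 : t ≠ 0 := fun h => qval_ne_zero a (by rw [← ht, h, map_zero])
  have hn : ∀ q : Nat.Primes, ‖(t : ℚ_[(q : ℕ)])‖ = 1 := fun q => by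
    have := hu q 1
    rw [sval_principal, ← ht, AlgEquiv.commutes, AlgHom.commutes,
      IsScalarTower.algebraMap_apply ℚ ℚ_[(q : ℕ)] (Kq q), norm_algebraMap', eq_ratCast] at this
    exact this
  have hnd : ∀ q : Nat.Primes, ¬ ((q : ℕ) : ℤ) ∣ t.num ∧ ¬ (q : ℕ) ∣ t.den := by
    intro q
    have e : ‖(t.num : ℚ_[(q : ℕ)])‖ = ‖((t.den : ℕ) : ℚ_[(q : ℕ)])‖ := by
      have h : (t.num : ℚ_[(q : ℕ)]) = (t : ℚ_[(q : ℕ)]) * (t.den : ℕ) := by
        exact_mod_cast (Rat.mul_den_eq_num t).symm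
      rw [h, norm_mul, hn, one_mul]
    have hcop : Nat.Coprime t.num.natAbs t.den := t.reduced
    have h1 : ((q : ℕ) : ℤ) ∣ t.num ↔ (q : ℕ) ∣ t.den := by
      rw [← Padic.norm_intCast_lt_one_iff (p := (q : ℕ)), e]
      constructor
      · intro h
        exact_mod_cast (Padic.norm_intCast_lt_one_iff (p := (q : ℕ)) (k := (t.den : ℤ))).1 (by exact_mod_cast h)
      · intro h
        exact_mod_cast (Padic.norm_intCast_lt_one_iff (p := (q : ℕ)) (k := (t.den : ℤ))).2 (by exact_mod_cast h)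
    have hb : ¬ (q : ℕ) ∣ t.den := fun h =>
      Nat.not_coprime_of_dvd_of_dvd q.2.one_lt (Int.natCast_dvd.1 (h1.2 h)) h hcop
    exact ⟨fun h => hb (h1.1 h), hb⟩
  have hden : t.den = 1 := Nat.eq_one_iff_not_exists_prime_dvd.2 fun d hd => (hnd ⟨d, hd⟩).2
  have hnum : t.num.natAbs = 1 :=
    Nat.eq_one_iff_not_exists_prime_dvd.2 fun d hd h => (hnd ⟨d, hd⟩).1 (Int.natCast_dvd.2 h)
  rcases Int.natAbs_eq_iff.1 hnum with h | h
  · left; rw [← ht, ← Rat.num_div_den t, hden, h]; simp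
  · right; rw [← ht, ← Rat.num_div_den t, hden, h]; simp

/-! ### The character -/

variable (ℓ)

/-- Fixed ideles whose component at `ℓ` is a unit of `ℚ_ℓ`. -/
def unitAt : AddSubgroup Idele where
  carrier := {x | RatUnit (sval (comp ℓ x) 1)}
  zero_mem' := ⟨by simp, 1, by simp⟩
  add_mem' := by
    rintro x y ⟨hx, c, hc⟩ ⟨hy, d, hd⟩
    exact ⟨by rw [map_add, sval_add, norm_mul, hx, hy, one_mul], c * d, by
      rw [map_mul, hc, hd, map_add, sval_add]⟩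
  neg_mem' := by
    rintro x ⟨hx, c, hc⟩
    exact ⟨by rw [map_neg, sval_neg, norm_inv, hx, inv_one], c⁻¹, by
      rw [map_inv₀, hc, map_neg, sval_neg]⟩

lemma mem_unitAt {x : Idele} (hx : x ∈ fixSub (A := Idele) (⊤ : Subgroup GQ)) (hu : comp ℓ x ∈ semiUnit ℓ) :
    x ∈ unitAt ℓ :=
  ⟨hu 1, exists_algebraMap_eq_sval (comp_mem_fixSub hx ℓ) 1⟩

variable {n : ℕ} (dl : (ZMod (ℓ : ℕ))ˣ →* Multiplicative (ZMod n))

/-- `dl` of the residue at `ℓ`. -/
def psiHom : unitAt ℓ →+ ZMod n where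
  toFun x := Multiplicative.toAdd (dl (resUnit ℓ (sval (comp ℓ (x : Idele)) 1)))
  map_zero' := by
    simp only [ZeroMemClass.coe_zero, map_zero, sval_zero]
    rw [resUnit_eq HasRes.one, map_one, toAdd_one]
  map_add' x y := by
    obtain ⟨a, ha⟩ := x.2.exists_hasRes
    obtain ⟨b, hb⟩ := y.2.exists_hasRes
    simp only [AddSubgroup.coe_add, map_add, sval_add]
    rw [resUnit_eq ha, resUnit_eq hb, resUnit_eq (ha.mul x.2.1.le hb), map_mul, toAdd_mul]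

open Classical in
/-- The value on a fixed idele. -/
def psiI (x : Idele) : ZMod n := if h : x ∈ unitAt ℓ then psiHom ℓ dl ⟨x, h⟩ else 0

lemma psiI_of_mem {x : Idele} (h : x ∈ unitAt ℓ) : psiI ℓ dl x = psiHom ℓ dl ⟨x, h⟩ := dif_pos h

lemma psiI_add {x y : Idele} (hx : x ∈ unitAt ℓ) (hy : y ∈ unitAt ℓ) :
    psiI ℓ dl (x + y) = psiI ℓ dl x + psiI ℓ dl y := by
  rw [psiI_of_mem ℓ dl (add_mem hx hy), psiI_of_mem ℓ dl hx, psiI_of_mem ℓ dl hy, ← map_add]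
  rfl

lemma psiI_eq {x : Idele} (hx : x ∈ unitAt ℓ) {a : (ZMod (ℓ : ℕ))ˣ}
    (ha : HasRes ℓ (sval (comp ℓ x) 1) a) : psiI ℓ dl x = Multiplicative.toAdd (dl a) := by
  rw [psiI_of_mem ℓ dl hx]
  show Multiplicative.toAdd (dl (resUnit ℓ (sval (comp ℓ x) 1))) = _
  rw [resUnit_eq ha]

/-- A representative which is a unit everywhere. -/
def IsUnitRep (c : Cl) (x : Idele) : Prop :=
  x ∈ fixSub (A := Idele) (⊤ : Subgroup GQ) ∧ (∀ q, comp q x ∈ semiUnit q) ∧ toCl x = c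

open Classical in
/-- The character on fixed idele classes. -/
def psi (c : Cl) : ZMod n := if h : ∃ x, IsUnitRep c x then psiI ℓ dl h.choose else 0

variable (hneg : dl (-1) = 1)

include hneg in
lemma psi_eq {c : Cl} {x : Idele} (hx : IsUnitRep c x) : psi ℓ dl c = psiI ℓ dl x := by
  have h : ∃ x, IsUnitRep c x := ⟨x, hx⟩
  rw [psi, dif_pos h]
  obtain ⟨hy, hyu, hyc⟩ := h.choose_spec
  set y := h.choose
  obtain ⟨a, ha⟩ := toCl_eq_zero_iff.1 (show toCl (y - x) = 0 by rw [map_sub, hyc, hx.2.2, sub_self])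
  have hxa : y = x + principal a := by rw [ha]; abel
  have hau : ∀ q, comp q (principal a) ∈ semiUnit q := fun q => by
    rw [ha, map_sub]; exact sub_mem (hyu q) (hx.2.1 q)
  have hafix : a ∈ fixSub (A := QMul) (⊤ : Subgroup GQ) := fun s _ => principal_injective (by
    rw [principal_smul, ha, smul_sub, hy s trivial, hx.1 s trivial])
  have hmem : principal a ∈ unitAt ℓ := mem_unitAt ℓ (principal_mem_fixSub hafix) (hau ℓ)
  rw [hxa, psiI_add ℓ dl (mem_unitAt ℓ hx.1 (hx.2.1 ℓ)) hmem, add_eq_left]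
  have : Fact (ℓ : ℕ).Prime := ⟨ℓ.2⟩
  rcases eq_one_or_neg_one_of_unit hafix hau with h1 | h1
  · rw [psiI_eq ℓ dl hmem (a := 1), map_one, toAdd_one]
    rw [sval_principal, h1, map_one, map_one]; exact HasRes.one
  · rw [psiI_eq ℓ dl hmem (a := -1), hneg, toAdd_one]
    rw [sval_principal, h1, map_neg, map_neg, map_one, map_one]
    refine ⟨(ℓ : ℕ) - 1, ?_, ?_⟩
    · rw [Nat.cast_sub ℓ.2.one_le, ZMod.natCast_self, Nat.cast_one, zero_sub, Units.val_neg, Units.val_one]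
    · rw [Nat.cast_sub ℓ.2.one_le, Nat.cast_one, show (-1 : Kq ℓ) - (((ℓ : ℕ) : Kq ℓ) - 1) = -((ℓ : ℕ) : Kq ℓ) by ring,
        norm_neg, norm_natCast_lt_one_iff]

/-- Every fixed idele becomes a unit after removing powers of primes. -/
lemma exists_sub_units {z : Idele} (hz : z ∈ fixSub (A := Idele) (⊤ : Subgroup GQ)) :
    ∃ (T : Finset Nat.Primes) (v : Nat.Primes → ℤ),
      (∀ r, ‖sval (comp r z) 1‖ = ((r : ℕ) : ℝ) ^ (-v r)) ∧
      IsUnitRep (toCl z) (z - ∑ r ∈ T, v r • principal (nq r)) := by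
  classical
  choose c hc using fun r => exists_algebraMap_eq_sval (comp_mem_fixSub hz r) 1
  have hc0 : ∀ r, c r ≠ 0 := fun r h => sval_ne_zero (comp r z) 1 (by rw [← hc, h, map_zero])
  have hv : ∀ r, ‖sval (comp r z) 1‖ = ((r : ℕ) : ℝ) ^ (-(c r).valuation) := fun r => by
    rw [← hc, norm_eq_zpow_algebraMap r (hc0 r)]
  refine ⟨z.2.2.toFinset, fun r => (c r).valuation, hv, ?_, fun q g => ?_, ?_⟩
  · exact sub_mem hz (sum_mem fun r _ => zsmul_mem (principal_mem_fixSub (nq_mem r)) _)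
  · rw [map_sub, map_sum, sub_eq_add_neg, sval_add, sval_neg, sval_sum, norm_mul, norm_inv,
      norm_prod, sval_eq_one_of_top (comp_mem_fixSub hz q) g, hv q]
    simp only [map_zsmul, sval_zsmul, sval_principal_nq, norm_zpow]
    by_cases hq : q ∈ z.2.2.toFinset
    · rw [Finset.prod_eq_single_of_mem q hq fun r _ hr => by rw [norm_natCast_prime_ne hr, one_zpow],
        norm_prime_kq, inv_zpow', mul_inv_cancel₀]
      exact zpow_ne_zero _ (Nat.cast_ne_zero.2 q.2.ne_zero)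
    · have hu : comp q z ∈ semiUnit q := by
        show z.1 q ∈ semiUnit q
        simpa using (Set.Finite.mem_toFinset z.2.2).not.1 hq
      rw [Finset.prod_eq_one fun r hr => by
        rw [norm_natCast_prime_ne (fun e : r = q => hq (e ▸ hr)), one_zpow], inv_one, mul_one, ← hv q]
      exact hu 1
  · have : toCl (∑ r ∈ z.2.2.toFinset, (c r).valuation • principal (nq r)) = 0 :=
      toCl_eq_zero_iff.2 ⟨∑ r ∈ z.2.2.toFinset, (c r).valuation • nq r, by simp [map_sum]⟩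
    rw [map_sub, this, sub_zero]

lemma exists_isUnitRep {c : Cl} (hc : c ∈ fixSub (A := Cl) (⊤ : Subgroup GQ)) : ∃ x, IsUnitRep c x := by
  obtain ⟨z, hz, rfl⟩ := exists_fix_toCl_eq Level.bot le_top hc
  obtain ⟨T, v, -, h⟩ := exists_sub_units hz
  exact ⟨_, h⟩

include hneg in
lemma psi_add {c d : Cl} (hc : c ∈ fixSub (A := Cl) (⊤ : Subgroup GQ)) (hd : d ∈ fixSub (A := Cl) (⊤ : Subgroup GQ)) :
    psi ℓ dl (c + d) = psi ℓ dl c + psi ℓ dl d := by
  obtain ⟨x, hx⟩ := exists_isUnitRep hc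
  obtain ⟨y, hy⟩ := exists_isUnitRep hd
  have hxy : IsUnitRep (c + d) (x + y) := ⟨add_mem hx.1 hy.1, fun q => by
    rw [map_add]; exact add_mem (hx.2.1 q) (hy.2.1 q), by rw [map_add, hx.2.2, hy.2.2]⟩
  rw [psi_eq ℓ dl hneg hx, psi_eq ℓ dl hneg hy, psi_eq ℓ dl hneg hxy,
    psiI_add ℓ dl (mem_unitAt ℓ hx.1 (hx.2.1 ℓ)) (mem_unitAt ℓ hy.1 (hy.2.1 ℓ))]

include hneg in
/-- `psi` as a homomorphism. -/
def psiCl : ↥(fixSub (A := Cl) (⊤ : Subgroup GQ)) →+ ZMod n :=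
  AddMonoidHom.mk' (fun c => psi ℓ dl c.1) fun c d => psi_add ℓ dl hneg c.2 d.2

lemma mem_fixSub_sum_nq {ι : Type*} (s : Finset ι) (v : ι → ℤ) (r : ι → Nat.Primes) :
    (∑ i ∈ s, v i • principal (nq (r i))) ∈ fixSub (A := Idele) (⊤ : Subgroup GQ) :=
  sum_mem fun i _ => zsmul_mem (principal_mem_fixSub (nq_mem (r i))) _

lemma hasRes_nq {r : Nat.Primes} (hr : r ≠ ℓ) :
    ∃ h : ((r : ℕ) : ZMod (ℓ : ℕ)) ≠ 0, ∀ hu : principal (nq r) ∈ unitAt ℓ,
      psiI ℓ dl (principal (nq r)) = Multiplicative.toAdd (dl (Units.mk0 ((r : ℕ) : ZMod (ℓ : ℕ)) h)) := by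
  have : Fact (ℓ : ℕ).Prime := ⟨ℓ.2⟩
  have h : ((r : ℕ) : ZMod (ℓ : ℕ)) ≠ 0 := by
    rw [Ne, ZMod.natCast_eq_zero_iff]
    exact fun hd => hr (Subtype.ext ((Nat.prime_dvd_prime_iff_eq ℓ.2 r.2).1 hd).symm)
  refine ⟨h, fun hu => psiI_eq ℓ dl hu ⟨r, rfl, ?_⟩⟩
  rw [sval_principal_nq, sub_self, norm_zero]; exact one_pos

end FLTAgent.Global
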