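import Fermat.Agent.Global.Fund.Psi
import Fermat.Agent.Global.Semilocal.Valuation
import Fermat.Agent.Global.CFT.Tate
import Fermat.Agent.Global.Ext.ClassModule

/-!
The character `psi` kills the norms from the field cut out by `dl`.
-/

set_option autoImplicit false
set_option synthInstance.maxHeartbeats 100000

noncomputable section

namespace FLTAgent.Global

variable (ℓ : Nat.Primes)

/-- The level `ℚ(ζ_ℓ)`. -/
def zetaLevel : Level where
  fld := IntermediateField.adjoin ℚ {zeta ℓ}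
  fin := IntermediateField.adjoin.finiteDimensional (Algebra.IsIntegral.isIntegral _)
  gal := by
    have : FiniteDimensional ℚ (IntermediateField.adjoin ℚ {zeta ℓ}) :=
      IntermediateField.adjoin.finiteDimensional (Algebra.IsIntegral.isIntegral _)
    refine @isGalois_iff .. |>.2 ⟨inferInstance, IntermediateField.normal_iff_forall_map_le'.2 fun g => ?_⟩
    rw [IntermediateField.adjoin_map, IntermediateField.adjoin_le_iff]
    rintro _ ⟨x, rfl, rfl⟩
    show g (zeta ℓ) ∈ _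
    rw [cyc_spec]
    exact pow_mem (IntermediateField.mem_adjoin_simple_self ℚ _) _

lemma zetaLevel_grp : (zetaLevel ℓ).grp = (cyc ℓ).ker := by
  ext g
  rw [MonoidHom.mem_ker, cyc_eq_one_iff]
  refine ⟨fun h => (IntermediateField.mem_fixingSubgroup_iff _ _).1 h _
    (IntermediateField.mem_adjoin_simple_self ℚ _), fun h => (IntermediateField.mem_fixingSubgroup_iff _ _).2 ?_⟩
  intro x hx
  have hle : (zetaLevel ℓ).fld ≤ IntermediateField.fixedField (Subgroup.zpowers g) := by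
    show IntermediateField.adjoin ℚ {zeta ℓ} ≤ _
    rw [IntermediateField.adjoin_le_iff]
    rintro _ rfl ⟨_, k, rfl⟩
    exact MulAction.mem_stabilizer_iff.1 (Subgroup.zpow_mem _
      (show g ∈ MulAction.stabilizer GQ (zeta ℓ) from MulAction.mem_stabilizer_iff.2 h) k)
  exact hle hx ⟨g, Subgroup.mem_zpowers g⟩

lemma zetaLevel_unrAt {r : Nat.Primes} (hr : r ≠ ℓ) : (zetaLevel ℓ).UnrAt r := fun A hA σ hσ => by
  rw [zetaLevel_grp, MonoidHom.mem_ker]
  exact cyc_inertia ℓ r.2 (fun h => hr (Subtype.ext h)) hA hσ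

variable {ℓ} {n : ℕ} (dl : (ZMod (ℓ : ℕ))ˣ →* Multiplicative (ZMod n)) (hneg : dl (-1) = 1)

/-- The character of `G_ℚ` attached to `dl`. -/
abbrev chi : GQ →* Multiplicative (ZMod n) := dl.comp (cyc ℓ)

lemma cyc_surjective : Function.Surjective (cyc ℓ) := fun u =>
  let ⟨τ, hτ⟩ := exists_cyc_loc_eq ℓ u
  ⟨loc ℓ τ, hτ⟩

lemma ker_cyc_le_chi : (cyc ℓ).ker ≤ (chi dl).ker := fun s hs => by
  rw [MonoidHom.mem_ker, MonoidHom.comp_apply, hs, map_one]

lemma lvl_top_chi : Lvl (⊤ : Subgroup GQ) (chi dl).ker where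
  le := le_top
  conj g _ s hs := by simpa using (chi dl).normal_ker.conj_mem s hs g⁻¹
  fin := by
    have h := (zetaLevel ℓ).lvl (H := (⊤ : Subgroup GQ)) le_top
    have := h.fin
    exact Finite.of_surjective (Quotient.map' id fun a b hab => by
        rw [QuotientGroup.leftRel_apply, Subgroup.mem_subgroupOf] at hab ⊢
        exact ker_cyc_le_chi dl (zetaLevel_grp ℓ ▸ hab))
      fun q => Quotient.inductionOn' q fun a => ⟨QuotientGroup.mk a, rfl⟩

lemma sval_csum {H P : Subgroup GQ} [Fintype (↥H ⧸ P.subgroupOf H)] {r : Nat.Primes}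
    (F : GQ → Semi r) (g : GQ) : sval (csum H P F) g = ∏ q, sval (F (rep H P q)) g := by
  rw [csum_eq_sum, sval_sum]

lemma comp_normTo {H P : Subgroup GQ} (hf : Finite (↥H ⧸ P.subgroupOf H)) (r : Nat.Primes) (x : Idele) :
    comp r (normTo H P x) = normTo H P (comp r x) := by
  rw [normTo, map_csum H P hf]
  rfl

lemma toCl_normTo {H P : Subgroup GQ} (hf : Finite (↥H ⧸ P.subgroupOf H)) (x : Idele) :
    toCl (normTo H P x) = normTo H P (toCl x) := by
  unfold normTo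
  have e := map_csum (B := Cl) H P hf (toCl : Idele →+ Cl) fun t => t • x
  exact e.trans (csum_congr H P fun t _ => (smul_toCl t x).symm)

lemma zpow_sum_eq_prod {ι : Type*} {s : Finset ι} {K : Type*} [Field K] {x : K} (hx : x ≠ 0)
    (f : ι → ℤ) : x ^ (∑ i ∈ s, f i) = ∏ i ∈ s, x ^ f i := by
  classical
  induction s using Finset.induction with
  | empty => simp
  | insert i s hi ih => rw [Finset.sum_insert hi, Finset.prod_insert hi, zpow_add₀ hx, ih]

/-- Away from `ℓ`, the valuation of a norm is killed by the Frobenius value. -/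
lemma val_smul_dl_eq_zero {r : Nat.Primes} (hr : r ≠ ℓ) {y : Semi r}
    (hy : y ∈ fixSub (A := Semi r) (chi dl).ker) {v : ℤ}
    (hv : ‖sval (normTo ⊤ (chi dl).ker y) 1‖ = ((r : ℕ) : ℝ) ^ (-v))
    (h : ((r : ℕ) : ZMod (ℓ : ℕ)) ≠ 0) :
    v • Multiplicative.toAdd (dl (Units.mk0 _ h)) = 0 := by
  classical
  have : Fact (ℓ : ℕ).Prime := ⟨ℓ.2⟩
  have := (lvl_top_chi dl).fin
  let _ := Fintype.ofFinite (↥(⊤ : Subgroup GQ) ⧸ (chi dl).ker.subgroupOf ⊤)
  have hyL : y ∈ fixSub (A := Semi r) (zetaLevel ℓ).grp := fun s hs =>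
    hy s (ker_cyc_le_chi dl (zetaLevel_grp ℓ ▸ hs))
  choose m hm using fun g => exists_sval_norm_eq (zetaLevel ℓ) r (zetaLevel_unrAt ℓ hr) hyL g
  obtain ⟨τ, hτ⟩ := exists_cyc_loc_eq_natCast ℓ r hr
  have hτ' : cyc ℓ (loc r τ) = Units.mk0 _ h := Units.ext hτ
  have hinj : ∀ a b : ℤ, ((r : ℕ) : ℝ) ^ a = ((r : ℕ) : ℝ) ^ b → a = b := fun a b hab =>
    zpow_right_injective₀ (Nat.cast_pos.2 r.2.pos) (by exact_mod_cast r.2.one_lt.ne') hab
  set g₀ := loc r τ
  have hleft : ∀ g, m (g₀ * g) = m g := fun g => hinj _ _ (by rw [← hm, ← hm, sval_loc, norm_gq])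
  have hright : ∀ g, ∀ s ∈ (chi dl).ker, m (g * s) = m g := fun g s hs =>
    hinj _ _ (by rw [← hm, ← hm, sval_mul_right hy g hs])
  set w : GQ → ZMod n := fun g => Multiplicative.toAdd (chi dl g)
  have hperm : ∀ q, m (rep ⊤ (chi dl).ker (trans (Subgroup.mem_top g₀) q)) = m (rep ⊤ (chi dl).ker q) ∧
      w (rep ⊤ (chi dl).ker (trans (Subgroup.mem_top g₀) q)) = w g₀ + w (rep ⊤ (chi dl).ker q) := by
    intro q
    have hs := slip_mem (P := (chi dl).ker) (Subgroup.mem_top g₀) q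
    have e := rep_mul_slip (P := (chi dl).ker) (Subgroup.mem_top g₀) q
    refine ⟨?_, ?_⟩
    · rw [← hright _ _ hs, e, hleft]
    · simp only [w]
      have hs1 : chi dl (slip (Subgroup.mem_top g₀) q) = 1 := hs
      rw [← toAdd_mul, ← map_mul, ← e, map_mul, hs1, mul_one]
  -- the valuation is the sum over the places
  have hsum : -v = ∑ q, m (rep ⊤ (chi dl).ker q) := by
    apply hinj
    rw [← hv, normTo, sval_csum, norm_prod, zpow_sum_eq_prod (Nat.cast_ne_zero.2 r.2.ne_zero)]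
    refine Finset.prod_congr rfl fun q _ => ?_
    rw [sval_smul, one_mul, hm]
  have key : (∑ q, m (rep ⊤ (chi dl).ker q)) • w g₀ = 0 := by
    have e := Equiv.sum_comp (trans (Subgroup.mem_top g₀))
      (fun q => m (rep ⊤ (chi dl).ker q) • w (rep ⊤ (chi dl).ker q))
    simp only [fun q => (hperm q).1, fun q => (hperm q).2, zsmul_add, Finset.sum_add_distrib,
      add_eq_right] at e
    rw [Finset.sum_smul]
    exact e
  rw [← hsum, neg_zsmul, neg_eq_zero] at key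
  simpa [w, g₀, hτ'] using key

lemma lvl_top_cyc : Lvl (⊤ : Subgroup GQ) (cyc ℓ).ker :=
  zetaLevel_grp ℓ ▸ (zetaLevel ℓ).lvl (H := (⊤ : Subgroup GQ)) le_top

lemma normTo_cyc_eq {y : Semi ℓ} (hy : y ∈ fixSub (A := Semi ℓ) (chi dl).ker) :
    normTo ⊤ (cyc ℓ).ker y
      = (cyc ℓ).ker.relIndex (chi dl).ker • normTo ⊤ (chi dl).ker y := by
  have hle := ker_cyc_le_chi dl
  have hsub := lvl_top_cyc.sub_left le_top hle
  rw [← normTo_tower lvl_top_cyc le_top hle
      (fun s hs => hy s (hle hs)),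
    normTo_of_fixed hsub hy, normTo_nsmul (lvl_top_chi dl)]

/-- The norm from the cyclotomic field is `ℓ^k` times a principal unit. -/
lemma exists_sval_normTo_cyc {y : Semi ℓ} (hy : y ∈ fixSub (A := Semi ℓ) (chi dl).ker) :
    ∃ (k : ℤ) (w : Kq ℓ), sval (normTo ⊤ (cyc ℓ).ker y) 1 = ((ℓ : ℕ) : Kq ℓ) ^ k * w ∧ ‖w - 1‖ < 1 := by
  classical
  have : Fact (ℓ : ℕ).Prime := ⟨ℓ.2⟩
  have := (lvl_top_cyc (ℓ := ℓ)).fin
  let _ := Fintype.ofFinite (↥(⊤ : Subgroup GQ) ⧸ (cyc ℓ).ker.subgroupOf ⊤)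
  choose Tr hTr using exists_cyc_loc_eq ℓ
  have hfix : CycFixed ℓ (sval y 1) := fun τ hτ => by
    rw [← sval_loc, mul_one, ← one_mul (loc ℓ τ)]
    exact sval_mul_right hy 1 (ker_cyc_le_chi dl hτ)
  obtain ⟨k, w, hprod, hw⟩ := exists_prod_cyc ℓ hfix (sval_ne_zero y 1) Tr hTr
  refine ⟨k, w, ?_, hw⟩
  have hbij : Function.Bijective
      (fun q : ↥(⊤ : Subgroup GQ) ⧸ (cyc ℓ).ker.subgroupOf ⊤ => cyc ℓ (rep ⊤ (cyc ℓ).ker q)) := by
    refine ⟨fun q q' h => ?_, fun u => ?_⟩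
    · rw [← QuotientGroup.out_eq' q, ← QuotientGroup.out_eq' q', QuotientGroup.eq,
        Subgroup.mem_subgroupOf, MonoidHom.mem_ker]
      push_cast
      rw [map_mul, map_inv]
      exact inv_mul_eq_one.2 h
    · obtain ⟨g, rfl⟩ := cyc_surjective u
      refine ⟨QuotientGroup.mk ⟨g, trivial⟩, ?_⟩
      have := QuotientGroup.out_eq' (QuotientGroup.mk (s := (cyc ℓ).ker.subgroupOf ⊤) (⟨g, trivial⟩ : (⊤ : Subgroup GQ)))
      rw [QuotientGroup.eq, Subgroup.mem_subgroupOf, MonoidHom.mem_ker] at this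
      push_cast at this
      rw [map_mul, map_inv, inv_mul_eq_one] at this
      exact this
  rw [normTo, sval_csum, ← hprod]
  refine Fintype.prod_bijective _ hbij _ _ fun q => ?_
  rw [sval_smul, one_mul, ← sval_loc, mul_one]
  have hs : (loc ℓ (Tr (cyc ℓ (rep ⊤ (cyc ℓ).ker q))))⁻¹ * rep ⊤ (cyc ℓ).ker q ∈ (chi dl).ker :=
    ker_cyc_le_chi dl (by rw [MonoidHom.mem_ker, map_mul, map_inv, hTr, inv_mul_cancel])
  conv_rhs => rw [← sval_mul_right hy _ hs]
  rw [mul_inv_cancel_left]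

lemma dl_eq_one_of_pow {a : (ZMod (ℓ : ℕ))ˣ} (ha : a ^ (cyc ℓ).ker.relIndex (chi dl).ker = 1) :
    dl a = 1 := by
  classical
  have : Fact (ℓ : ℕ).Prime := ⟨ℓ.2⟩
  set d := (cyc ℓ).ker.relIndex (chi dl).ker with hd
  have hdk : d = Nat.card dl.ker := by
    rw [hd, Subgroup.relIndex_ker, show (chi dl).ker = dl.ker.comap (cyc ℓ) from
      (MonoidHom.comap_ker dl (cyc ℓ)).symm, Subgroup.map_comap_eq_self_of_surjective cyc_surjective]
  rw [← MonoidHom.mem_ker]
  set S := Finset.univ.filter fun b : (ZMod (ℓ : ℕ))ˣ => b ^ d = 1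
  have hsub' : (dl.ker : Set (ZMod (ℓ : ℕ))ˣ).toFinset ⊆ S := fun b hb => by
    rw [Set.mem_toFinset, SetLike.mem_coe] at hb
    simp only [S, Finset.mem_filter, Finset.mem_univ, true_and, hdk]
    exact congrArg Subtype.val (pow_card_eq_one' (x := (⟨b, hb⟩ : dl.ker)))
  have hcard : S.card ≤ ((dl.ker : Set (ZMod (ℓ : ℕ))ˣ).toFinset).card := by
    rw [Set.toFinset_card]
    refine (IsCyclic.card_pow_eq_one_le (hdk ▸ Nat.card_pos)).trans (le_of_eq ?_)
    rw [hdk, Nat.card_eq_fintype_card]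
    exact Fintype.card_congr (Equiv.refl _)
  have haS : a ∈ S := by simp [S, ha]
  rw [← Finset.eq_of_subset_of_card_le hsub' hcard, Set.mem_toFinset] at haS
  exact haS

set_option maxHeartbeats 800000 in
include hneg in
/-- `psi` kills the norms from the fixed field of `ker chi`. -/
theorem psi_normTo_chi {c : Cl} (hc : c ∈ fixSub (A := Cl) (chi dl).ker) :
    psi ℓ dl (normTo ⊤ (chi dl).ker c) = 0 := by
  classical
  have : Fact (ℓ : ℕ).Prime := ⟨ℓ.2⟩
  set K := (chi dl).ker with hK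
  have hZK : (zetaLevel ℓ).grp ≤ K := zetaLevel_grp ℓ ▸ ker_cyc_le_chi dl
  obtain ⟨x, hx, rfl⟩ := exists_fix_toCl_eq (zetaLevel ℓ) hZK hc
  have hlK := lvl_top_chi dl
  rw [← toCl_normTo hlK.fin]
  set z := normTo ⊤ K x with hzdef
  have hz : z ∈ fixSub (A := Idele) (⊤ : Subgroup GQ) := fun s _ =>
    smul_normTo_of_lvl hlK hx (Subgroup.mem_top s)
  obtain ⟨T, v, hv, hrep⟩ := exists_sub_units hz
  rw [psi_eq ℓ dl hneg hrep]
  -- the terms away from `ℓ`
  have hzc : ∀ r, comp r z = normTo ⊤ K (comp r x) := fun r => comp_normTo hlK.fin r x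
  have hnq : ∀ r, r ≠ ℓ → principal (nq r) ∈ unitAt ℓ := fun r hr =>
    mem_unitAt ℓ (principal_mem_fixSub (nq_mem r)) fun g => by
      rw [sval_principal_nq, norm_natCast_prime_ne hr]
  set z₁ := z - v ℓ • principal (nq ℓ) with hz1
  have hz1f : z₁ ∈ fixSub (A := Idele) (⊤ : Subgroup GQ) :=
    sub_mem hz (zsmul_mem (principal_mem_fixSub (nq_mem ℓ)) _)
  have hz1u : z₁ ∈ unitAt ℓ := mem_unitAt ℓ hz1f fun g => by
    rw [sval_eq_one_of_top (comp_mem_fixSub hz1f ℓ) g, hz1, map_sub, map_zsmul, sub_eq_add_neg,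
      sval_add, sval_neg, sval_zsmul, sval_principal_nq, norm_mul, norm_inv, norm_zpow, hv ℓ,
      norm_prime_kq, inv_zpow', mul_inv_cancel₀]
    exact zpow_ne_zero _ (Nat.cast_ne_zero.2 ℓ.2.ne_zero)
  have hother : ∀ r ∈ T.erase ℓ, v r • principal (nq r) ∈ unitAt ℓ ∧ psiI ℓ dl (v r • principal (nq r)) = 0 := by
    intro r hr
    have hr' := Finset.ne_of_mem_erase hr
    refine ⟨zsmul_mem (hnq r hr') _, ?_⟩
    obtain ⟨h, hval⟩ := hasRes_nq ℓ dl hr'
    have hk := val_smul_dl_eq_zero dl hr' (comp_mem_fixSub hx r) (v := v r) (by rw [← hzc]; exact hv r) h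
    rw [psiI_of_mem ℓ dl (zsmul_mem (hnq r hr') _)]
    have e := map_zsmul (psiHom ℓ dl) (v r) ⟨_, hnq r hr'⟩
    rw [← psiI_of_mem ℓ dl (hnq r hr'), hval (hnq r hr'), hk] at e
    exact e
  have hsplit : z - ∑ r ∈ T, v r • principal (nq r)
      = z₁ - ∑ r ∈ T.erase ℓ, v r • principal (nq r) := by
    by_cases hl : ℓ ∈ T
    · rw [hz1, ← Finset.add_sum_erase T _ hl]; abel
    · rw [Finset.erase_eq_of_notMem hl, hz1]
      -- then `v ℓ = 0`
      have : v ℓ = 0 := by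
        have hu := hrep.2.1 ℓ 1
        rw [map_sub, map_sum, sub_eq_add_neg, sval_add, sval_neg, sval_sum, norm_mul, norm_inv,
          norm_prod, hv ℓ, Finset.prod_eq_one fun r hr => by
            rw [map_zsmul, sval_zsmul, sval_principal_nq, norm_zpow,
              norm_natCast_prime_ne (fun e : r = ℓ => hl (e ▸ hr)), one_zpow],
          inv_one, mul_one] at hu
        have := zpow_right_injective₀ (Nat.cast_pos.2 ℓ.2.pos) (by exact_mod_cast ℓ.2.one_lt.ne')
          (hu.trans (zpow_zero _).symm)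
        omega
      rw [this, zero_zsmul, sub_zero]
  have hsum : (∑ r ∈ T.erase ℓ, v r • principal (nq r)) ∈ unitAt ℓ := sum_mem fun r hr => (hother r hr).1
  have hsum0 : psiHom ℓ dl ⟨_, hsum⟩ = 0 := by
    have : (⟨_, hsum⟩ : unitAt ℓ) = ∑ r ∈ (T.erase ℓ).attach, ⟨_, (hother r.1 r.2).1⟩ := by
      apply Subtype.ext
      rw [AddSubgroup.val_finsetSum]
      exact (Finset.sum_attach _ _).symm
    rw [this, map_sum]
    exact Finset.sum_eq_zero fun r _ => by rw [← psiI_of_mem]; exact (hother r.1 r.2).2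
  rw [hsplit, psiI_of_mem ℓ dl (sub_mem hz1u hsum),
    show (⟨_, sub_mem hz1u hsum⟩ : unitAt ℓ) = ⟨_, hz1u⟩ - ⟨_, hsum⟩ from rfl, map_sub, hsum0, sub_zero]
  -- the unit part at `ℓ`
  obtain ⟨a, ha⟩ := hz1u.exists_hasRes
  show Multiplicative.toAdd (dl (resUnit ℓ _)) = 0
  rw [resUnit_eq ha, toAdd_eq_zero]
  set d := (cyc ℓ).ker.relIndex K with hd
  set y := comp ℓ x with hy
  have hyK : y ∈ fixSub (A := Semi ℓ) K := comp_mem_fixSub hx ℓ
  have hN : normTo ⊤ (cyc ℓ).ker y = d • normTo ⊤ K y := normTo_cyc_eq dl hyK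
  obtain ⟨k, w, hval, hw⟩ := exists_sval_normTo_cyc dl hyK
  have hw1 : ‖w‖ = 1 := by
    have h := IsUltrametricDist.norm_add_eq_max_of_norm_ne_norm (x := w - 1) (y := 1)
      (by rw [norm_one]; exact hw.ne)
    rw [sub_add_cancel, norm_one, max_eq_right hw.le] at h
    exact h
  set u := sval (comp ℓ z₁) 1 with hu
  have hz1val : sval (normTo ⊤ K y) 1 = ((ℓ : ℕ) : Kq ℓ) ^ v ℓ * u := by
    rw [hu, hz1, map_sub, map_zsmul, sub_eq_add_neg, sval_add, sval_neg, sval_zsmul, sval_principal_nq,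
      ← hzc ℓ, mul_comm (sval (comp ℓ z) 1), ← mul_assoc, mul_inv_cancel₀, one_mul]
    exact zpow_ne_zero _ (Nat.cast_ne_zero.2 ℓ.2.ne_zero)
  have hu1 : ‖u‖ = 1 := hz1u.1
  have heq : ((ℓ : ℕ) : Kq ℓ) ^ k * w = ((ℓ : ℕ) : Kq ℓ) ^ ((d : ℤ) * v ℓ) * u ^ d := by
    rw [← hval, hN, ← natCast_zsmul, sval_zsmul, hz1val, mul_zpow, ← zpow_mul, mul_comm (v ℓ),
      zpow_natCast]
  have hk : k = (d : ℤ) * v ℓ := by
    have := congrArg norm heq
    rw [norm_mul, norm_mul, norm_zpow, norm_zpow, norm_pow, hu1, one_pow, hw1, mul_one, mul_one,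
      norm_prime_kq] at this
    exact zpow_right_injective₀ (inv_pos.2 (Nat.cast_pos.2 ℓ.2.pos))
      (by rw [Ne, inv_eq_one]; exact_mod_cast ℓ.2.one_lt.ne') this
  rw [hk] at heq
  have huw : u ^ d = w := (mul_left_cancel₀ (zpow_ne_zero _ (Nat.cast_ne_zero.2 ℓ.2.ne_zero)) heq).symm
  have had : a ^ d = 1 := by
    have hpow : ∀ i : ℕ, HasRes ℓ (u ^ i) (a ^ i) := by
      intro i
      induction i with
      | zero => simpa using HasRes.one
      | succ i ih =>
        rw [pow_succ, pow_succ]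
        exact ih.mul (by rw [norm_pow, hu1, one_pow]) ha
    exact (hpow d).unique (huw ▸ HasRes.of_near_one hw)
  exact dl_eq_one_of_pow dl had

end FLTAgent.Global
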